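import Mathlib

/-!
# PROGRAMME II, kernel K1-(b), node (N2): the DESCENT LEMMA (pure algebra, Mathlib only)

`E` a field, `G` a finite group acting faithfully on `E` by ring automorphisms, `C` a `G`-stable
subfield ("the constants") such that `b ^ p ∈ C → b ∈ C`, and `Λ : E → E` a "leading constant":
multiplicative on nonzero elements, `G`-equivariant, with values in `C` and the identity on `C`.

* `hilbert90` : Noether's form of Hilbert 90 for a finite group acting faithfully on a field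
  (from Mathlib's `isMulCoboundary₁_of_isMulCocycle₁_of_aut_to_units` and Artin's theorem
  `FixedPoints.toAlgAutMulEquiv`);
* `descent` : if `s • f ∈ C · (E^×)^p · f` for all `s : G`, then there is `μ ≠ 0` such that
  `h := f / μ ^ p` is `G`-invariant UP TO CONSTANTS (`s • h = a * h`, `a ∈ C`), and `s • μ = μ` for
  every `s` fixing `f`.  The roots are normalised by `Λ = 1`, which makes them unique and turns
  them into an honest `1`-cocycle (no `μ_p`-ambiguity, no Brauer group);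
* `ratio_invariant` : for two leading constants `Λ₁`, `Λ₂` (multiplicative, equivariant, identity
  on `C`) the ratio `Λ₁ h / Λ₂ h` is fixed by `G` ("the unit part of the period is rational over the
  inertia field").

Blueprint: findings #1834 (T2, T3) and #1835 (§1 (4)).
-/

set_option autoImplicit false
set_option linter.unusedSectionVars false

namespace Fermat.Agent.FF4.Descent

open groupCohomology

variable {E : Type*} [Field E] {G : Type*} [Group G] [Finite G] [MulSemiringAction G E]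
  [FaithfulSMul G E]

/-- **Hilbert 90** for a finite group acting faithfully on a field: a `1`-cocycle with nonzero
values is a coboundary. -/
theorem hilbert90 (m : G → E) (hm0 : ∀ s, m s ≠ 0)
    (hm : ∀ s t : G, m (s * t) = m s * s • m t) :
    ∃ μ : E, μ ≠ 0 ∧ ∀ s : G, s • μ = m s * μ := by
  classical
  let K := FixedPoints.subfield G E
  let e : G ≃* (E ≃ₐ[K] E) := FixedPoints.toAlgAutMulEquiv G E
  have he : ∀ (s : G) (x : E), e s x = s • x := fun s x => rfl
  let f : (E ≃ₐ[K] E) → Eˣ := fun φ => Units.mk0 (m (e.symm φ)) (hm0 _)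
  have hf : IsMulCocycle₁ f := by
    intro g h
    apply Units.ext
    simp only [f, Units.val_mul, Units.val_mk0, AlgEquiv.smul_units_def, Units.coe_map,
      MonoidHom.coe_coe, map_mul]
    rw [hm, mul_comm]
    congr 1
    have := he (e.symm g) (m (e.symm h))
    rw [MulEquiv.apply_symm_apply] at this
    exact this.symm
  obtain ⟨x, hx⟩ := isMulCoboundary₁_of_isMulCocycle₁_of_aut_to_units f hf
  refine ⟨(x : E), x.ne_zero, fun s => ?_⟩
  have h1 := hx (e s)
  have h2 : ((e s • x / x : Eˣ) : E) = m s := by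
    rw [h1]
    simp only [f, Units.val_mk0, MulEquiv.symm_apply_apply]
  rw [Units.val_div_eq_div_val, AlgEquiv.smul_units_def, Units.coe_map, MonoidHom.coe_coe,
    he] at h2
  rw [← h2, div_mul_cancel₀ _ x.ne_zero]


/-- A "leading constant" relative to the subfield of constants `C`. -/
structure IsLead (C : Subfield E) (Λ : E → E) : Prop where
  ne_zero : ∀ x, x ≠ 0 → Λ x ≠ 0
  mul : ∀ x y, x ≠ 0 → y ≠ 0 → Λ (x * y) = Λ x * Λ y
  const : ∀ c ∈ C, c ≠ 0 → Λ c = c
  mem : ∀ x, x ≠ 0 → Λ x ∈ C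
  smul : ∀ (s : G) (x : E), x ≠ 0 → Λ (s • x) = s • Λ x

namespace IsLead

variable {C : Subfield E} {Λ : E → E}

theorem one (h : IsLead (G := G) C Λ) : Λ 1 = 1 := h.const 1 C.one_mem one_ne_zero

theorem inv (h : IsLead (G := G) C Λ) {x : E} (hx : x ≠ 0) : Λ x⁻¹ = (Λ x)⁻¹ := by
  have h1 := h.mul x x⁻¹ hx (inv_ne_zero hx)
  rw [mul_inv_cancel₀ hx, h.one] at h1
  exact eq_inv_of_mul_eq_one_right h1.symm

theorem div (h : IsLead (G := G) C Λ) {x y : E} (hx : x ≠ 0) (hy : y ≠ 0) :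
    Λ (x / y) = Λ x / Λ y := by
  rw [div_eq_mul_inv, h.mul x y⁻¹ hx (inv_ne_zero hy), h.inv hy, div_eq_mul_inv]

theorem pow (h : IsLead (G := G) C Λ) {x : E} (hx : x ≠ 0) (n : ℕ) : Λ (x ^ n) = Λ x ^ n := by
  induction n with
  | zero => rw [pow_zero, pow_zero, h.one]
  | succ n ih => rw [pow_succ, h.mul _ _ (pow_ne_zero n hx) hx, ih, pow_succ]

end IsLead

/-- **THE DESCENT LEMMA.** -/
theorem descent {p : ℕ} (hp : p ≠ 0) (C : Subfield E)
    (hC : ∀ (s : G) (c : E), c ∈ C → s • c ∈ C)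
    (hroot : ∀ b : E, b ^ p ∈ C → b ∈ C)
    {Λ : E → E} (hΛ : IsLead (G := G) C Λ)
    {f : E} (hf : f ≠ 0)
    (h : ∀ s : G, ∃ a ∈ C, ∃ m : E, s • f = a * m ^ p * f) :
    ∃ μ : E, μ ≠ 0 ∧
      (∀ s : G, ∃ a ∈ C, a ≠ 0 ∧ s • (f / μ ^ p) = a * (f / μ ^ p)) ∧
      (∀ s : G, s • f = f → s • μ = μ) := by
  classical
  choose a ha m hm using h
  -- nonvanishing
  have hsf : ∀ s : G, s • f ≠ 0 := fun s => by
    rwa [Ne, smul_eq_zero_iff_eq]
  have ham : ∀ s, a s ≠ 0 ∧ m s ≠ 0 := fun s => by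
    have h1 := hsf s
    rw [hm s] at h1
    have h2 := left_ne_zero_of_mul h1
    exact ⟨left_ne_zero_of_mul h2, fun h0 => right_ne_zero_of_mul h2 (by rw [h0, zero_pow hp])⟩
  -- normalisation
  let m' : G → E := fun s => m s / Λ (m s)
  let a' : G → E := fun s => a s * Λ (m s) ^ p
  have hΛm : ∀ s, Λ (m s) ≠ 0 := fun s => hΛ.ne_zero _ (ham s).2
  have hm'0 : ∀ s, m' s ≠ 0 := fun s => div_ne_zero (ham s).2 (hΛm s)
  have ha'0 : ∀ s, a' s ≠ 0 := fun s => mul_ne_zero (ham s).1 (pow_ne_zero p (hΛm s))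
  have ha'C : ∀ s, a' s ∈ C := fun s => C.mul_mem (ha s) (C.pow_mem (hΛ.mem _ (ham s).2) p)
  have hΛm' : ∀ s, Λ (m' s) = 1 := fun s => by
    show Λ (m s / Λ (m s)) = 1
    rw [hΛ.div (ham s).2 (hΛm s), hΛ.const _ (hΛ.mem _ (ham s).2) (hΛm s), div_self (hΛm s)]
  have hm' : ∀ s, s • f = a' s * m' s ^ p * f := fun s => by
    show s • f = a s * Λ (m s) ^ p * (m s / Λ (m s)) ^ p * f
    rw [hm s, div_pow]
    field_simp [hΛm s]
  -- uniqueness of normalised roots: the cocycle identity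
  have hcoc : ∀ s t : G, m' (s * t) = m' s * s • m' t := by
    intro s t
    have h1 : (s * t) • f = (a' s * s • a' t) * (m' s * s • m' t) ^ p * f := by
      rw [mul_smul, hm' t, smul_mul', smul_mul', smul_pow', hm' s]
      ring
    have hst0 : m' s * s • m' t ≠ 0 :=
      mul_ne_zero (hm'0 s) (by rw [Ne, smul_eq_zero_iff_eq]; exact hm'0 t)
    set b : E := m' (s * t) / (m' s * s • m' t) with hb
    have hb0 : b ≠ 0 := div_ne_zero (hm'0 _) hst0
    have hbp : b ^ p = (a' s * s • a' t) / a' (s * t) := by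
      have h2 : a' (s * t) * m' (s * t) ^ p = (a' s * s • a' t) * (m' s * s • m' t) ^ p := by
        have h3 := (hm' (s * t)).symm.trans h1
        exact mul_right_cancel₀ hf h3
      rw [hb, div_pow, eq_div_iff (ha'0 _), div_mul_eq_mul_div, div_eq_iff (pow_ne_zero p hst0)]
      rw [mul_comm, h2]
    have hbC : b ∈ C := hroot b (by
      rw [hbp]
      exact C.div_mem (C.mul_mem (ha'C s) (hC s _ (ha'C t))) (ha'C _))
    have hΛb : Λ b = 1 := by
      rw [hb, hΛ.div (hm'0 _) hst0, hΛ.mul _ _ (hm'0 s)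
        (by rw [Ne, smul_eq_zero_iff_eq]; exact hm'0 t), hΛ.smul s _ (hm'0 t), hΛm', hΛm', hΛm',
        smul_one, mul_one, div_one]
    have hb1 : b = 1 := by rw [← hΛ.const b hbC hb0, hΛb]
    rw [hb, div_eq_one_iff_eq hst0] at hb1
    exact hb1
  obtain ⟨μ, hμ0, hμ⟩ := hilbert90 m' hm'0 hcoc
  refine ⟨μ, hμ0, fun s => ⟨a' s, ha'C s, ha'0 s, ?_⟩, fun s hs => ?_⟩
  · rw [smul_div₀', smul_pow', hμ s, hm' s, mul_pow]
    field_simp [hm'0 s, hμ0]
  · -- `s` fixes `f`: the normalised root is `1`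
    have h1 : a' s * m' s ^ p = 1 := by
      have h2 := hm' s
      rw [hs] at h2
      exact (mul_right_cancel₀ hf (by rw [one_mul]; exact h2)).symm
    have h3 : m' s ^ p ∈ C := by
      have : m' s ^ p = (a' s)⁻¹ := eq_inv_of_mul_eq_one_right h1
      rw [this]
      exact C.inv_mem (ha'C s)
    have h4 : m' s ∈ C := hroot _ h3
    have h5 : m' s = 1 := by rw [← hΛ.const _ h4 (hm'0 s), hΛm']
    rw [hμ s, h5, one_mul]

/-- **Rationality of the unit part**: if `h` is `G`-invariant up to constants, the ratio of two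
leading constants of `h` is fixed by `G`. -/
theorem ratio_invariant (C : Subfield E) {Λ₁ Λ₂ : E → E} (h₁ : IsLead (G := G) C Λ₁)
    (h₂ : IsLead (G := G) C Λ₂) {h : E} (hh : h ≠ 0)
    (hinv : ∀ s : G, ∃ a ∈ C, a ≠ 0 ∧ s • h = a * h) (s : G) :
    s • (Λ₁ h / Λ₂ h) = Λ₁ h / Λ₂ h := by
  obtain ⟨a, haC, ha0, hs⟩ := hinv s
  rw [smul_div₀', ← h₁.smul s h hh, ← h₂.smul s h hh, hs, h₁.mul a h ha0 hh, h₂.mul a h ha0 hh,
    h₁.const a haC ha0, h₂.const a haC ha0, mul_div_mul_left _ _ ha0]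

end Fermat.Agent.FF4.Descent
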