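/-
K1-(b) SPIKE (findings #1834 / #1835), leaf T3 + "(v) on fractions" (helper20):
THE BOUNDARY MAPS ON THE FRACTION FIELDS OF THE COMPLETED COMPONENTS.

Abstract over a node input `I : ExpandBR.NodeInput Xb i j hj hfull hcol C` (`FF3/ExpandBR/Part`):
`I.b1 : C.Oh (src e) →+* BAmice K₁`, `I.b2 : C.Oh (tgt e) →+* BAmice K₁`, `K₁ = constK₁ L i j` the
completed constants of the level, with the commuting squares `comm₁`, `comm₂` on the level ring.

* `norm_b1_of_isUnit`, `norm_b2_of_isUnit` : a unit of `C.Oh v` has an expansion of norm `1`;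
* `IsDV C v` : the DVR hypothesis (every nonzero element of `C.Oh v` is `unif ^ n * unit`; true for
  `CompPack.ofDatum`, `DVCompl.exists_eq_pow_mul_unit`);
* `norm_b1_unif_pow_mul`, `b1_injective` : `b1` is isometric (`‖b1 (unif ^ n * w)‖ = ‖ϖ₁‖ ^ n`), hence
  injective; the same for `b2`;
* `b1F`, `b2F` : the extensions to the fraction fields `C.Lh v`, with `b1F_coe`, `norm_b1F`
  (`‖b1F (unif ^ n * w)‖ = ‖ϖ₁‖ ^ n`, `n : ℤ`: the norm of the expansion is the valuation of the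
  component, whatever the node), `norm_b1F_le_one_iff`;
* `b1F_emb_mul`, `b2F_emb_mul` : for `h ∈ F₀` with `h * b = a`, `a b` in the level ring,
  `b1F (emb h) * toX (levelExpand b) = toX (levelExpand a)` (the squares on fractions: the two
  boundary expansions of a rational function in the shape consumed by `AmiceLead.lead_ratio_of_mul_eq`).
-/
import Mathlib
import Fermat.Agent.FF3.ExpandBR.Part
import Fermat.Agent.FF3.B4.CompInst

set_option autoImplicit false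

noncomputable section

namespace Fermat.Agent.FF4.BdryFrac

open AlgebraicCurve IsLocalRing Fermat.Agent.Red Fermat.Agent.BR.Centre Fermat.Agent.BR.SS
  Fermat.Agent.BR.Refine Fermat.Agent.BR.S0 Fermat.Agent.BR.S0.AnnulusChartOfLevels
  Fermat.Agent.FF3 Fermat.Agent.FF3.Amice Fermat.Agent.FF3.B4 Fermat.Agent.FF3.ExpandBR

attribute [local instance] normedAlgebraSubfield

/-- the bounded Amice ring is nontrivial -/
theorem nontrivial_bAmice (K₁ : Type*) [NormedField K₁] [IsUltrametricDist K₁] [CompleteSpace K₁] :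
    Nontrivial (BAmice K₁) := NormOneClass.nontrivial

attribute [local instance] nontrivial_bAmice

universe u w

variable {K : Type} {F : Type u} [Field K] [Field F] [Algebra K F]
  {A : ValuationSubring K} [IsAlgClosed (ResidueField A)]
  {ι₀ : Type} {Ft₀ : ι₀ → Type} [∀ v, Field (Ft₀ v)] [∀ v, Algebra (ResidueField A) (Ft₀ v)]
  {ν₀ : Type} {S₀ : SemistableSetup (F := F) A (residue A) ι₀ Ft₀ ν₀} {e : ν₀} {ι : Type*}
  {L : AnnulusLevels A (tube S₀ e) ι} {Xb : BranchData S₀ e L} {i : ι}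
  {Ω : Type w} [NormedField Ω] [IsUltrametricDist Ω] [CompleteSpace Ω]
  {j : K →+* Ω} {hj : ∀ c : K, ‖j c‖ ≤ 1 ↔ c ∈ A}
  {hfull : LevelFullRes L i} {hcol : DenseNearOne j}
  {F₀ : Subfield F} {ϖ₀ : F₀} {C : CompPack.{0, u, 0, 0, 0, 0, w} S₀ F₀ ϖ₀}

/-- **The DVR hypothesis** on the completed valuation ring of the component `v`: every nonzero
element is a power of the uniformiser times a unit. -/
def IsDV (C : CompPack.{0, u, 0, 0, 0, 0, w} S₀ F₀ ϖ₀) (v : ι₀) : Prop :=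
  ∀ y : C.Oh v, y ≠ 0 → ∃ (n : ℕ) (w : (C.Oh v)ˣ), y = C.unif v ^ n * (w : C.Oh v)

theorem unif_ne_zero_of_isDV {v : ι₀} (h : IsDV C v) (hne : ∃ y : C.Oh v, y ≠ 0 ∧ ¬ IsUnit y) :
    C.unif v ≠ 0 := by
  obtain ⟨y, hy0, hyu⟩ := hne
  obtain ⟨n, w, hw⟩ := h y hy0
  intro h0
  rw [h0] at hw
  rcases Nat.eq_zero_or_pos n with hn | hn
  · apply hyu
    rw [hw, hn, pow_zero, one_mul]
    exact w.isUnit
  · rw [zero_pow hn.ne', zero_mul] at hw
    exact hy0 hw

/-- the fraction-field form of the DVR hypothesis -/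
theorem IsDV.exists_zpow {v : ι₀} (h : IsDV C v) (hu : C.unif v ≠ 0) (x : C.Lh v) (hx : x ≠ 0) :
    ∃ (n : ℤ) (w : (C.Oh v)ˣ), x = ((C.unif v : C.Oh v) : C.Lh v) ^ n * ((w : C.Oh v) : C.Lh v) := by
  have hu' : ((C.unif v : C.Oh v) : C.Lh v) ≠ 0 := fun h0 => hu (Subtype.ext h0)
  rcases (C.Oh v).mem_or_inv_mem x with hm | hm
  · obtain ⟨n, w, hw⟩ := h ⟨x, hm⟩ (fun h0 => hx (congrArg Subtype.val h0))
    refine ⟨n, w, ?_⟩
    have := congrArg (fun y : C.Oh v => (y : C.Lh v)) hw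
    simpa using this
  · obtain ⟨n, w, hw⟩ := h ⟨x⁻¹, hm⟩ (fun h0 => inv_ne_zero hx (congrArg Subtype.val h0))
    refine ⟨-(n : ℤ), w⁻¹, ?_⟩
    have h1 : x⁻¹ = ((C.unif v : C.Oh v) : C.Lh v) ^ n * ((w : C.Oh v) : C.Lh v) := by
      have := congrArg (fun y : C.Oh v => (y : C.Lh v)) hw
      simpa using this
    have hw1 : ((w : C.Oh v) : C.Lh v) * (((w⁻¹ : (C.Oh v)ˣ) : C.Oh v) : C.Lh v) = 1 := by
      rw [← MulMemClass.coe_mul, Units.mul_inv]
      rfl
    rw [zpow_neg, zpow_natCast, eq_inv_of_mul_eq_one_right hw1, ← mul_inv, ← h1, inv_inv]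

/-- **the DVR hypothesis holds for the component part of the DV-completion package** -/
theorem isDV_ofDatum (D : ι₀ → DVCompl.Datum F₀)
    (hO : ∀ v (x : F₀), x ∈ (D v).O₀ ↔ (x : F) ∈ S₀.O v) (hw : ∀ v, (D v).w = ϖ₀) (v : ι₀) :
    IsDV (CompPack.ofDatum S₀ D hO hw) v := by
  intro y hy
  have hu : (CompPack.ofDatum S₀ D hO hw).unif v = (D v).wh := by
    apply Subtype.ext
    show (D v).emb ϖ₀ = (((D v).wh : (D v).Oh) : (D v).Lh)
    rw [(D v).coe_wh, hw v]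
  obtain ⟨n, w, hw'⟩ := IsDiscreteValuationRing.eq_unit_mul_pow_irreducible
    (R := (D v).Oh) hy (D v).irreducible_wh
  refine ⟨n, w, ?_⟩
  rw [hu, mul_comm]
  exact hw'

variable (I : NodeInput Xb i j hj hfull hcol C)

/-! ### units have expansions of norm one -/

theorem norm_b1_of_isUnit {y : C.Oh (S₀.src e)} (hy : IsUnit y) : ‖I.b1 y‖ = 1 := by
  obtain ⟨u, rfl⟩ := hy
  refine le_antisymm (I.norm_b1_le _) ?_
  have h1 : I.b1 (u : C.Oh (S₀.src e)) * I.b1 ((u⁻¹ : (C.Oh (S₀.src e))ˣ) : C.Oh (S₀.src e)) = 1 := by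
    rw [← map_mul, Units.mul_inv, map_one]
  calc (1 : ℝ) = ‖(1 : BAmice (constK₁ L i j))‖ := norm_one.symm
    _ = ‖I.b1 (u : C.Oh (S₀.src e)) * I.b1 ((u⁻¹ : (C.Oh (S₀.src e))ˣ) : C.Oh (S₀.src e))‖ := by
        rw [h1]
    _ ≤ ‖I.b1 (u : C.Oh (S₀.src e))‖ * ‖I.b1 ((u⁻¹ : (C.Oh (S₀.src e))ˣ) : C.Oh (S₀.src e))‖ :=
        norm_mul_le _ _
    _ ≤ ‖I.b1 (u : C.Oh (S₀.src e))‖ * 1 :=
        mul_le_mul_of_nonneg_left (I.norm_b1_le _) (norm_nonneg _)
    _ = ‖I.b1 (u : C.Oh (S₀.src e))‖ := mul_one _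

theorem norm_b2_of_isUnit {y : C.Oh (S₀.tgt e)} (hy : IsUnit y) : ‖I.b2 y‖ = 1 := by
  obtain ⟨u, rfl⟩ := hy
  refine le_antisymm (I.norm_b2_le _) ?_
  have h1 : I.b2 (u : C.Oh (S₀.tgt e)) * I.b2 ((u⁻¹ : (C.Oh (S₀.tgt e))ˣ) : C.Oh (S₀.tgt e)) = 1 := by
    rw [← map_mul, Units.mul_inv, map_one]
  calc (1 : ℝ) = ‖(1 : BAmice (constK₁ L i j))‖ := norm_one.symm
    _ = ‖I.b2 (u : C.Oh (S₀.tgt e)) * I.b2 ((u⁻¹ : (C.Oh (S₀.tgt e))ˣ) : C.Oh (S₀.tgt e))‖ := by
        rw [h1]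
    _ ≤ ‖I.b2 (u : C.Oh (S₀.tgt e))‖ * ‖I.b2 ((u⁻¹ : (C.Oh (S₀.tgt e))ˣ) : C.Oh (S₀.tgt e))‖ :=
        norm_mul_le _ _
    _ ≤ ‖I.b2 (u : C.Oh (S₀.tgt e))‖ * 1 :=
        mul_le_mul_of_nonneg_left (I.norm_b2_le _) (norm_nonneg _)
    _ = ‖I.b2 (u : C.Oh (S₀.tgt e))‖ := mul_one _

include hj in
theorem unifK₁_ne_zero' : unifK₁ L i j ≠ 0 := by
  intro h0
  have h := (isDiscreteNorm_unifK₁ L i j hj).1
  rw [h0, norm_zero] at h
  exact lt_irrefl _ h

/-! ### the isometry -/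

/-- **`b1` is isometric**: `‖b1 (unif ^ n * w)‖ = ‖ϖ₁‖ ^ n` for a unit `w`. -/
theorem norm_b1_unif_pow_mul (n : ℕ) (w : (C.Oh (S₀.src e))ˣ) :
    ‖I.b1 (C.unif (S₀.src e) ^ n * (w : C.Oh (S₀.src e)))‖ = ‖unifK₁ L i j‖ ^ n := by
  rw [map_mul, map_pow, I.b1_unif, ← map_pow, ← Algebra.smul_def, norm_smul, norm_pow,
    norm_b1_of_isUnit I w.isUnit, mul_one]

/-- **`b2` is isometric**: `‖b2 (unif ^ n * w)‖ = ‖ϖ₁‖ ^ n` for a unit `w`. -/
theorem norm_b2_unif_pow_mul (n : ℕ) (w : (C.Oh (S₀.tgt e))ˣ) :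
    ‖I.b2 (C.unif (S₀.tgt e) ^ n * (w : C.Oh (S₀.tgt e)))‖ = ‖unifK₁ L i j‖ ^ n := by
  rw [map_mul, map_pow, I.b2_unif, ← map_pow, ← Algebra.smul_def, norm_smul, norm_pow,
    norm_b2_of_isUnit I w.isUnit, mul_one]

include hj in
theorem b1_ne_zero (hdv : IsDV C (S₀.src e)) {y : C.Oh (S₀.src e)} (hy : y ≠ 0) : I.b1 y ≠ 0 := by
  obtain ⟨n, w, rfl⟩ := hdv y hy
  intro h0
  have h := norm_b1_unif_pow_mul I n w
  rw [h0, norm_zero] at h
  exact pow_ne_zero n (norm_ne_zero_iff.2 (unifK₁_ne_zero' (hj := hj))) h.symm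

include hj in
theorem b2_ne_zero (hdv : IsDV C (S₀.tgt e)) {y : C.Oh (S₀.tgt e)} (hy : y ≠ 0) : I.b2 y ≠ 0 := by
  obtain ⟨n, w, rfl⟩ := hdv y hy
  intro h0
  have h := norm_b2_unif_pow_mul I n w
  rw [h0, norm_zero] at h
  exact pow_ne_zero n (norm_ne_zero_iff.2 (unifK₁_ne_zero' (hj := hj))) h.symm

include hj in
theorem b1_injective (hdv : IsDV C (S₀.src e)) : Function.Injective I.b1 :=
  (injective_iff_map_eq_zero _).2 fun y hy => by
    by_contra h
    exact b1_ne_zero I hdv h hy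

include hj in
theorem b2_injective (hdv : IsDV C (S₀.tgt e)) : Function.Injective I.b2 :=
  (injective_iff_map_eq_zero _).2 fun y hy => by
    by_contra h
    exact b2_ne_zero I hdv h hy

include hj in
theorem isUnit_b1 (hdv : IsDV C (S₀.src e)) (y : nonZeroDivisors (C.Oh (S₀.src e))) :
    IsUnit (I.b1 (y : C.Oh (S₀.src e))) := by
  have hne := b1_ne_zero I hdv (nonZeroDivisors.ne_zero y.2)
  obtain ⟨z, hz, -⟩ := AmiceU.exists_inv_of_discrete (isDiscreteNorm_unifK₁ L i j hj) hne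
  exact IsUnit.of_mul_eq_one z hz

include hj in
theorem isUnit_b2 (hdv : IsDV C (S₀.tgt e)) (y : nonZeroDivisors (C.Oh (S₀.tgt e))) :
    IsUnit (I.b2 (y : C.Oh (S₀.tgt e))) := by
  have hne := b2_ne_zero I hdv (nonZeroDivisors.ne_zero y.2)
  obtain ⟨z, hz, -⟩ := AmiceU.exists_inv_of_discrete (isDiscreteNorm_unifK₁ L i j hj) hne
  exact IsUnit.of_mul_eq_one z hz

/-! ### the extensions to the fraction fields -/

/-- **the boundary map of `src e` on the fraction field** of the completed valuation ring -/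
def b1F (hdv : IsDV C (S₀.src e)) : C.Lh (S₀.src e) →+* BAmice (constK₁ L i j) :=
  IsLocalization.lift (M := nonZeroDivisors (C.Oh (S₀.src e))) (S := C.Lh (S₀.src e))
    (g := I.b1) (isUnit_b1 I hdv)

/-- **the boundary map of `tgt e` on the fraction field** of the completed valuation ring -/
def b2F (hdv : IsDV C (S₀.tgt e)) : C.Lh (S₀.tgt e) →+* BAmice (constK₁ L i j) :=
  IsLocalization.lift (M := nonZeroDivisors (C.Oh (S₀.tgt e))) (S := C.Lh (S₀.tgt e))
    (g := I.b2) (isUnit_b2 I hdv)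

@[simp] theorem b1F_coe (hdv : IsDV C (S₀.src e)) (y : C.Oh (S₀.src e)) :
    b1F I hdv (y : C.Lh (S₀.src e)) = I.b1 y :=
  IsLocalization.lift_eq (isUnit_b1 I hdv) y

@[simp] theorem b2F_coe (hdv : IsDV C (S₀.tgt e)) (y : C.Oh (S₀.tgt e)) :
    b2F I hdv (y : C.Lh (S₀.tgt e)) = I.b2 y :=
  IsLocalization.lift_eq (isUnit_b2 I hdv) y

theorem b1F_injective (hdv : IsDV C (S₀.src e)) : Function.Injective (b1F I hdv) :=
  (b1F I hdv).injective

theorem b2F_injective (hdv : IsDV C (S₀.tgt e)) : Function.Injective (b2F I hdv) :=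
  (b2F I hdv).injective

/-- **T3, the norm of the expansion is the valuation of the component** (side of `src e`):
`‖b1F (unif ^ n * w)‖ = ‖ϖ₁‖ ^ n` for `n : ℤ` and a unit `w` of the completed valuation ring. -/
theorem norm_b1F (hdv : IsDV C (S₀.src e)) (n : ℤ) (w : (C.Oh (S₀.src e))ˣ) :
    ‖b1F I hdv (((C.unif (S₀.src e) : C.Oh (S₀.src e)) : C.Lh (S₀.src e)) ^ n *
      ((w : C.Oh (S₀.src e)) : C.Lh (S₀.src e)))‖ = ‖unifK₁ L i j‖ ^ n := by
  have hu : b1F I hdv ((C.unif (S₀.src e) : C.Oh (S₀.src e)) : C.Lh (S₀.src e)) =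
      algebraMap (constK₁ L i j) (BAmice (constK₁ L i j)) (unifK₁ L i j) := by
    rw [b1F_coe, I.b1_unif]
  have hne : unifK₁ L i j ≠ 0 := unifK₁_ne_zero' (hj := hj)
  have hz : b1F I hdv (((C.unif (S₀.src e) : C.Oh (S₀.src e)) : C.Lh (S₀.src e)) ^ n) =
      algebraMap (constK₁ L i j) (BAmice (constK₁ L i j)) (unifK₁ L i j ^ n) := by
    rcases Int.eq_nat_or_neg n with ⟨m, rfl | rfl⟩
    · rw [zpow_natCast, zpow_natCast, map_pow, map_pow, hu]
    · rw [zpow_neg, zpow_neg, zpow_natCast, zpow_natCast]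
      have hne' : unifK₁ L i j ^ m ≠ 0 := pow_ne_zero m hne
      have h1 : b1F I hdv ((((C.unif (S₀.src e) : C.Oh (S₀.src e)) : C.Lh (S₀.src e)) ^ m)⁻¹) *
          algebraMap (constK₁ L i j) (BAmice (constK₁ L i j)) (unifK₁ L i j ^ m) = 1 := by
        rw [map_pow (algebraMap (constK₁ L i j) (BAmice (constK₁ L i j))), ← hu, ← map_pow,
          ← map_mul, inv_mul_cancel₀, map_one]
        intro h0
        have := congrArg (b1F I hdv) h0
        rw [map_pow, hu, map_zero, ← map_pow] at this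
        exact hne' ((algebraMap (constK₁ L i j) (BAmice (constK₁ L i j))).injective
          (by rw [this, map_zero]))
      have h2 : algebraMap (constK₁ L i j) (BAmice (constK₁ L i j)) ((unifK₁ L i j ^ m)⁻¹) *
          algebraMap (constK₁ L i j) (BAmice (constK₁ L i j)) (unifK₁ L i j ^ m) = 1 := by
        rw [← map_mul, inv_mul_cancel₀ hne', map_one]
      calc b1F I hdv ((((C.unif (S₀.src e) : C.Oh (S₀.src e)) : C.Lh (S₀.src e)) ^ m)⁻¹)
          = b1F I hdv ((((C.unif (S₀.src e) : C.Oh (S₀.src e)) : C.Lh (S₀.src e)) ^ m)⁻¹) *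
            (algebraMap (constK₁ L i j) (BAmice (constK₁ L i j)) (unifK₁ L i j ^ m) *
              algebraMap (constK₁ L i j) (BAmice (constK₁ L i j)) ((unifK₁ L i j ^ m)⁻¹)) := by
            rw [mul_comm (algebraMap (constK₁ L i j) (BAmice (constK₁ L i j)) (unifK₁ L i j ^ m)),
              h2, mul_one]
        _ = algebraMap (constK₁ L i j) (BAmice (constK₁ L i j)) ((unifK₁ L i j ^ m)⁻¹) := by
            rw [← mul_assoc, h1, one_mul]
  rw [map_mul, hz, b1F_coe, ← Algebra.smul_def, norm_smul, norm_zpow,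
    norm_b1_of_isUnit I w.isUnit, mul_one]

/-- **T3, the norm of the expansion is the valuation of the component** (side of `tgt e`). -/
theorem norm_b2F (hdv : IsDV C (S₀.tgt e)) (n : ℤ) (w : (C.Oh (S₀.tgt e))ˣ) :
    ‖b2F I hdv (((C.unif (S₀.tgt e) : C.Oh (S₀.tgt e)) : C.Lh (S₀.tgt e)) ^ n *
      ((w : C.Oh (S₀.tgt e)) : C.Lh (S₀.tgt e)))‖ = ‖unifK₁ L i j‖ ^ n := by
  have hu : b2F I hdv ((C.unif (S₀.tgt e) : C.Oh (S₀.tgt e)) : C.Lh (S₀.tgt e)) =
      algebraMap (constK₁ L i j) (BAmice (constK₁ L i j)) (unifK₁ L i j) := by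
    rw [b2F_coe, I.b2_unif]
  have hne : unifK₁ L i j ≠ 0 := unifK₁_ne_zero' (hj := hj)
  have hz : b2F I hdv (((C.unif (S₀.tgt e) : C.Oh (S₀.tgt e)) : C.Lh (S₀.tgt e)) ^ n) =
      algebraMap (constK₁ L i j) (BAmice (constK₁ L i j)) (unifK₁ L i j ^ n) := by
    rcases Int.eq_nat_or_neg n with ⟨m, rfl | rfl⟩
    · rw [zpow_natCast, zpow_natCast, map_pow, map_pow, hu]
    · rw [zpow_neg, zpow_neg, zpow_natCast, zpow_natCast]
      have hne' : unifK₁ L i j ^ m ≠ 0 := pow_ne_zero m hne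
      have h1 : b2F I hdv ((((C.unif (S₀.tgt e) : C.Oh (S₀.tgt e)) : C.Lh (S₀.tgt e)) ^ m)⁻¹) *
          algebraMap (constK₁ L i j) (BAmice (constK₁ L i j)) (unifK₁ L i j ^ m) = 1 := by
        rw [map_pow (algebraMap (constK₁ L i j) (BAmice (constK₁ L i j))), ← hu, ← map_pow,
          ← map_mul, inv_mul_cancel₀, map_one]
        intro h0
        have := congrArg (b2F I hdv) h0
        rw [map_pow, hu, map_zero, ← map_pow] at this
        exact hne' ((algebraMap (constK₁ L i j) (BAmice (constK₁ L i j))).injective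
          (by rw [this, map_zero]))
      have h2 : algebraMap (constK₁ L i j) (BAmice (constK₁ L i j)) ((unifK₁ L i j ^ m)⁻¹) *
          algebraMap (constK₁ L i j) (BAmice (constK₁ L i j)) (unifK₁ L i j ^ m) = 1 := by
        rw [← map_mul, inv_mul_cancel₀ hne', map_one]
      calc b2F I hdv ((((C.unif (S₀.tgt e) : C.Oh (S₀.tgt e)) : C.Lh (S₀.tgt e)) ^ m)⁻¹)
          = b2F I hdv ((((C.unif (S₀.tgt e) : C.Oh (S₀.tgt e)) : C.Lh (S₀.tgt e)) ^ m)⁻¹) *
            (algebraMap (constK₁ L i j) (BAmice (constK₁ L i j)) (unifK₁ L i j ^ m) *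
              algebraMap (constK₁ L i j) (BAmice (constK₁ L i j)) ((unifK₁ L i j ^ m)⁻¹)) := by
            rw [mul_comm (algebraMap (constK₁ L i j) (BAmice (constK₁ L i j)) (unifK₁ L i j ^ m)),
              h2, mul_one]
        _ = algebraMap (constK₁ L i j) (BAmice (constK₁ L i j)) ((unifK₁ L i j ^ m)⁻¹) := by
            rw [← mul_assoc, h1, one_mul]
  rw [map_mul, hz, b2F_coe, ← Algebra.smul_def, norm_smul, norm_zpow,
    norm_b2_of_isUnit I w.isUnit, mul_one]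

/-! ### the squares on fractions -/

/-- **the square on the side of `src e`, on fractions**: for `h ∈ F₀` with `h * b = a`, `a b` in the
level ring, `b1F (emb h) * toX (levelExpand b) = toX (levelExpand a)`. -/
theorem b1F_emb_mul (hdv : IsDV C (S₀.src e)) {h : F₀} {a b : (L.level i).R}
    (hab : (h : F) * (b : F) = (a : F)) :
    b1F I hdv (C.emb (S₀.src e) h) *
        NodeRing.toX ((levelExpand L i j hj hfull hcol b : NodeRing.NodeInt (thickK₁ L i j)) :
          NodeRing.NodeB (thickK₁ L i j)) =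
      NodeRing.toX ((levelExpand L i j hj hfull hcol a : NodeRing.NodeInt (thickK₁ L i j)) :
        NodeRing.NodeB (thickK₁ L i j)) := by
  rw [← I.comm₁ b, ← I.comm₁ a, ← b1F_coe I hdv, ← b1F_coe I hdv, ← map_mul]
  congr 1
  show C.emb (S₀.src e) h * C.emb (S₀.src e) (I.toF₀ b) = C.emb (S₀.src e) (I.toF₀ a)
  rw [← map_mul]
  congr 1
  exact Subtype.ext hab

/-- **the square on the side of `tgt e`, on fractions** -/
theorem b2F_emb_mul (hdv : IsDV C (S₀.tgt e)) {h : F₀} {a b : (L.level i).R}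
    (hab : (h : F) * (b : F) = (a : F)) :
    b2F I hdv (C.emb (S₀.tgt e) h) *
        NodeRing.toY ((levelExpand L i j hj hfull hcol b : NodeRing.NodeInt (thickK₁ L i j)) :
          NodeRing.NodeB (thickK₁ L i j)) =
      NodeRing.toY ((levelExpand L i j hj hfull hcol a : NodeRing.NodeInt (thickK₁ L i j)) :
        NodeRing.NodeB (thickK₁ L i j)) := by
  rw [← I.comm₂ b, ← I.comm₂ a, ← b2F_coe I hdv, ← b2F_coe I hdv, ← map_mul]
  congr 1
  show C.emb (S₀.tgt e) h * C.emb (S₀.tgt e) (I.toF₀ b) = C.emb (S₀.tgt e) (I.toF₀ a)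
  rw [← map_mul]
  congr 1
  exact Subtype.ext hab

/-- the expansion of a function of the level, on the side of `src e` -/
theorem b1F_emb_level (hdv : IsDV C (S₀.src e)) (y : (L.level i).R) :
    b1F I hdv (C.emb (S₀.src e) (I.toF₀ y)) =
      NodeRing.toX ((levelExpand L i j hj hfull hcol y : NodeRing.NodeInt (thickK₁ L i j)) :
        NodeRing.NodeB (thickK₁ L i j)) := by
  rw [← I.comm₁ y, ← b1F_coe I hdv]
  rfl

/-- the expansion of a function of the level, on the side of `tgt e` -/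
theorem b2F_emb_level (hdv : IsDV C (S₀.tgt e)) (y : (L.level i).R) :
    b2F I hdv (C.emb (S₀.tgt e) (I.toF₀ y)) =
      NodeRing.toY ((levelExpand L i j hj hfull hcol y : NodeRing.NodeInt (thickK₁ L i j)) :
        NodeRing.NodeB (thickK₁ L i j)) := by
  rw [← I.comm₂ y, ← b2F_coe I hdv]
  rfl

end Fermat.Agent.FF4.BdryFrac
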