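import Fermat.Statements.S40
import Fermat.Agent.FF3.P.Defs
import Fermat.Agent.LR.EigenClass
import Fermat.Agent.LR.TLamComm
import Fermat.Agent.Jac.LamAnn
import Fermat.Agent.Jac.HeckeCommUncond

/-!
# PROGRAMME II (row 38, S40): the skeleton `s40_of_kernels` (contract file, helper4)

Every kernel of the Mazur–Ribet argument at `p` is a NAMED hypothesis (a `def … : Prop` below); the
glue `s40_of_kernels` is PROVED, so the kernels are known to suffice.  Vocabulary of main:
`Lam L` / `TLam L l` (parabolic cohomology lattice, Program M), `JZero L`, `heckeOperatorBar`,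
`heckeEvalBar`, `Jac.heckeEvalOf`, `LevelTransfer.alphaDown`, `LevelMaps.betaDown`,
`Pseudo.Cyclo.cycloLift`.

Chain (`M = M' * p`, `p ∤ M'`, `c l := W.apOfModel l`, `Good l := W good at l ∧ l ∤ M ∧ l ≠ p`):

* (S-IN, PROVED here from `LR.EigenClass`) `hmod` at level `M` ⟹ `HasEigenclass W p M`;
* (K-DS)   `HasEigenclass W p M'` ⟹ `W.IsResiduallyModularOfLevel p M'` (Deligne–Serre lifting,
           `LR.S41Of.exists_eigenform_of_kernel_class` without its `q`-part);
* (K-DICH) no eigenclass at level `M'` ⟹ a Hecke polynomial `t` in the `T_l` (`Good l`) killing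
           `Lam M'` with `p ∤ θ(t)`, `θ(t) := t(c)`;
* (K-V)    eigenclass at level `M' p` + such a `t` ⟹ a `G_ℚ`-stable `V ≤ J₀(M' p)[p]`, in the
           `θ`-eigenspace, `≅ W[p]` (Kummer maps + Eichler–Shimura + Chebotarev + Brauer–Nesbitt
           + BLR), contained in the `p`-NEW part (span trick: `t` kills the `G_ℚ`-span of the
           Kummer image of `Lam M'`, `t = θ(t)` invertible on `V`);
* (K-FLAT) = K3: `W` good at `p` ⟹ `V` is flat at `p`;
* (K-GEO)  = K1 + K2 + K5 + K6 + K7 + TorEps + H2 + K8: for `V` new, flat, `≅ W[p]`, there are a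
           place `B | p` and an additive map `E` on `V` (to the two copies of the char-`p` Jacobian
           of level `M'`, or to the component group) whose kernel is the part of `V` on which the
           inertia group at `B` acts through the cyclotomic character, and which kills `t V` for
           every Hecke polynomial `t` killing `Lam M'`;
* (K-GAL)  (helper1, `FF4/S40Galois`): `V ≅ W[p]`, inertia at `B | p` acting on ALL of `V` through
           the cyclotomic character ⟹ `False` (`det = χ`, `p` odd).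
-/

set_option autoImplicit false
set_option linter.unusedSectionVars false
set_option linter.unusedVariables false
set_option linter.style.haveILetI false

noncomputable section

set_option synthInstance.maxHeartbeats 400000

namespace Fermat.Agent.FF4.S40Skeleton

open ModularCurve WeierstrassCurve
open Fermat.Agent.X0 Fermat.Agent.BR Fermat.Agent.BR2 Fermat.Agent.Pseudo Fermat.Agent.Jac
  Fermat.Agent.Hecke

local notation "GQ" => (AlgebraicClosure ℚ ≃ₐ[ℚ] AlgebraicClosure ℚ)

/-! ## vocabulary -/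

/-- the primes at which the congruence is known -/
def Good (W : WeierstrassCurve ℤ) (p L : ℕ) (l : Nat.Primes) : Prop :=
  W.IsGoodPrimeFor l ∧ ¬ (l : ℕ) ∣ L ∧ (l : ℕ) ≠ p

/-- **an eigenclass of `W` modulo `p` in `Lam L`**, for the `T_l`, `Good W p L' l`. -/
def HasEigenclass (W : WeierstrassCurve ℤ) (p L L' : ℕ) [NeZero L] : Prop :=
  ∃ y : Lam L, (¬ ∃ z : Lam L, y = (p : ℤ) • z) ∧
    ∀ l : Nat.Primes, Good W p L' l →
      ∃ z : Lam L, TLam L l y - (W.apOfModel l) • y = (p : ℤ) • z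

/-- the value `θ(t)` of a Hecke polynomial at the eigenvalues of `W` -/
def theta (W : WeierstrassCurve ℤ) (t : HeckeAlg) : ℤ :=
  MvPolynomial.eval (fun l : Nat.Primes => W.apOfModel l) t

/-- the action of a Hecke polynomial on `Lam L` -/
def tLam (L : ℕ) [NeZero L] (t : HeckeAlg) : Module.End ℤ (Lam L) :=
  heckeEvalOf (TLam L) (Fermat.Agent.LR.TLamComm.TLam_commute L) t

/-- the action of a Hecke polynomial on `J₀(L)(ℚ̄)` -/
def tBar (L : ℕ) [NeZero L] (t : HeckeAlg) : Module.End ℤ (JZero L) :=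
  heckeEvalBar (heckeOperatorsCommuteBar L) t

/-- a Hecke polynomial in the good `T_l` killing `Lam M'` and invertible at `θ` modulo `p` -/
def IsOldKiller (W : WeierstrassCurve ℤ) (p M' : ℕ) [NeZero M'] (t : HeckeAlg) : Prop :=
  t ∈ MvPolynomial.supported ℤ {l : Nat.Primes | Good W p (M' * p) l} ∧
    (∀ y : Lam M', tLam M' t y = 0) ∧ ¬ (p : ℤ) ∣ theta W t

/-- the points of `W` over `ℚ̄` -/
abbrev WPoint (W : WeierstrassCurve ℤ) : Type :=
  WeierstrassCurve.Affine.Point ((W.map (Int.castRingHom ℚ))⁄(AlgebraicClosure ℚ))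

/-- **the package `V`**: a `G_ℚ`-stable subgroup of `J₀(L)[p]` in the `θ`-eigenspace, with an
equivariant isomorphism to `W[p]`. -/
structure VPack (W : WeierstrassCurve ℤ) (p L : ℕ) [NeZero L] where
  V : AddSubgroup (JZero L)
  tors : ∀ v ∈ V, p • v = 0
  stable : ∀ (σ : GQ), ∀ v ∈ V, σ • v ∈ V
  eigen : ∀ l : Nat.Primes, Good W p L l → ∀ v ∈ V,
    heckeOperatorBar L l v = (W.apOfModel l) • v
  iso : V ≃+ Submodule.torsionBy ℤ (WPoint W) p
  iso_equivariant : ∀ (σ : GQ) (v : V) (h : σ • (v : JZero L) ∈ V),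
    ((iso ⟨σ • (v : JZero L), h⟩ : Submodule.torsionBy ℤ (WPoint W) p) : WPoint W) =
      σ • ((iso v : Submodule.torsionBy ℤ (WPoint W) p) : WPoint W)

/-- `V` lies in the `p`-new part of `J₀(M' p)` -/
def VPack.IsNew {W : WeierstrassCurve ℤ} {p M' : ℕ} [NeZero M'] [NeZero p]
    (P : VPack W p (M' * p)) : Prop :=
  ∀ v ∈ P.V, LevelTransfer.alphaDown M' p v = 0 ∧ LevelMaps.betaDown M' p v = 0

/-- inertia at `B` acts on `v` through the mod-`p` cyclotomic character -/
def InertiaCyclo (p L : ℕ) [NeZero L] [NeZero p] (B : ValuationSubring (AlgebraicClosure ℚ))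
    (v : JZero L) : Prop :=
  ∀ s : GQ, s ∈ B.inertiaSubgroupIn ℚ → s • v = Cyclo.cycloLift p s • v

/-! ## the named kernels -/

/-- **(K-DS)** Deligne–Serre lifting at the level `M'`. -/
def KDS (W : WeierstrassCurve ℤ) (p M' : ℕ) [NeZero M'] : Prop :=
  HasEigenclass W p M' (M' * p) → W.IsResiduallyModularOfLevel p M'

/-- **(K-DICH)** the old/new dichotomy on `Lam M'`. -/
def KDich (W : WeierstrassCurve ℤ) (p M' : ℕ) [NeZero M'] : Prop :=
  ¬ HasEigenclass W p M' (M' * p) → ∃ t : HeckeAlg, IsOldKiller W p M' t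

/-- **(K-V)** the `p`-new Galois module `V ≅ W[p]` inside `J₀(M' p)[p]`. -/
def KV (W : WeierstrassCurve ℤ) (p M' : ℕ) [NeZero M'] [NeZero p] [NeZero (M' * p)] : Prop :=
  W.ModRepIsIrreducible p → HasEigenclass W p (M' * p) (M' * p) →
    ∀ t : HeckeAlg, IsOldKiller W p M' t → ∃ P : VPack W p (M' * p), P.IsNew

/-- **(K-GEO)** = K1 + K2 + K5–K7 + TorEps + H2 + K8, given the flatness `hflat` of `V` as a NAMED
proposition `Flat P` supplied by (K-FLAT). -/
def KGeo (W : WeierstrassCurve ℤ) (p M' : ℕ) [NeZero M'] [NeZero p] [NeZero (M' * p)]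
    (Flat : VPack W p (M' * p) → Prop) : Prop :=
  ∀ P : VPack W p (M' * p), P.IsNew → Flat P →
    ∃ (B : ValuationSubring (AlgebraicClosure ℚ)) (_ : B.LiesOverPrime p)
      (Y : Type) (_ : AddCommGroup Y) (E : P.V →+ Y),
      (∀ v : P.V, E v = 0 → InertiaCyclo p (M' * p) B v) ∧
      (∀ t : HeckeAlg, t ∈ MvPolynomial.supported ℤ {l : Nat.Primes | Good W p (M' * p) l} →
        (∀ y : Lam M', tLam M' t y = 0) → ∀ (v : P.V) (h : tBar (M' * p) t v ∈ P.V),
          E ⟨tBar (M' * p) t v, h⟩ = 0)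

/-- **(K-FLAT)** = K3. -/
def KFlat (W : WeierstrassCurve ℤ) (p M' : ℕ) [NeZero M'] [NeZero (M' * p)]
    (Flat : VPack W p (M' * p) → Prop) : Prop :=
  W.IsGoodPrimeFor p → ∀ P : VPack W p (M' * p), Flat P

/-- **(K-GAL)** the Galois end-game. -/
def KGal (W : WeierstrassCurve ℤ) (p M' : ℕ) [NeZero M'] [NeZero p] [NeZero (M' * p)] : Prop :=
  W.ModRepIsIrreducible p → ∀ (P : VPack W p (M' * p))
    (B : ValuationSubring (AlgebraicClosure ℚ)), B.LiesOverPrime p →
    (∀ v ∈ P.V, InertiaCyclo p (M' * p) B v) → False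


/-- **(K6)** the auxiliary level: an elliptic-free level `N` prime to `p` through which the
statement factors (`N = M' r`, `r` a Chebotarev prime with `a_r(W)² ≢ (r + 1)²`: up by
`EC/Stab.exists_raise`, down by S35 at `r` + newform theory). -/
def K6 (W : WeierstrassCurve ℤ) (p M' : ℕ) : Prop :=
  0 < M' → ¬ p ∣ M' → W.IsResiduallyModularOfLevel p (M' * p) →
    ∃ N : ℕ, 0 < N ∧ ¬ p ∣ N ∧ nuTwo N = 0 ∧ nuThree N = 0 ∧
      W.IsResiduallyModularOfLevel p (N * p) ∧
      (W.IsResiduallyModularOfLevel p N → W.IsResiduallyModularOfLevel p M')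

/-- **the kernels of the core at an elliptic-free level `N`, `p ∤ N`** (one field per kernel). -/
structure CoreKernels (W : WeierstrassCurve ℤ) (p N : ℕ) [NeZero N] [NeZero p]
    [NeZero (N * p)] : Prop where
  kDS : KDS W p N
  kDich : KDich W p N
  kV : KV W p N
  kFlatGeo : ∃ Flat : VPack W p (N * p) → Prop, KFlat W p N Flat ∧ KGeo W p N Flat
  kGal : KGal W p N

/-! ## the glue (PROVED) -/

/-- (S-IN) the eigenclass at the level of `hmod`. -/
theorem hasEigenclass_of_mod {W : WeierstrassCurve ℤ} {p L : ℕ} [NeZero L] (hp : p.Prime)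
    (hmod : W.IsResiduallyModularOfLevel p L) : HasEigenclass W p L L := by
  obtain ⟨f, 𝔪, hf, hmax, hpm, hc⟩ := hmod
  obtain ⟨y, hy0, hy⟩ := Fermat.Agent.LR.EigenClass.exists_eigenclass
    (Fermat.Agent.LR.TLamComm.TLam_commute L) hp f hf 𝔪 hmax hpm
    {l : Nat.Primes | Good W p L l} (fun l => W.apOfModel l)
    (fun l hl => hc l l.2 hl.1 hl.2.1 hl.2.2)
  exact ⟨y, hy0, fun l hl => hy l hl⟩

/-- a Hecke polynomial in the good `T_l` acts on `V` through `θ`. -/
theorem tBar_apply_of_supported {W : WeierstrassCurve ℤ} {p L : ℕ} [NeZero L]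
    (P : VPack W p L) {t : HeckeAlg}
    (ht : t ∈ MvPolynomial.supported ℤ {l : Nat.Primes | Good W p L l}) :
    ∀ v ∈ P.V, tBar L t v = theta W t • v := by
  rw [MvPolynomial.supported_eq_adjoin_X] at ht
  induction ht using Algebra.adjoin_induction with
  | mem x hx =>
    obtain ⟨l, hl, rfl⟩ := hx
    intro v hv
    have hX : (MvPolynomial.X l : HeckeAlg) = heckeGen l := rfl
    show heckeEvalBar _ (MvPolynomial.X l) v = MvPolynomial.eval _ (MvPolynomial.X l) • v
    rw [MvPolynomial.eval_X, hX, heckeEvalBar_heckeGen]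
    exact P.eigen l hl v hv
  | algebraMap r =>
    intro v hv
    show heckeEvalBar _ (MvPolynomial.C r) v = MvPolynomial.eval _ (MvPolynomial.C r) • v
    rw [MvPolynomial.eval_C, heckeEvalBar_C, Module.End.intCast_apply]
  | add x y hx hy ihx ihy =>
    intro v hv
    have e1 : tBar L (x + y) v = tBar L x v + tBar L y v := by
      unfold tBar; rw [map_add, LinearMap.add_apply]
    have e2 : theta W (x + y) = theta W x + theta W y := by unfold theta; rw [map_add]
    rw [e1, e2, add_zsmul, ihx v hv, ihy v hv]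
  | mul x y hx hy ihx ihy =>
    intro v hv
    have e1 : tBar L (x * y) v = tBar L x (tBar L y v) := by
      unfold tBar; rw [map_mul, Module.End.mul_apply]
    have e2 : theta W (x * y) = theta W x * theta W y := by unfold theta; rw [map_mul]
    rw [e1, e2, ihy v hv, map_zsmul, ihx v hv, ← mul_zsmul, mul_comm]

/-- **the core**: lowering the eigenclass from `Lam (N p)` to `Lam N`. -/
theorem hasEigenclass_lower {W : WeierstrassCurve ℤ} {p N : ℕ} [NeZero N] [NeZero p]
    [NeZero (N * p)] (hp : p.Prime) (hgood : W.IsGoodPrimeFor p)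
    (hirr : W.ModRepIsIrreducible p) (hE : HasEigenclass W p (N * p) (N * p))
    (K : CoreKernels W p N) : HasEigenclass W p N (N * p) := by
  by_contra hno
  obtain ⟨t, ht⟩ := K.kDich hno
  obtain ⟨P, hnew⟩ := K.kV hirr hE t ht
  obtain ⟨Flat, kFlat, kGeo⟩ := K.kFlatGeo
  obtain ⟨B, hB, Y, _, E, hE1, hE2⟩ := kGeo P hnew (kFlat hgood P)
  refine K.kGal hirr P B hB (fun v hv => hE1 ⟨v, hv⟩ ?_)
  have hθ : tBar (N * p) t v = theta W t • v := tBar_apply_of_supported P ht.1 v hv
  have hmem : tBar (N * p) t v ∈ P.V := hθ ▸ P.V.zsmul_mem hv _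
  have h1 : E ⟨tBar (N * p) t v, hmem⟩ = 0 := hE2 t ht.1 ht.2.1 ⟨v, hv⟩ hmem
  have h1' : theta W t • E ⟨v, hv⟩ = 0 := by
    rw [← map_zsmul, ← h1]
    exact congrArg E (Subtype.ext hθ.symm)
  have h2 : (p : ℤ) • E ⟨v, hv⟩ = 0 := by
    rw [← map_zsmul]
    have : (p : ℤ) • (⟨v, hv⟩ : P.V) = 0 := Subtype.ext (by
      show (p : ℤ) • v = 0
      rw [natCast_zsmul]; exact P.tors v hv)
    rw [this, map_zero]
  have hcop : IsCoprime (theta W t) (p : ℤ) := by
    rw [isCoprime_comm]
    exact (Nat.prime_iff_prime_int.mp hp).coprime_iff_not_dvd.mpr ht.2.2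
  obtain ⟨a, b, hab⟩ := hcop
  calc E ⟨v, hv⟩ = (a * theta W t + b * (p : ℤ)) • E ⟨v, hv⟩ := by rw [hab, one_smul]
    _ = 0 := by rw [add_smul, mul_smul, mul_smul, h1', h2, smul_zero, smul_zero, add_zero]

/-- the core, in terms of residual modularity. -/
theorem core_of_kernels {W : WeierstrassCurve ℤ} {p N : ℕ} [NeZero N] [NeZero p]
    [NeZero (N * p)] (hp : p.Prime) (hgood : W.IsGoodPrimeFor p)
    (hirr : W.ModRepIsIrreducible p) (hmod : W.IsResiduallyModularOfLevel p (N * p))
    (K : CoreKernels W p N) : W.IsResiduallyModularOfLevel p N :=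
  K.kDS (hasEigenclass_lower hp hgood hirr (hasEigenclass_of_mod hp hmod) K)

/-- **S40 FROM THE NAMED KERNELS** (the frozen shape). -/
theorem s40_of_kernels
    (W : WeierstrassCurve ℤ) (hΔ : W.Δ ≠ 0)
    {p : ℕ} (hp : p.Prime) (hp2 : p ≠ 2)
    (hgood : W.IsGoodPrimeFor p)
    (hirr : W.ModRepIsIrreducible p)
    {M : ℕ} (hM : 0 < M) (hpM : p ∣ M) (hp2M : ¬ p ^ 2 ∣ M)
    (hmod : W.IsResiduallyModularOfLevel p M)
    (k6 : K6 W p (M / p))
    (core : ∀ (N : ℕ) [NeZero N] [NeZero p] [NeZero (N * p)], ¬ p ∣ N → nuTwo N = 0 →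
      nuThree N = 0 → CoreKernels W p N) :
    W.IsResiduallyModularOfLevel p (M / p) := by
  have hMp : M / p * p = M := Nat.div_mul_cancel hpM
  rw [← hMp] at hmod
  have hM' : 0 < M / p := Nat.div_pos (Nat.le_of_dvd hM hpM) hp.pos
  have hpM' : ¬ p ∣ M / p := fun h => hp2M (by
    rw [← hMp, pow_two]; exact Nat.mul_dvd_mul h dvd_rfl)
  obtain ⟨N, hN, hpN, h2, h3, hmodN, hdown⟩ := k6 hM' hpM' hmod
  haveI : NeZero N := ⟨hN.ne'⟩
  haveI : NeZero p := ⟨hp.ne_zero⟩
  haveI : NeZero (N * p) := ⟨Nat.mul_ne_zero hN.ne' hp.ne_zero⟩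
  exact hdown (core_of_kernels hp hgood hirr hmodN (core N hpN h2 h3))

end Fermat.Agent.FF4.S40Skeleton
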