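import Fermat.Statements.S44
import Fermat.Agent.FF4.S40Skeleton
import Fermat.Agent.BR2.LevelPlug
import Fermat.Agent.LR.VarChangePoint

/-!
# PROGRAMME II (row 38, TARGET S44): the skeleton `s44_of_kernels` (contract file, helper4) -- v3

Lead's ruling D4 (target S44, `5 ≤ p`) + the `r`-OLD redesign #1856 + the `q`-series end game.
Every kernel is a NAMED hypothesis (a `def … : Prop` / a field of a `Prop`-structure); the glue is
PROVED.  VOCABULARY = `FF4/S40Skeleton` (unchanged, byte-identical to 117387e0): `Good`,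
`HasEigenclass`, `theta`, `tLam`, `tBar`, `IsOldKiller`, `WPoint`, `VPack`, `VPack.IsNew`,
`InertiaCyclo`, and the kernels `KDS`, `KDich`, `KV`, `KGal` (the first two are GREEN: helper28,
`FF4/K4/{KDS,KDich}`).

`W` an integral model of the Frey curve (the one of `hmod`), `p = P.p`, `N = M' p` the conductor
level (`p ∤ M'`), `r` an auxiliary prime (`IsAux`), `M' r` elliptic-free,
`u := BR2.LevelPlug.pullN M' p r e : J₀(M' p) → J₀(M' r p)` (= `α_r^*`, LANDED).

Chain (`by_contra`: `W` is not residually modular of level `M'`):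
* (K-DS)⁻¹  : no eigenclass of `W` in `Lam M'` for the good `T_l`, `l ∤ M' p`;
* (K-DICH)  : `t ∈ ℤ[T_l : l good, l ∤ M' p]`, `t · Lam M' = 0`, `p ∤ θ_W(t)`;
* (S-IN, PROVED) + (K-V) : `V₀ ≤ J₀(M' p)[p]`, `G_ℚ`-stable, `T_l = a_l(W)`, `≅ W[p]`, `p`-NEW;
* (K-UP)    : `V := u(V₀) ≤ J₀(M' r p)[p]` is again a `p`-new pack (`r`-old);
* (K-NAT)   : `V ≤ natSub` (K1 ∘ K3 + Case II: the slopes vanish) at the elliptic-free level `M' r`;
* (K-CASE1) : `u v₀ ∈ natSub → u v₀ ∈ torSub` for `v₀ ∈ V₀` (K8q at level `M'`, (Q5), (Q6), (E1),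
              descent (3a)): uses `t`;
* (K-TOR)   : inertia acts through the cyclotomic character on the `p`-new part of `torSub p` (K7);
* (K-GAL)   : inertia at `B ∣ p` scalar `χ` on all of `V ≅ W[p]` is absurd (`det = χ`, `p` odd).
-/

set_option autoImplicit false
set_option linter.unusedSectionVars false
set_option linter.unusedVariables false
set_option linter.style.haveILetI false

noncomputable section

set_option synthInstance.maxHeartbeats 400000

namespace Fermat.Agent.FF4.S44Skeleton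

open ModularCurve WeierstrassCurve IsLocalRing
open Fermat.Agent.X0 Fermat.Agent.BR Fermat.Agent.BR.Final Fermat.Agent.BR2
  Fermat.Agent.BR2.SetupOfData Fermat.Agent.BR2.LevelPlug Fermat.Agent.Pseudo Fermat.Agent.Jac
  Fermat.Agent.Hecke Fermat.Agent.FF4.S40Skeleton

local notation "GQ" => (AlgebraicClosure ℚ ≃ₐ[ℚ] AlgebraicClosure ℚ)

/-- **the auxiliary prime** `r` (Dirichlet, modulus `12 p`; `FF4/K6/AuxPrime`, helper7):
`r ≡ 11 (12)` gives the two `ν = 0` (`FF4/K6/Numerics`, helper23). -/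
structure IsAux (W : WeierstrassCurve ℤ) (p M' r : ℕ) : Prop where
  prime : r.Prime
  not_dvd : ¬ r ∣ M' * p
  good : W.IsGoodPrimeFor r
  nuTwo : nuTwo (M' * r) = 0
  nuThree : nuThree (M' * r) = 0
  not_dvd_succ : ¬ p ∣ r + 1

/-- the level identity of `pullN` -/
theorem level_eq (M' p r : ℕ) : M' * p * r = M' * r * p := Nat.mul_right_comm M' p r

section Geo

variable {M' r p : ℕ} [NeZero M'] [NeZero r] [NeZero (M' * r)] [hpF : Fact p.Prime] [NeZero p]
  [NeZero (M' * p)] [NeZero (M' * r * p)]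
variable {B : ValuationSubring Kb} {hB : B.LiesOverPrime p} {hpN : ¬ p ∣ M' * r}
variable [IsAlgClosed (ResidueField B)]
variable (Dt : ModularData (M' * r) p B hB hpN)

/-- `u = α_r^*`, landed -/
abbrev up (M' p r : ℕ) [NeZero M'] [NeZero p] [NeZero r] :
    JZero (M' * p) →+ JZero (M' * r * p) :=
  pullN M' p r (level_eq M' p r)

/-- **(K-UP)** = K6 (2a) + (2b) + the `VPack` wrapper: `u = α_r^*` transports a `p`-new pack to a
`p`-new pack (landed `pullN_smul`, `pullN_heckeBar`; `FF4/K6/ConormInj`: `alphaDown_pullN`,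
`betaDown_pullN`, `pullN_injOn_torsion` since `p ∤ r + 1`). -/
def KUp (W : WeierstrassCurve ℤ) (p M' r : ℕ) [NeZero M'] [NeZero r] [NeZero p]
    [NeZero (M' * p)] [NeZero (M' * r)] [NeZero (M' * r * p)] : Prop :=
  ∀ P₀ : VPack W p (M' * p), P₀.IsNew →
    ∃ P : VPack W p (M' * r * p), P.IsNew ∧ P.V = P₀.V.map (up M' p r)

/-- **(K-NAT)** = (S1b)–(S1d): K1 ∘ K3 (slope vector diagonal on `V`) + Case II
(`Φ` Eisenstein, `ρ̄` not) + the two-sided slopes: a `p`-new pack at the elliptic-free level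
`M' r` lies in the finite part. -/
def KNat (W : WeierstrassCurve ℤ) : Prop :=
  ∀ P : VPack W p (M' * r * p), P.IsNew → P.V ≤ Filt.natSub (setup Dt) p

/-- **(K-CASE1)** = (S1e): for `v₀` in a `p`-new pack at level `M' p` and `t` an old-killer at
level `M'`: if `u v₀` is in the finite part it is in the toric part.  (By contradiction:
`f₀ ∈ Fb(M' p)`, `g̃₀ := res₀ f₀ ∈ F̃_{M'}` has all orders `≡ 0 (p)` (descent (3a)) and is not in
`k · F̃^p` ((E1)); `T_l^{(2)} (θ g̃₀ / g̃₀) = a_l · (θ g̃₀ / g̃₀)` ((Q5), HRel, product formula at level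
`M' p`); `K8.k8_endgame` with the word of `t` ((Q6), WordBridge) gives `g̃₀ ∈ F̃^p`.) -/
def KCase1 (W : WeierstrassCurve ℤ) : Prop :=
  ∀ P₀ : VPack W p (M' * p), P₀.IsNew → ∀ t : HeckeAlg, IsOldKiller W p M' t →
    ∀ v₀ ∈ P₀.V, up M' p r v₀ ∈ Filt.natSub (setup Dt) p →
      up M' p r v₀ ∈ Filt.torSub (setup Dt) p

/-- **(K-TOR)** = K7 (`FF4/K7/TorEpsOne.torEpsOne_torsion`, helper22, GREEN). -/
def KTor : Prop :=
  ∀ s : GQ, s ∈ B.inertiaSubgroupIn ℚ → ∀ x : JZero (M' * r * p),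
    x ∈ Filt.torSub (setup Dt) p →
    LevelTransfer.alphaDown (M' * r) p x = 0 → LevelMaps.betaDown (M' * r) p x = 0 →
      s • x = Cyclo.cycloLift p s • x

/-- **the core at `(M', r)`** (PROVED): a `p`-new pack at level `M' p` and an old-killer at
level `M'` cannot coexist. -/
theorem false_of_pack (W : WeierstrassCurve ℤ) (hirr : W.ModRepIsIrreducible p)
    (kUp : KUp W p M' r) (kNat : KNat Dt W) (kCase1 : KCase1 Dt W) (kTor : KTor Dt)
    (kGal : KGal W p (M' * r))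
    (P₀ : VPack W p (M' * p)) (hnew₀ : P₀.IsNew)
    (t : HeckeAlg) (ht : IsOldKiller W p M' t) : False := by
  obtain ⟨P, hnew, hV⟩ := kUp P₀ hnew₀
  refine kGal hirr P B hB (fun v hv s hs => ?_)
  have hnat : v ∈ Filt.natSub (setup Dt) p := kNat P hnew hv
  have hv' : v ∈ P₀.V.map (up M' p r) := hV ▸ hv
  obtain ⟨v₀, hv₀, rfl⟩ := hv'
  exact kTor s hs _ (kCase1 P₀ hnew₀ t ht v₀ hv₀ hnat) (hnew _ hv).1 (hnew _ hv).2

end Geo

/-- **the kernels at the level `M'`** (no auxiliary prime, no elliptic-freeness). -/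
structure BaseKernels (W : WeierstrassCurve ℤ) (p M' : ℕ) [NeZero M'] [NeZero p]
    [NeZero (M' * p)] : Prop where
  kDS : KDS W p M'
  kDich : KDich W p M'
  kV : KV W p M'

/-- **the kernels at `(M', r)`** (one field per kernel / block). -/
structure GeoKernels (W : WeierstrassCurve ℤ) (p M' r : ℕ) [NeZero M'] [NeZero r]
    [NeZero (M' * r)] [Fact p.Prime] [NeZero p] [NeZero (M' * p)] [NeZero (M' * r * p)]
    (hpN : ¬ p ∣ M' * r) : Prop where
  kUp : KUp W p M' r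
  kGal : KGal W p (M' * r)
  geo : ∃ (B : ValuationSubring Kb) (hB : B.LiesOverPrime p) (_ : IsAlgClosed (ResidueField B))
      (Dt : ModularData (M' * r) p B hB hpN), KNat Dt W ∧ KCase1 Dt W ∧ KTor Dt

/-! ## the glue (PROVED) -/

/-- **the core**: residual modularity goes down from the level `M' p` to the level `M'`. -/
theorem core_of_kernels {W : WeierstrassCurve ℤ} {p M' r : ℕ} [NeZero M'] [NeZero r]
    [NeZero (M' * r)] [hpF : Fact p.Prime] [NeZero p] [NeZero (M' * p)] [NeZero (M' * r * p)]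
    {hpN : ¬ p ∣ M' * r} (hirr : W.ModRepIsIrreducible p)
    (hmod : W.IsResiduallyModularOfLevel p (M' * p)) (K₀ : BaseKernels W p M')
    (K : GeoKernels W p M' r hpN) :
    W.IsResiduallyModularOfLevel p M' := by
  by_contra hno
  have hnoE : ¬ HasEigenclass W p M' (M' * p) := fun h => hno (K₀.kDS h)
  obtain ⟨t, ht⟩ := K₀.kDich hnoE
  obtain ⟨P₀, hnew₀⟩ := K₀.kV hirr (hasEigenclass_of_mod hpF.out hmod) t ht
  obtain ⟨B, hB, _, Dt, kNat, kCase1, kTor⟩ := K.geo
  exact false_of_pack Dt W hirr K.kUp kNat kCase1 kTor K.kGal P₀ hnew₀ t ht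

/-- **S44 FROM THE NAMED KERNELS** (the frozen shape). -/
theorem s44_of_kernels (P : FreyPackage) {N : ℕ} (hcond : P.IsConductorLevel N)
    (hpN : P.p ∣ N)
    (hirr : WeierstrassCurve.Affine.Point.GaloisRepIsIrreducible (K := AlgebraicClosure ℚ) ℚ
      P.freyCurve P.p)
    (hmod : P.ModularRepOfLevel N)
    (aux : ∀ W : WeierstrassCurve ℤ, W.IsIntegralModelOf P.freyCurve →
      ∃ r : ℕ, IsAux W P.p (N / P.p) r)
    (base : ∀ W : WeierstrassCurve ℤ, W.IsIntegralModelOf P.freyCurve →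
      ∀ [NeZero (N / P.p)] [NeZero P.p] [NeZero (N / P.p * P.p)], ¬ P.p ∣ N / P.p →
        BaseKernels W P.p (N / P.p))
    (geo : ∀ (W : WeierstrassCurve ℤ) (r : ℕ), W.IsIntegralModelOf P.freyCurve →
      IsAux W P.p (N / P.p) r →
      ∀ [NeZero (N / P.p)] [NeZero r] [NeZero (N / P.p * r)] [Fact P.p.Prime] [NeZero P.p]
        [NeZero (N / P.p * P.p)] [NeZero (N / P.p * r * P.p)] (h : ¬ P.p ∣ N / P.p * r),
        GeoKernels W P.p (N / P.p) r h) :
    ∃ M : ℕ, M ∣ N ∧ ¬ P.p ∣ M ∧ P.ModularRepOfLevel M := by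
  obtain ⟨f, W, 𝔪, hf, hW, hmax, hpm, hc⟩ := hmod
  have hp : P.p.Prime := P.pp
  have hNp : N / P.p * P.p = N := Nat.div_mul_cancel hpN
  have hM'pos : 0 < N / P.p := Nat.div_pos (Nat.le_of_dvd hcond.pos hpN) hp.pos
  have hpM' : ¬ P.p ∣ N / P.p := fun h => hcond.sq_not_dvd hp (by
    rw [← hNp, pow_two]; exact Nat.mul_dvd_mul h dvd_rfl)
  obtain ⟨r, hr⟩ := aux W hW
  have hpr : ¬ P.p ∣ r := fun h => hr.not_dvd (by
    rw [(Nat.prime_dvd_prime_iff_eq hp hr.prime).mp h]; exact dvd_mul_left _ _)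
  have hpN₁ : ¬ P.p ∣ N / P.p * r := fun h =>
    (hp.dvd_mul.mp h).elim hpM' hpr
  haveI : NeZero (N / P.p) := ⟨hM'pos.ne'⟩
  haveI : NeZero r := ⟨hr.prime.ne_zero⟩
  haveI : NeZero (N / P.p * r) := ⟨Nat.mul_ne_zero hM'pos.ne' hr.prime.ne_zero⟩
  haveI : Fact P.p.Prime := ⟨hp⟩
  haveI : NeZero P.p := ⟨hp.ne_zero⟩
  haveI : NeZero (N / P.p * P.p) := ⟨Nat.mul_ne_zero hM'pos.ne' hp.ne_zero⟩
  haveI : NeZero (N / P.p * r * P.p) :=
    ⟨Nat.mul_ne_zero (Nat.mul_ne_zero hM'pos.ne' hr.prime.ne_zero) hp.ne_zero⟩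
  have hmodW : W.IsResiduallyModularOfLevel P.p (N / P.p * P.p) := by
    rw [hNp]; exact ⟨f, 𝔪, hf, hmax, hpm, hc⟩
  obtain ⟨g, 𝔪', hg, hmax', hpm', hc'⟩ :=
    core_of_kernels
      (Fermat.Agent.LR.VarChangePoint.irreducible_of_isIntegralModelOf hW P.p hirr) hmodW
      (base W hW hpM') (geo W r hW hr hpN₁)
  exact ⟨N / P.p, Nat.div_dvd_of_dvd hpN, hpM', g, W, 𝔪', hg, hW, hmax', hpm', hc'⟩

end Fermat.Agent.FF4.S44Skeleton
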