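/-
K1-(b) SPIKE (findings #1834 / #1835), plumbing leaf (helper20):
THE COMPLETED CONSTANTS INSIDE THE COMPLETED COMPONENT FIELDS.

Abstract over a node input `I : ExpandBR.NodeInput Xb i j hj hfull hcol C` with the DVR hypothesis
`IsDV` (`FF4/BdryFrac`) and the completeness hypothesis `IsCompl` on `C.Oh v` (both true at
`CompPack.ofDatum`).  `K₁ = constK₁ L i j` is the closure in `Ω` of the constants of the level.

* `cO₁`, `cO₂` : the constants of the level inside `C.Oh (src e)`, `C.Oh (tgt e)`; `b1_cO₁`, `b2_cO₂`;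
* `dvd_of_norm_b1_le`, `norm_b1_le_of_dvd` : divisibility by `unif ^ n` is `‖b1 ·‖ ≤ ‖ϖ₁‖ ^ n`;
* `exists_b1_eq_const` : every constant of the unit ball of `K₁` is `b1 z` (`z` the limit of the
  level constants approximating it); `exists_b1F_eq_const` : every constant of `K₁` is `b1F z`;
* `cK₁ : K₁ →+* C.Lh (src e)`, `b1F_cK₁ : b1F (cK₁ c) = algebraMap c`; `cK₂`, `b2F_cK₂`;
  `cK₁_constToK₁` : on the constants of the level it is the embedding of the rational functions;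
* `mem_range_cK₁_of_pow` : `b ^ p ∈ range cK₁ → b ∈ range cK₁` (`hroot` of `Descent.descent`).
-/
import Mathlib
import Fermat.Agent.FF4.BdryFrac
import Fermat.Agent.FF3.AmiceU.Roots

set_option autoImplicit false

noncomputable section

namespace Fermat.Agent.FF4.BdryFrac

open AlgebraicCurve IsLocalRing Fermat.Agent.Red Fermat.Agent.BR.Centre Fermat.Agent.BR.SS
  Fermat.Agent.BR.Refine Fermat.Agent.BR.S0 Fermat.Agent.BR.S0.AnnulusChartOfLevels
  Fermat.Agent.FF3 Fermat.Agent.FF3.Amice Fermat.Agent.FF3.B4 Fermat.Agent.FF3.ExpandBR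

attribute [local instance] normedAlgebraSubfield
attribute [local instance] nontrivial_bAmice

universe u w

/-- the ultrametric inequality for differences -/
theorem norm_sub_le_max_of_ultra {E : Type*} [SeminormedAddCommGroup E] [IsUltrametricDist E]
    (a b : E) : ‖a - b‖ ≤ max ‖a‖ ‖b‖ := by
  rw [sub_eq_add_neg]
  exact (IsUltrametricDist.norm_add_le_max a (-b)).trans_eq (by rw [norm_neg])

variable {K : Type} {F : Type u} [Field K] [Field F] [Algebra K F]
  {A : ValuationSubring K} [IsAlgClosed (ResidueField A)]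
  {ι₀ : Type} {Ft₀ : ι₀ → Type} [∀ v, Field (Ft₀ v)] [∀ v, Algebra (ResidueField A) (Ft₀ v)]
  {ν₀ : Type} {S₀ : SemistableSetup (F := F) A (residue A) ι₀ Ft₀ ν₀} {e : ν₀} {ι : Type*}
  {L : AnnulusLevels A (tube S₀ e) ι} {Xb : BranchData S₀ e L} {i : ι}
  {Ω : Type w} [NormedField Ω] [IsUltrametricDist Ω] [CompleteSpace Ω]
  {j : K →+* Ω} {hj : ∀ c : K, ‖j c‖ ≤ 1 ↔ c ∈ A}
  {hfull : LevelFullRes L i} {hcol : DenseNearOne j}
  {F₀ : Subfield F} {ϖ₀ : F₀} {C : CompPack.{0, u, 0, 0, 0, 0, w} S₀ F₀ ϖ₀}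

/-- **The completeness hypothesis** on the completed valuation ring of the component `v`. -/
def IsCompl (C : CompPack.{0, u, 0, 0, 0, 0, w} S₀ F₀ ϖ₀) (v : ι₀) : Prop :=
  ∀ f : ℕ → C.Oh v, (∀ n : ℕ, C.unif v ^ n ∣ f (n + 1) - f n) →
    ∃ y : C.Oh v, ∀ n : ℕ, C.unif v ^ n ∣ y - f n

/-- **the completeness hypothesis holds for the component part of the DV-completion package** -/
theorem isCompl_ofDatum (D : ι₀ → DVCompl.Datum F₀)
    (hO : ∀ v (x : F₀), x ∈ (D v).O₀ ↔ (x : F) ∈ S₀.O v) (hw : ∀ v, (D v).w = ϖ₀) (v : ι₀) :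
    IsCompl (CompPack.ofDatum S₀ D hO hw) v := by
  intro f hf
  have hu : (CompPack.ofDatum S₀ D hO hw).unif v = (D v).wh := by
    apply Subtype.ext
    show (D v).emb ϖ₀ = (((D v).wh : (D v).Oh) : (D v).Lh)
    rw [(D v).coe_wh, hw v]
  rw [hu] at hf ⊢
  exact (D v).exists_limit f hf

variable (I : NodeInput Xb i j hj hfull hcol C)

/-! ### the constants of the level -/

/-- the constants of the level inside the completed valuation ring of `src e` -/
def cO₁ : levelConst L i →+* C.Oh (S₀.src e) := I.ℓ₁.comp (constHom L i)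

/-- the constants of the level inside the completed valuation ring of `tgt e` -/
def cO₂ : levelConst L i →+* C.Oh (S₀.tgt e) := I.ℓ₂.comp (constHom L i)

theorem b1_cO₁ (c : levelConst L i) :
    I.b1 (cO₁ I c) =
      algebraMap (constK₁ L i j) (BAmice (constK₁ L i j)) (constToK₁ L i j c) := by
  show I.b1 (I.ℓ₁ (constHom L i c)) = _
  rw [I.ℓ₁_apply, I.comm₁, levelExpand_const, NodeRing.coe_cInt, AlgHom.commutes]

theorem b2_cO₂ (c : levelConst L i) :
    I.b2 (cO₂ I c) =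
      algebraMap (constK₁ L i j) (BAmice (constK₁ L i j)) (constToK₁ L i j c) := by
  show I.b2 (I.ℓ₂ (constHom L i c)) = _
  rw [I.ℓ₂_apply, I.comm₂, levelExpand_const, NodeRing.coe_cInt, AlgHom.commutes]

/-! ### divisibility and norms -/

include hj in
theorem norm_unifK₁_pos : 0 < ‖unifK₁ L i j‖ := (isDiscreteNorm_unifK₁ L i j hj).1

include hj in
theorem norm_unifK₁_lt_one : ‖unifK₁ L i j‖ < 1 := (isDiscreteNorm_unifK₁ L i j hj).2.1

theorem norm_b1_le_of_dvd {n : ℕ} {y : C.Oh (S₀.src e)} (h : C.unif (S₀.src e) ^ n ∣ y) :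
    ‖I.b1 y‖ ≤ ‖unifK₁ L i j‖ ^ n := by
  obtain ⟨z, rfl⟩ := h
  rw [map_mul, map_pow, I.b1_unif, ← map_pow, ← Algebra.smul_def, norm_smul, norm_pow]
  calc ‖unifK₁ L i j‖ ^ n * ‖I.b1 z‖ ≤ ‖unifK₁ L i j‖ ^ n * 1 :=
        mul_le_mul_of_nonneg_left (I.norm_b1_le z) (pow_nonneg (norm_nonneg _) n)
    _ = ‖unifK₁ L i j‖ ^ n := mul_one _

theorem norm_b2_le_of_dvd {n : ℕ} {y : C.Oh (S₀.tgt e)} (h : C.unif (S₀.tgt e) ^ n ∣ y) :
    ‖I.b2 y‖ ≤ ‖unifK₁ L i j‖ ^ n := by
  obtain ⟨z, rfl⟩ := h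
  rw [map_mul, map_pow, I.b2_unif, ← map_pow, ← Algebra.smul_def, norm_smul, norm_pow]
  calc ‖unifK₁ L i j‖ ^ n * ‖I.b2 z‖ ≤ ‖unifK₁ L i j‖ ^ n * 1 :=
        mul_le_mul_of_nonneg_left (I.norm_b2_le z) (pow_nonneg (norm_nonneg _) n)
    _ = ‖unifK₁ L i j‖ ^ n := mul_one _

include hj in
theorem dvd_of_norm_b1_le (hdv : IsDV C (S₀.src e)) {n : ℕ} {y : C.Oh (S₀.src e)}
    (h : ‖I.b1 y‖ ≤ ‖unifK₁ L i j‖ ^ n) : C.unif (S₀.src e) ^ n ∣ y := by
  rcases eq_or_ne y 0 with rfl | hy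
  · exact dvd_zero _
  obtain ⟨m, w, rfl⟩ := hdv y hy
  rw [norm_b1_unif_pow_mul] at h
  have hnm : n ≤ m := by
    by_contra hlt
    rw [not_le] at hlt
    exact absurd h (not_le.2 (pow_lt_pow_right_of_lt_one₀ (norm_unifK₁_pos (hj := hj))
      (norm_unifK₁_lt_one (hj := hj)) hlt))
  exact Dvd.dvd.mul_right (pow_dvd_pow _ hnm) _

include hj in
theorem dvd_of_norm_b2_le (hdv : IsDV C (S₀.tgt e)) {n : ℕ} {y : C.Oh (S₀.tgt e)}
    (h : ‖I.b2 y‖ ≤ ‖unifK₁ L i j‖ ^ n) : C.unif (S₀.tgt e) ^ n ∣ y := by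
  rcases eq_or_ne y 0 with rfl | hy
  · exact dvd_zero _
  obtain ⟨m, w, rfl⟩ := hdv y hy
  rw [norm_b2_unif_pow_mul] at h
  have hnm : n ≤ m := by
    by_contra hlt
    rw [not_le] at hlt
    exact absurd h (not_le.2 (pow_lt_pow_right_of_lt_one₀ (norm_unifK₁_pos (hj := hj))
      (norm_unifK₁_lt_one (hj := hj)) hlt))
  exact Dvd.dvd.mul_right (pow_dvd_pow _ hnm) _

/-! ### approximation of the completed constants by the constants of the level -/

include hj in
/-- a constant of the unit ball of `K₁` is approximated by the constants of the level -/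
theorem exists_levelConst_approx (y : constK₁ L i j) (hy : ‖y‖ ≤ 1) (n : ℕ) :
    ∃ c : levelConst L i, ‖y - constToK₁ L i j c‖ ≤ ‖unifK₁ L i j‖ ^ n := by
  obtain ⟨x, hx⟩ := (isDiscNormed_constField L i j hj).exists_approx
    (⟨(y : Ω), y.2, hy⟩ : Wc.Wc (constField L i j)) n
  obtain ⟨c, hc, hcx⟩ := (mem_constField L i j).mp x.2.1
  have hcA : c ∈ A := (hj c).mp (by rw [hcx]; exact x.2.2)
  refine ⟨⟨c, (mem_levelConst L i).mpr ⟨hcA, hc⟩⟩, ?_⟩
  show ‖((y : Ω) - j c)‖ ≤ ‖j (L.level i).ϖ‖ ^ n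
  rw [hcx]
  exact hx

/-! ### the completed constants are expansions -/

include hj in
/-- **every constant of the unit ball of `K₁` is the expansion of an element of `C.Oh (src e)`** -/
theorem exists_b1_eq_const (hdv : IsDV C (S₀.src e)) (hcp : IsCompl C (S₀.src e))
    (y : constK₁ L i j) (hy : ‖y‖ ≤ 1) :
    ∃ z : C.Oh (S₀.src e),
      I.b1 z = algebraMap (constK₁ L i j) (BAmice (constK₁ L i j)) y := by
  choose c hc using exists_levelConst_approx (hj := hj) y hy
  have hstep : ∀ n : ℕ, C.unif (S₀.src e) ^ n ∣ cO₁ I (c (n + 1)) - cO₁ I (c n) := by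
    intro n
    apply dvd_of_norm_b1_le I hdv
    rw [map_sub, b1_cO₁, b1_cO₁, ← map_sub, norm_algebraMap']
    have h1 : constToK₁ L i j (c (n + 1)) - constToK₁ L i j (c n) =
        (y - constToK₁ L i j (c n)) - (y - constToK₁ L i j (c (n + 1))) := by ring
    rw [h1]
    refine (norm_sub_le_max_of_ultra _ _).trans (max_le (hc n) ((hc (n + 1)).trans ?_))
    exact pow_le_pow_of_le_one (norm_nonneg _) (norm_unifK₁_lt_one (hj := hj)).le (Nat.le_succ n)
  obtain ⟨z, hz⟩ := hcp (fun n => cO₁ I (c n)) hstep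
  refine ⟨z, ?_⟩
  have hle : ∀ n : ℕ, ‖I.b1 z - algebraMap (constK₁ L i j) (BAmice (constK₁ L i j)) y‖ ≤
      ‖unifK₁ L i j‖ ^ n := by
    intro n
    have h1 := norm_b1_le_of_dvd I (hz n)
    rw [map_sub, b1_cO₁] at h1
    have h2 : I.b1 z - algebraMap (constK₁ L i j) (BAmice (constK₁ L i j)) y =
        (I.b1 z - algebraMap (constK₁ L i j) (BAmice (constK₁ L i j)) (constToK₁ L i j (c n))) -
          algebraMap (constK₁ L i j) (BAmice (constK₁ L i j)) (y - constToK₁ L i j (c n)) := by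
      rw [map_sub]
      ring
    rw [h2]
    refine (norm_sub_le_max_of_ultra _ _).trans (max_le h1 ?_)
    rw [norm_algebraMap']
    exact hc n
  have h0 : ‖I.b1 z - algebraMap (constK₁ L i j) (BAmice (constK₁ L i j)) y‖ = 0 := by
    refine le_antisymm ?_ (norm_nonneg _)
    exact ge_of_tendsto' (tendsto_pow_atTop_nhds_zero_of_lt_one (norm_nonneg _)
      (norm_unifK₁_lt_one (hj := hj))) hle
  exact sub_eq_zero.1 (norm_eq_zero.1 h0)

include hj in
/-- **every constant of the unit ball of `K₁` is the expansion of an element of `C.Oh (tgt e)`** -/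
theorem exists_b2_eq_const (hdv : IsDV C (S₀.tgt e)) (hcp : IsCompl C (S₀.tgt e))
    (y : constK₁ L i j) (hy : ‖y‖ ≤ 1) :
    ∃ z : C.Oh (S₀.tgt e),
      I.b2 z = algebraMap (constK₁ L i j) (BAmice (constK₁ L i j)) y := by
  choose c hc using exists_levelConst_approx (hj := hj) y hy
  have hstep : ∀ n : ℕ, C.unif (S₀.tgt e) ^ n ∣ cO₂ I (c (n + 1)) - cO₂ I (c n) := by
    intro n
    apply dvd_of_norm_b2_le I hdv
    rw [map_sub, b2_cO₂, b2_cO₂, ← map_sub, norm_algebraMap']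
    have h1 : constToK₁ L i j (c (n + 1)) - constToK₁ L i j (c n) =
        (y - constToK₁ L i j (c n)) - (y - constToK₁ L i j (c (n + 1))) := by ring
    rw [h1]
    refine (norm_sub_le_max_of_ultra _ _).trans (max_le (hc n) ((hc (n + 1)).trans ?_))
    exact pow_le_pow_of_le_one (norm_nonneg _) (norm_unifK₁_lt_one (hj := hj)).le (Nat.le_succ n)
  obtain ⟨z, hz⟩ := hcp (fun n => cO₂ I (c n)) hstep
  refine ⟨z, ?_⟩
  have hle : ∀ n : ℕ, ‖I.b2 z - algebraMap (constK₁ L i j) (BAmice (constK₁ L i j)) y‖ ≤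
      ‖unifK₁ L i j‖ ^ n := by
    intro n
    have h1 := norm_b2_le_of_dvd I (hz n)
    rw [map_sub, b2_cO₂] at h1
    have h2 : I.b2 z - algebraMap (constK₁ L i j) (BAmice (constK₁ L i j)) y =
        (I.b2 z - algebraMap (constK₁ L i j) (BAmice (constK₁ L i j)) (constToK₁ L i j (c n))) -
          algebraMap (constK₁ L i j) (BAmice (constK₁ L i j)) (y - constToK₁ L i j (c n)) := by
      rw [map_sub]
      ring
    rw [h2]
    refine (norm_sub_le_max_of_ultra _ _).trans (max_le h1 ?_)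
    rw [norm_algebraMap']
    exact hc n
  have h0 : ‖I.b2 z - algebraMap (constK₁ L i j) (BAmice (constK₁ L i j)) y‖ = 0 := by
    refine le_antisymm ?_ (norm_nonneg _)
    exact ge_of_tendsto' (tendsto_pow_atTop_nhds_zero_of_lt_one (norm_nonneg _)
      (norm_unifK₁_lt_one (hj := hj))) hle
  exact sub_eq_zero.1 (norm_eq_zero.1 h0)

include hj in
/-- **every constant of `K₁` is the expansion of an element of `C.Lh (src e)`** -/
theorem exists_b1F_eq_const (hdv : IsDV C (S₀.src e)) (hcp : IsCompl C (S₀.src e))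
    (c : constK₁ L i j) :
    ∃ z : C.Lh (S₀.src e),
      b1F I hdv z = algebraMap (constK₁ L i j) (BAmice (constK₁ L i j)) c := by
  rcases le_or_gt ‖c‖ 1 with h | h
  · obtain ⟨z, hz⟩ := exists_b1_eq_const (hj := hj) I hdv hcp c h
    exact ⟨(z : C.Lh (S₀.src e)), by rw [b1F_coe, hz]⟩
  · have hc0 : c ≠ 0 := by
      rintro rfl
      rw [norm_zero] at h
      exact absurd h (by norm_num)
    have h' : ‖c⁻¹‖ ≤ 1 := by
      rw [norm_inv]
      exact inv_le_one_of_one_le₀ h.le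
    obtain ⟨z, hz⟩ := exists_b1_eq_const (hj := hj) I hdv hcp c⁻¹ h'
    refine ⟨(z : C.Lh (S₀.src e))⁻¹, ?_⟩
    have hz0 : (z : C.Lh (S₀.src e)) ≠ 0 := by
      intro h0
      have hb : I.b1 z = 0 := by rw [← b1F_coe I hdv, h0, map_zero]
      rw [hb] at hz
      exact inv_ne_zero hc0
        ((algebraMap (constK₁ L i j) (BAmice (constK₁ L i j))).injective (by rw [← hz, map_zero]))
    have h1 : b1F I hdv ((z : C.Lh (S₀.src e))⁻¹) * b1F I hdv (z : C.Lh (S₀.src e)) = 1 := by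
      rw [← map_mul, inv_mul_cancel₀ hz0, map_one]
    have h2 : b1F I hdv (z : C.Lh (S₀.src e)) *
        algebraMap (constK₁ L i j) (BAmice (constK₁ L i j)) c = 1 := by
      rw [b1F_coe, hz, ← map_mul, inv_mul_cancel₀ hc0, map_one]
    calc b1F I hdv ((z : C.Lh (S₀.src e))⁻¹)
        = b1F I hdv ((z : C.Lh (S₀.src e))⁻¹) * (b1F I hdv (z : C.Lh (S₀.src e)) *
            algebraMap (constK₁ L i j) (BAmice (constK₁ L i j)) c) := by rw [h2, mul_one]
      _ = algebraMap (constK₁ L i j) (BAmice (constK₁ L i j)) c := by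
          rw [← mul_assoc, h1, one_mul]

include hj in
/-- **every constant of `K₁` is the expansion of an element of `C.Lh (tgt e)`** -/
theorem exists_b2F_eq_const (hdv : IsDV C (S₀.tgt e)) (hcp : IsCompl C (S₀.tgt e))
    (c : constK₁ L i j) :
    ∃ z : C.Lh (S₀.tgt e),
      b2F I hdv z = algebraMap (constK₁ L i j) (BAmice (constK₁ L i j)) c := by
  rcases le_or_gt ‖c‖ 1 with h | h
  · obtain ⟨z, hz⟩ := exists_b2_eq_const (hj := hj) I hdv hcp c h
    exact ⟨(z : C.Lh (S₀.tgt e)), by rw [b2F_coe, hz]⟩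
  · have hc0 : c ≠ 0 := by
      rintro rfl
      rw [norm_zero] at h
      exact absurd h (by norm_num)
    have h' : ‖c⁻¹‖ ≤ 1 := by
      rw [norm_inv]
      exact inv_le_one_of_one_le₀ h.le
    obtain ⟨z, hz⟩ := exists_b2_eq_const (hj := hj) I hdv hcp c⁻¹ h'
    refine ⟨(z : C.Lh (S₀.tgt e))⁻¹, ?_⟩
    have hz0 : (z : C.Lh (S₀.tgt e)) ≠ 0 := by
      intro h0
      have hb : I.b2 z = 0 := by rw [← b2F_coe I hdv, h0, map_zero]
      rw [hb] at hz
      exact inv_ne_zero hc0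
        ((algebraMap (constK₁ L i j) (BAmice (constK₁ L i j))).injective (by rw [← hz, map_zero]))
    have h1 : b2F I hdv ((z : C.Lh (S₀.tgt e))⁻¹) * b2F I hdv (z : C.Lh (S₀.tgt e)) = 1 := by
      rw [← map_mul, inv_mul_cancel₀ hz0, map_one]
    have h2 : b2F I hdv (z : C.Lh (S₀.tgt e)) *
        algebraMap (constK₁ L i j) (BAmice (constK₁ L i j)) c = 1 := by
      rw [b2F_coe, hz, ← map_mul, inv_mul_cancel₀ hc0, map_one]
    calc b2F I hdv ((z : C.Lh (S₀.tgt e))⁻¹)
        = b2F I hdv ((z : C.Lh (S₀.tgt e))⁻¹) * (b2F I hdv (z : C.Lh (S₀.tgt e)) *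
            algebraMap (constK₁ L i j) (BAmice (constK₁ L i j)) c) := by rw [h2, mul_one]
      _ = algebraMap (constK₁ L i j) (BAmice (constK₁ L i j)) c := by
          rw [← mul_assoc, h1, one_mul]

/-! ### the embeddings of the completed constants -/

/-- the underlying function of `cK₁` -/
def cK₁Fun (hdv : IsDV C (S₀.src e)) (hcp : IsCompl C (S₀.src e)) (c : constK₁ L i j) :
    C.Lh (S₀.src e) :=
  Classical.choose (exists_b1F_eq_const (hj := hj) I hdv hcp c)

theorem b1F_cK₁Fun (hdv : IsDV C (S₀.src e)) (hcp : IsCompl C (S₀.src e)) (c : constK₁ L i j) :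
    b1F I hdv (cK₁Fun I hdv hcp c) =
      algebraMap (constK₁ L i j) (BAmice (constK₁ L i j)) c :=
  Classical.choose_spec (exists_b1F_eq_const (hj := hj) I hdv hcp c)

/-- the underlying function of `cK₂` -/
def cK₂Fun (hdv : IsDV C (S₀.tgt e)) (hcp : IsCompl C (S₀.tgt e)) (c : constK₁ L i j) :
    C.Lh (S₀.tgt e) :=
  Classical.choose (exists_b2F_eq_const (hj := hj) I hdv hcp c)

theorem b2F_cK₂Fun (hdv : IsDV C (S₀.tgt e)) (hcp : IsCompl C (S₀.tgt e)) (c : constK₁ L i j) :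
    b2F I hdv (cK₂Fun I hdv hcp c) =
      algebraMap (constK₁ L i j) (BAmice (constK₁ L i j)) c :=
  Classical.choose_spec (exists_b2F_eq_const (hj := hj) I hdv hcp c)

/-- **the completed constants inside the completed function field of the component `src e`** -/
def cK₁ (hdv : IsDV C (S₀.src e)) (hcp : IsCompl C (S₀.src e)) :
    constK₁ L i j →+* C.Lh (S₀.src e) where
  toFun := cK₁Fun I hdv hcp
  map_one' := b1F_injective I hdv (by rw [b1F_cK₁Fun, map_one, map_one])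
  map_mul' a b := b1F_injective I hdv (by
    rw [map_mul (b1F I hdv), b1F_cK₁Fun, b1F_cK₁Fun, b1F_cK₁Fun, map_mul])
  map_zero' := b1F_injective I hdv (by rw [b1F_cK₁Fun, map_zero, map_zero])
  map_add' a b := b1F_injective I hdv (by
    rw [map_add (b1F I hdv), b1F_cK₁Fun, b1F_cK₁Fun, b1F_cK₁Fun, map_add])

/-- **the completed constants inside the completed function field of the component `tgt e`** -/
def cK₂ (hdv : IsDV C (S₀.tgt e)) (hcp : IsCompl C (S₀.tgt e)) :
    constK₁ L i j →+* C.Lh (S₀.tgt e) where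
  toFun := cK₂Fun I hdv hcp
  map_one' := b2F_injective I hdv (by rw [b2F_cK₂Fun, map_one, map_one])
  map_mul' a b := b2F_injective I hdv (by
    rw [map_mul (b2F I hdv), b2F_cK₂Fun, b2F_cK₂Fun, b2F_cK₂Fun, map_mul])
  map_zero' := b2F_injective I hdv (by rw [b2F_cK₂Fun, map_zero, map_zero])
  map_add' a b := b2F_injective I hdv (by
    rw [map_add (b2F I hdv), b2F_cK₂Fun, b2F_cK₂Fun, b2F_cK₂Fun, map_add])

/-- **the expansion of a completed constant is the constant** (side of `src e`) -/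
@[simp] theorem b1F_cK₁ (hdv : IsDV C (S₀.src e)) (hcp : IsCompl C (S₀.src e))
    (c : constK₁ L i j) :
    b1F I hdv (cK₁ I hdv hcp c) = algebraMap (constK₁ L i j) (BAmice (constK₁ L i j)) c :=
  b1F_cK₁Fun I hdv hcp c

/-- **the expansion of a completed constant is the constant** (side of `tgt e`) -/
@[simp] theorem b2F_cK₂ (hdv : IsDV C (S₀.tgt e)) (hcp : IsCompl C (S₀.tgt e))
    (c : constK₁ L i j) :
    b2F I hdv (cK₂ I hdv hcp c) = algebraMap (constK₁ L i j) (BAmice (constK₁ L i j)) c :=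
  b2F_cK₂Fun I hdv hcp c

/-- on the constants of the level, `cK₁` is the embedding of the rational functions -/
theorem cK₁_constToK₁ (hdv : IsDV C (S₀.src e)) (hcp : IsCompl C (S₀.src e))
    (c : levelConst L i) :
    cK₁ I hdv hcp (constToK₁ L i j c) = ((cO₁ I c : C.Oh (S₀.src e)) : C.Lh (S₀.src e)) :=
  b1F_injective I hdv (by rw [b1F_cK₁, b1F_coe, b1_cO₁])

/-- on the constants of the level, `cK₂` is the embedding of the rational functions -/
theorem cK₂_constToK₁ (hdv : IsDV C (S₀.tgt e)) (hcp : IsCompl C (S₀.tgt e))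
    (c : levelConst L i) :
    cK₂ I hdv hcp (constToK₁ L i j c) = ((cO₂ I c : C.Oh (S₀.tgt e)) : C.Lh (S₀.tgt e)) :=
  b2F_injective I hdv (by rw [b2F_cK₂, b2F_coe, b2_cO₂])

/-- an element of `C.Lh (src e)` with constant expansion is a completed constant -/
theorem eq_cK₁_of_b1F_eq (hdv : IsDV C (S₀.src e)) (hcp : IsCompl C (S₀.src e))
    {z : C.Lh (S₀.src e)} {c : constK₁ L i j}
    (h : b1F I hdv z = algebraMap (constK₁ L i j) (BAmice (constK₁ L i j)) c) :
    z = cK₁ I hdv hcp c :=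
  b1F_injective I hdv (by rw [h, b1F_cK₁])

/-- an element of `C.Lh (tgt e)` with constant expansion is a completed constant -/
theorem eq_cK₂_of_b2F_eq (hdv : IsDV C (S₀.tgt e)) (hcp : IsCompl C (S₀.tgt e))
    {z : C.Lh (S₀.tgt e)} {c : constK₁ L i j}
    (h : b2F I hdv z = algebraMap (constK₁ L i j) (BAmice (constK₁ L i j)) c) :
    z = cK₂ I hdv hcp c :=
  b2F_injective I hdv (by rw [h, b2F_cK₂])

/-! ### roots of constants are constants -/

/-- **`hroot`** (side of `src e`): an element of `C.Lh (src e)` a nonzero power of which is a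
completed constant is a completed constant. -/
theorem mem_range_cK₁_of_pow (hdv : IsDV C (S₀.src e)) (hcp : IsCompl C (S₀.src e))
    {n : ℕ} (hn0 : n ≠ 0) (hn : (n : constK₁ L i j) ≠ 0) {b : C.Lh (S₀.src e)}
    (hb : b ^ n ∈ (cK₁ I hdv hcp).range) : b ∈ (cK₁ I hdv hcp).range := by
  obtain ⟨c, hc⟩ := hb
  rcases eq_or_ne c 0 with rfl | hc0
  · rw [map_zero] at hc
    exact ⟨0, by rw [map_zero, pow_eq_zero_iff hn0 |>.mp hc.symm]⟩
  have h1 : b1F I hdv b ^ n = algebraMap (constK₁ L i j) (BAmice (constK₁ L i j)) c := by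
    rw [← map_pow, ← hc, b1F_cK₁]
  obtain ⟨c', -, hc'⟩ := AmiceU.exists_eq_algebraMap_of_pow_eq (isDiscreteNorm_unifK₁ L i j hj)
    hn0 hn hc0 h1
  exact ⟨c', (eq_cK₁_of_b1F_eq I hdv hcp hc').symm⟩

/-- **`hroot`** (side of `tgt e`) -/
theorem mem_range_cK₂_of_pow (hdv : IsDV C (S₀.tgt e)) (hcp : IsCompl C (S₀.tgt e))
    {n : ℕ} (hn0 : n ≠ 0) (hn : (n : constK₁ L i j) ≠ 0) {b : C.Lh (S₀.tgt e)}
    (hb : b ^ n ∈ (cK₂ I hdv hcp).range) : b ∈ (cK₂ I hdv hcp).range := by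
  obtain ⟨c, hc⟩ := hb
  rcases eq_or_ne c 0 with rfl | hc0
  · rw [map_zero] at hc
    exact ⟨0, by rw [map_zero, pow_eq_zero_iff hn0 |>.mp hc.symm]⟩
  have h1 : b2F I hdv b ^ n = algebraMap (constK₁ L i j) (BAmice (constK₁ L i j)) c := by
    rw [← map_pow, ← hc, b2F_cK₂]
  obtain ⟨c', -, hc'⟩ := AmiceU.exists_eq_algebraMap_of_pow_eq (isDiscreteNorm_unifK₁ L i j hj)
    hn0 hn hc0 h1
  exact ⟨c', (eq_cK₂_of_b2F_eq I hdv hcp hc').symm⟩

end Fermat.Agent.FF4.BdryFrac
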