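/-
K1-(b) SPIKE (findings #1834 / #1835), plumbing leaf (helper20):
THE SUBFIELD OF COMPLETED CONSTANTS OF `C.Lh v` IS INTRINSIC (it does not depend on the node).

`IsConstLim C K' v x` : up to a power of the uniformiser, `x : C.Lh v` is a limit (for the topology
of the valuation of `C.Oh v`) of integral constants of the subfield `K' ≤ K`.  The statement mentions
neither a node nor an expansion.

* `mem_fieldRange_cK₁_iff` : `x ∈ (cK₁ I hdv hcp).fieldRange ↔ IsConstLim C (L.level i).K' (src e) x`;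
* `mem_fieldRange_cK₂_iff` : the same on the side of `tgt e`.

Hence, for two nodes of the same component whose levels have the same constant field, the two
subfields of completed constants coincide (the common `C` of `Descent.ratio_invariant`).
-/
import Mathlib
import Fermat.Agent.FF4.ConstEmb

set_option autoImplicit false

noncomputable section

namespace Fermat.Agent.FF4.BdryFrac

open AlgebraicCurve IsLocalRing Fermat.Agent.Red Fermat.Agent.BR.Centre Fermat.Agent.BR.SS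
  Fermat.Agent.BR.Refine Fermat.Agent.BR.S0 Fermat.Agent.BR.S0.AnnulusChartOfLevels
  Fermat.Agent.FF3 Fermat.Agent.FF3.Amice Fermat.Agent.FF3.B4 Fermat.Agent.FF3.ExpandBR

attribute [local instance] normedAlgebraSubfield
attribute [local instance] nontrivial_bAmice

universe u w

variable {K : Type} {F : Type u} [Field K] [Field F] [Algebra K F]
  {A : ValuationSubring K} [IsAlgClosed (ResidueField A)]
  {ι₀ : Type} {Ft₀ : ι₀ → Type} [∀ v, Field (Ft₀ v)] [∀ v, Algebra (ResidueField A) (Ft₀ v)]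
  {ν₀ : Type} {S₀ : SemistableSetup (F := F) A (residue A) ι₀ Ft₀ ν₀} {e : ν₀} {ι : Type*}
  {L : AnnulusLevels A (tube S₀ e) ι} {Xb : BranchData S₀ e L} {i : ι}
  {Ω : Type w} [NormedField Ω] [IsUltrametricDist Ω] [CompleteSpace Ω]
  {j : K →+* Ω} {hj : ∀ c : K, ‖j c‖ ≤ 1 ↔ c ∈ A}
  {hfull : LevelFullRes L i} {hcol : DenseNearOne j}
  {F₀ : Subfield F} {ϖ₀ : F₀} {C : CompPack.{0, u, 0, 0, 0, 0, w} S₀ F₀ ϖ₀}

/-- **Limits of constants**: up to a power of the uniformiser, `x` is a limit of integral constants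
of the subfield `K'` (for the valuation of `C.Oh v`). -/
def IsConstLim (C : CompPack.{0, u, 0, 0, 0, 0, w} S₀ F₀ ϖ₀) (K' : Subfield K) (v : ι₀)
    (x : C.Lh v) : Prop :=
  ∃ m : ℕ, ∀ n : ℕ, ∃ c : F₀, (∃ c' : K, c' ∈ A ∧ c' ∈ K' ∧ algebraMap K F c' = (c : F)) ∧
    ∃ z : C.Oh v, ((C.unif v : C.Oh v) : C.Lh v) ^ m * x - C.emb v c =
      ((C.unif v : C.Oh v) : C.Lh v) ^ n * (z : C.Lh v)

/-- **Limits of constants, pointwise**: up to the power `ϖ ^ m` of the uniformiser, `z : C.Lh v` is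
the limit of the integral constants `c'` of `K'` which converge to `η : Ω` (through `j`).  The
statement mentions neither a node nor an expansion. -/
def IsConstLimOf (C : CompPack.{0, u, 0, 0, 0, 0, w} S₀ F₀ ϖ₀) (j : K →+* Ω) (K' : Subfield K)
    (ϖ : K) (v : ι₀) (η : Ω) (z : C.Lh v) : Prop :=
  ∃ m : ℕ, ∀ n : ℕ, ∃ (c : F₀) (c' : K), c' ∈ A ∧ c' ∈ K' ∧ algebraMap K F c' = (c : F) ∧
    ‖j ϖ ^ m * η - j c'‖ ≤ ‖j ϖ‖ ^ n ∧
    ∃ z' : C.Oh v, ((C.unif v : C.Oh v) : C.Lh v) ^ m * z - C.emb v c =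
      ((C.unif v : C.Oh v) : C.Lh v) ^ n * (z' : C.Lh v)

/-- an element of the Amice ring all of whose coefficients of nonzero index vanish is a constant -/
theorem eq_algebraMap_coeff_zero {K₁ : Type*} [NormedField K₁] [IsUltrametricDist K₁]
    [CompleteSpace K₁] {Z : BAmice K₁} (h : ∀ k : ℤ, k ≠ 0 → BAmice.coeff k Z = 0) :
    Z = algebraMap K₁ (BAmice K₁) (BAmice.coeff 0 Z) := by
  apply BAmice.ext
  intro k
  rw [BAmice.coeff_algebraMap]
  split_ifs with hk
  · rw [hk]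
  · exact h k hk

/-- an element of a normed group whose norm is at most `r ^ n` for all `n`, `0 ≤ r < 1`, is zero -/
theorem eq_zero_of_forall_norm_le_pow {E : Type*} [NormedAddCommGroup E] {r : ℝ} (hr0 : 0 ≤ r)
    (hr1 : r < 1) {a : E} (h : ∀ n : ℕ, ‖a‖ ≤ r ^ n) : a = 0 := by
  have h0 : ‖a‖ = 0 :=
    le_antisymm (ge_of_tendsto' (tendsto_pow_atTop_nhds_zero_of_lt_one hr0 hr1) h) (norm_nonneg _)
  exact norm_eq_zero.1 h0

variable (I : NodeInput Xb i j hj hfull hcol C)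

/-! ### the side of `src e` -/

section Src

variable (hdv : IsDV C (S₀.src e))

include hj I in
theorem unif_src_ne_zero : C.unif (S₀.src e) ≠ 0 := by
  intro h0
  have h := I.b1_unif
  rw [h0, map_zero] at h
  exact unifK₁_ne_zero' (hj := hj)
    ((algebraMap (constK₁ L i j) (BAmice (constK₁ L i j))).injective (by rw [← h, map_zero]))

/-- the expansion of an integral constant of the level, given as an element of `F₀` -/
theorem b1F_emb_const {c : F₀} {c' : K} (hA : c' ∈ A) (hK : c' ∈ (L.level i).K')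
    (hc : algebraMap K F c' = (c : F)) :
    b1F I hdv (C.emb (S₀.src e) c) =
      algebraMap (constK₁ L i j) (BAmice (constK₁ L i j))
        (constToK₁ L i j ⟨c', (mem_levelConst L i).mpr ⟨hA, hK⟩⟩) := by
  rw [← b1_cO₁ I, ← b1F_coe I hdv]
  congr 1
  show C.emb (S₀.src e) c = C.emb (S₀.src e) (I.toF₀ (constHom L i ⟨c', _⟩))
  congr 1
  exact Subtype.ext hc.symm

include hj in
/-- an element of `C.Lh (src e)` whose expansion has norm `≤ ‖ϖ₁‖ ^ n` is divisible by `unif ^ n` -/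
theorem exists_mul_of_norm_b1F_le {n : ℕ} {x : C.Lh (S₀.src e)}
    (h : ‖b1F I hdv x‖ ≤ ‖unifK₁ L i j‖ ^ n) :
    ∃ z : C.Oh (S₀.src e), x = ((C.unif (S₀.src e) : C.Oh (S₀.src e)) : C.Lh (S₀.src e)) ^ n *
      (z : C.Lh (S₀.src e)) := by
  rcases eq_or_ne x 0 with rfl | hx
  · exact ⟨0, by rw [ZeroMemClass.coe_zero, mul_zero]⟩
  have hu := unif_src_ne_zero (hj := hj) I
  have hu' : ((C.unif (S₀.src e) : C.Oh (S₀.src e)) : C.Lh (S₀.src e)) ≠ 0 :=
    fun h0 => hu (Subtype.ext h0)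
  obtain ⟨m, w, rfl⟩ := (hdv).exists_zpow hu x hx
  rw [norm_b1F, ← zpow_natCast] at h
  have hnm : (n : ℤ) ≤ m := by
    by_contra hlt
    rw [not_le] at hlt
    exact absurd h (not_le.2 (zpow_lt_zpow_right_of_lt_one₀ (norm_unifK₁_pos (hj := hj))
      (norm_unifK₁_lt_one (hj := hj)) hlt))
  obtain ⟨k, hk⟩ := Int.le.dest hnm
  refine ⟨C.unif (S₀.src e) ^ k * (w : C.Oh (S₀.src e)), ?_⟩
  rw [← hk, zpow_add₀ hu', zpow_natCast, zpow_natCast, MulMemClass.coe_mul, SubmonoidClass.coe_pow,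
    mul_assoc]

variable (hcp : IsCompl C (S₀.src e))

theorem cK₁_unifK₁ :
    cK₁ I hdv hcp (unifK₁ L i j) = ((C.unif (S₀.src e) : C.Oh (S₀.src e)) : C.Lh (S₀.src e)) := by
  have h := cK₁_constToK₁ I hdv hcp (unifW L i)
  have h1 : cO₁ I (unifW L i) = C.unif (S₀.src e) := by
    show I.ℓ₁ (constHom L i (unifW L i)) = _
    rw [constHom_unifW, I.ℓ₁_πR]
  rw [h1] at h
  exact h

include hj in
/-- **the subfield of completed constants is intrinsic** (side of `src e`) -/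
theorem mem_fieldRange_cK₁_iff (x : C.Lh (S₀.src e)) :
    x ∈ (cK₁ I hdv hcp).fieldRange ↔ IsConstLim C (L.level i).K' (S₀.src e) x := by
  have hϖ0 : unifK₁ L i j ≠ 0 := unifK₁_ne_zero' (hj := hj)
  have hpos := norm_unifK₁_pos (L := L) (i := i) (j := j) (hj := hj)
  have hlt1 := norm_unifK₁_lt_one (L := L) (i := i) (j := j) (hj := hj)
  constructor
  · rintro ⟨y, rfl⟩
    -- scale into the unit ball
    obtain ⟨m, hm⟩ : ∃ m : ℕ, ‖unifK₁ L i j ^ m * y‖ ≤ 1 := by
      rcases eq_or_ne y 0 with rfl | hy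
      · exact ⟨0, by rw [mul_zero, norm_zero]; exact zero_le_one⟩
      · have hy' : 0 < ‖y‖ := norm_pos_iff.2 hy
        obtain ⟨m, hm⟩ := exists_pow_lt_of_lt_one (inv_pos.2 hy') hlt1
        refine ⟨m, ?_⟩
        rw [norm_mul, norm_pow]
        have := mul_le_mul_of_nonneg_right hm.le hy'.le
        rwa [inv_mul_cancel₀ hy'.ne'] at this
    refine ⟨m, fun n => ?_⟩
    obtain ⟨c, hc⟩ := exists_levelConst_approx (hj := hj) (unifK₁ L i j ^ m * y) hm n
    refine ⟨I.toF₀ (constHom L i c), ⟨(c : K), ((mem_levelConst L i).mp c.2).1,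
      ((mem_levelConst L i).mp c.2).2, rfl⟩, ?_⟩
    apply exists_mul_of_norm_b1F_le (hj := hj) I hdv
    rw [map_sub, map_mul, map_pow, ← cK₁_unifK₁ I hdv hcp, b1F_cK₁, b1F_cK₁,
      b1F_emb_const I hdv ((mem_levelConst L i).mp c.2).1 ((mem_levelConst L i).mp c.2).2 rfl,
      ← map_pow, ← map_mul, ← map_sub, norm_algebraMap']
    exact hc
  · rintro ⟨m, hm⟩
    set Z := b1F I hdv (((C.unif (S₀.src e) : C.Oh (S₀.src e)) : C.Lh (S₀.src e)) ^ m * x) with hZ
    have hcoeff : ∀ k : ℤ, k ≠ 0 → BAmice.coeff k Z = 0 := by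
      intro k hk
      apply eq_zero_of_forall_norm_le_pow (norm_nonneg (unifK₁ L i j)) hlt1
      intro n
      obtain ⟨c, ⟨c', hA, hK, hcc'⟩, z, hz⟩ := hm n
      have h1 : Z - algebraMap (constK₁ L i j) (BAmice (constK₁ L i j))
          (constToK₁ L i j ⟨c', (mem_levelConst L i).mpr ⟨hA, hK⟩⟩) =
          unifK₁ L i j ^ n • I.b1 z := by
        rw [hZ, ← b1F_emb_const I hdv hA hK hcc', ← map_sub, hz, map_mul, map_pow, b1F_coe,
          b1F_coe, I.b1_unif, ← map_pow, ← Algebra.smul_def]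
      have h2 : BAmice.coeff k Z = BAmice.coeff k (Z - algebraMap (constK₁ L i j)
          (BAmice (constK₁ L i j)) (constToK₁ L i j ⟨c', (mem_levelConst L i).mpr ⟨hA, hK⟩⟩)) := by
        rw [map_sub, BAmice.coeff_algebraMap, if_neg hk, sub_zero]
      rw [h2, h1]
      refine (BAmice.norm_coeff_le k _).trans ?_
      rw [norm_smul, norm_pow]
      calc ‖unifK₁ L i j‖ ^ n * ‖I.b1 z‖ ≤ ‖unifK₁ L i j‖ ^ n * 1 :=
            mul_le_mul_of_nonneg_left (I.norm_b1_le z) (pow_nonneg (norm_nonneg _) n)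
        _ = ‖unifK₁ L i j‖ ^ n := mul_one _
    have hZc := eq_algebraMap_coeff_zero hcoeff
    have h3 := eq_cK₁_of_b1F_eq I hdv hcp hZc
    have hu' : ((C.unif (S₀.src e) : C.Oh (S₀.src e)) : C.Lh (S₀.src e)) ^ m ≠ 0 :=
      pow_ne_zero m fun h0 => unif_src_ne_zero (hj := hj) I (Subtype.ext h0)
    refine ⟨(unifK₁ L i j ^ m)⁻¹ * BAmice.coeff 0 Z, ?_⟩
    rw [map_mul, map_inv₀, map_pow, cK₁_unifK₁ I hdv hcp, ← h3, inv_mul_cancel_left₀ hu']

include hj in
/-- **the embedding of the completed constants is intrinsic** (side of `src e`): `z = cK₁ y` iff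
`z` is the limit of the constants of the level converging to `y`. -/
theorem eq_cK₁_iff (y : constK₁ L i j) (z : C.Lh (S₀.src e)) :
    z = cK₁ I hdv hcp y ↔
      IsConstLimOf C j (L.level i).K' (L.level i).ϖ (S₀.src e) (y : Ω) z := by
  have hϖ0 : unifK₁ L i j ≠ 0 := unifK₁_ne_zero' (hj := hj)
  have hpos := norm_unifK₁_pos (L := L) (i := i) (j := j) (hj := hj)
  have hlt1 := norm_unifK₁_lt_one (L := L) (i := i) (j := j) (hj := hj)
  have hu' : ∀ m : ℕ, ((C.unif (S₀.src e) : C.Oh (S₀.src e)) : C.Lh (S₀.src e)) ^ m ≠ 0 :=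
    fun m => pow_ne_zero m fun h0 => unif_src_ne_zero (hj := hj) I (Subtype.ext h0)
  constructor
  · rintro rfl
    obtain ⟨m, hm⟩ : ∃ m : ℕ, ‖unifK₁ L i j ^ m * y‖ ≤ 1 := by
      rcases eq_or_ne y 0 with rfl | hy
      · exact ⟨0, by rw [mul_zero, norm_zero]; exact zero_le_one⟩
      · have hy' : 0 < ‖y‖ := norm_pos_iff.2 hy
        obtain ⟨m, hm⟩ := exists_pow_lt_of_lt_one (inv_pos.2 hy') hlt1
        refine ⟨m, ?_⟩
        rw [norm_mul, norm_pow]
        have := mul_le_mul_of_nonneg_right hm.le hy'.le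
        rwa [inv_mul_cancel₀ hy'.ne'] at this
    refine ⟨m, fun n => ?_⟩
    obtain ⟨c, hc⟩ := exists_levelConst_approx (hj := hj) (unifK₁ L i j ^ m * y) hm n
    refine ⟨I.toF₀ (constHom L i c), (c : K), ((mem_levelConst L i).mp c.2).1,
      ((mem_levelConst L i).mp c.2).2, rfl, hc, ?_⟩
    apply exists_mul_of_norm_b1F_le (hj := hj) I hdv
    rw [map_sub, map_mul, map_pow, ← cK₁_unifK₁ I hdv hcp, b1F_cK₁, b1F_cK₁,
      b1F_emb_const I hdv ((mem_levelConst L i).mp c.2).1 ((mem_levelConst L i).mp c.2).2 rfl,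
      ← map_pow, ← map_mul, ← map_sub, norm_algebraMap']
    exact hc
  · rintro ⟨m, hm⟩
    set Z := b1F I hdv (((C.unif (S₀.src e) : C.Oh (S₀.src e)) : C.Lh (S₀.src e)) ^ m * z) with hZ
    have hZy : Z = algebraMap (constK₁ L i j) (BAmice (constK₁ L i j)) (unifK₁ L i j ^ m * y) := by
      rw [← sub_eq_zero]
      apply eq_zero_of_forall_norm_le_pow (norm_nonneg (unifK₁ L i j)) hlt1
      intro n
      obtain ⟨c, c', hA, hK, hcc', hclose, z', hz'⟩ := hm n
      have h1 : Z - algebraMap (constK₁ L i j) (BAmice (constK₁ L i j))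
          (constToK₁ L i j ⟨c', (mem_levelConst L i).mpr ⟨hA, hK⟩⟩) =
          unifK₁ L i j ^ n • I.b1 z' := by
        rw [hZ, ← b1F_emb_const I hdv hA hK hcc', ← map_sub, hz', map_mul, map_pow, b1F_coe,
          b1F_coe, I.b1_unif, ← map_pow, ← Algebra.smul_def]
      have h2 : Z - algebraMap (constK₁ L i j) (BAmice (constK₁ L i j)) (unifK₁ L i j ^ m * y) =
          (Z - algebraMap (constK₁ L i j) (BAmice (constK₁ L i j))
            (constToK₁ L i j ⟨c', (mem_levelConst L i).mpr ⟨hA, hK⟩⟩)) -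
          algebraMap (constK₁ L i j) (BAmice (constK₁ L i j))
            (unifK₁ L i j ^ m * y - constToK₁ L i j ⟨c', (mem_levelConst L i).mpr ⟨hA, hK⟩⟩) := by
        rw [map_sub]
        ring
      rw [h2, h1]
      refine (norm_sub_le_max_of_ultra _ _).trans (max_le ?_ ?_)
      · rw [norm_smul, norm_pow]
        calc ‖unifK₁ L i j‖ ^ n * ‖I.b1 z'‖ ≤ ‖unifK₁ L i j‖ ^ n * 1 :=
              mul_le_mul_of_nonneg_left (I.norm_b1_le z') (pow_nonneg (norm_nonneg _) n)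
          _ = ‖unifK₁ L i j‖ ^ n := mul_one _
      · rw [norm_algebraMap']
        exact hclose
    have h3 : ((C.unif (S₀.src e) : C.Oh (S₀.src e)) : C.Lh (S₀.src e)) ^ m * z =
        cK₁ I hdv hcp (unifK₁ L i j ^ m * y) := eq_cK₁_of_b1F_eq I hdv hcp hZy
    rw [map_mul, map_pow, cK₁_unifK₁ I hdv hcp] at h3
    exact mul_left_cancel₀ (hu' m) h3

end Src

/-! ### the side of `tgt e` -/

section Tgt

variable (hdv : IsDV C (S₀.tgt e))

include hj I in
theorem unif_tgt_ne_zero : C.unif (S₀.tgt e) ≠ 0 := by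
  intro h0
  have h := I.b2_unif
  rw [h0, map_zero] at h
  exact unifK₁_ne_zero' (hj := hj)
    ((algebraMap (constK₁ L i j) (BAmice (constK₁ L i j))).injective (by rw [← h, map_zero]))

/-- the expansion of an integral constant of the level, given as an element of `F₀` -/
theorem b2F_emb_const {c : F₀} {c' : K} (hA : c' ∈ A) (hK : c' ∈ (L.level i).K')
    (hc : algebraMap K F c' = (c : F)) :
    b2F I hdv (C.emb (S₀.tgt e) c) =
      algebraMap (constK₁ L i j) (BAmice (constK₁ L i j))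
        (constToK₁ L i j ⟨c', (mem_levelConst L i).mpr ⟨hA, hK⟩⟩) := by
  rw [← b2_cO₂ I, ← b2F_coe I hdv]
  congr 1
  show C.emb (S₀.tgt e) c = C.emb (S₀.tgt e) (I.toF₀ (constHom L i ⟨c', _⟩))
  congr 1
  exact Subtype.ext hc.symm

include hj in
/-- an element of `C.Lh (src e)` whose expansion has norm `≤ ‖ϖ₁‖ ^ n` is divisible by `unif ^ n` -/
theorem exists_mul_of_norm_b2F_le {n : ℕ} {x : C.Lh (S₀.tgt e)}
    (h : ‖b2F I hdv x‖ ≤ ‖unifK₁ L i j‖ ^ n) :
    ∃ z : C.Oh (S₀.tgt e), x = ((C.unif (S₀.tgt e) : C.Oh (S₀.tgt e)) : C.Lh (S₀.tgt e)) ^ n *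
      (z : C.Lh (S₀.tgt e)) := by
  rcases eq_or_ne x 0 with rfl | hx
  · exact ⟨0, by rw [ZeroMemClass.coe_zero, mul_zero]⟩
  have hu := unif_tgt_ne_zero (hj := hj) I
  have hu' : ((C.unif (S₀.tgt e) : C.Oh (S₀.tgt e)) : C.Lh (S₀.tgt e)) ≠ 0 :=
    fun h0 => hu (Subtype.ext h0)
  obtain ⟨m, w, rfl⟩ := (hdv).exists_zpow hu x hx
  rw [norm_b2F, ← zpow_natCast] at h
  have hnm : (n : ℤ) ≤ m := by
    by_contra hlt
    rw [not_le] at hlt
    exact absurd h (not_le.2 (zpow_lt_zpow_right_of_lt_one₀ (norm_unifK₁_pos (hj := hj))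
      (norm_unifK₁_lt_one (hj := hj)) hlt))
  obtain ⟨k, hk⟩ := Int.le.dest hnm
  refine ⟨C.unif (S₀.tgt e) ^ k * (w : C.Oh (S₀.tgt e)), ?_⟩
  rw [← hk, zpow_add₀ hu', zpow_natCast, zpow_natCast, MulMemClass.coe_mul, SubmonoidClass.coe_pow,
    mul_assoc]

variable (hcp : IsCompl C (S₀.tgt e))

theorem cK₂_unifK₁ :
    cK₂ I hdv hcp (unifK₁ L i j) = ((C.unif (S₀.tgt e) : C.Oh (S₀.tgt e)) : C.Lh (S₀.tgt e)) := by
  have h := cK₂_constToK₁ I hdv hcp (unifW L i)
  have h1 : cO₂ I (unifW L i) = C.unif (S₀.tgt e) := by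
    show I.ℓ₂ (constHom L i (unifW L i)) = _
    rw [constHom_unifW, I.ℓ₂_πR]
  rw [h1] at h
  exact h

include hj in
/-- **the subfield of completed constants is intrinsic** (side of `tgt e`) -/
theorem mem_fieldRange_cK₂_iff (x : C.Lh (S₀.tgt e)) :
    x ∈ (cK₂ I hdv hcp).fieldRange ↔ IsConstLim C (L.level i).K' (S₀.tgt e) x := by
  have hϖ0 : unifK₁ L i j ≠ 0 := unifK₁_ne_zero' (hj := hj)
  have hpos := norm_unifK₁_pos (L := L) (i := i) (j := j) (hj := hj)
  have hlt1 := norm_unifK₁_lt_one (L := L) (i := i) (j := j) (hj := hj)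
  constructor
  · rintro ⟨y, rfl⟩
    -- scale into the unit ball
    obtain ⟨m, hm⟩ : ∃ m : ℕ, ‖unifK₁ L i j ^ m * y‖ ≤ 1 := by
      rcases eq_or_ne y 0 with rfl | hy
      · exact ⟨0, by rw [mul_zero, norm_zero]; exact zero_le_one⟩
      · have hy' : 0 < ‖y‖ := norm_pos_iff.2 hy
        obtain ⟨m, hm⟩ := exists_pow_lt_of_lt_one (inv_pos.2 hy') hlt1
        refine ⟨m, ?_⟩
        rw [norm_mul, norm_pow]
        have := mul_le_mul_of_nonneg_right hm.le hy'.le
        rwa [inv_mul_cancel₀ hy'.ne'] at this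
    refine ⟨m, fun n => ?_⟩
    obtain ⟨c, hc⟩ := exists_levelConst_approx (hj := hj) (unifK₁ L i j ^ m * y) hm n
    refine ⟨I.toF₀ (constHom L i c), ⟨(c : K), ((mem_levelConst L i).mp c.2).1,
      ((mem_levelConst L i).mp c.2).2, rfl⟩, ?_⟩
    apply exists_mul_of_norm_b2F_le (hj := hj) I hdv
    rw [map_sub, map_mul, map_pow, ← cK₂_unifK₁ I hdv hcp, b2F_cK₂, b2F_cK₂,
      b2F_emb_const I hdv ((mem_levelConst L i).mp c.2).1 ((mem_levelConst L i).mp c.2).2 rfl,
      ← map_pow, ← map_mul, ← map_sub, norm_algebraMap']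
    exact hc
  · rintro ⟨m, hm⟩
    set Z := b2F I hdv (((C.unif (S₀.tgt e) : C.Oh (S₀.tgt e)) : C.Lh (S₀.tgt e)) ^ m * x) with hZ
    have hcoeff : ∀ k : ℤ, k ≠ 0 → BAmice.coeff k Z = 0 := by
      intro k hk
      apply eq_zero_of_forall_norm_le_pow (norm_nonneg (unifK₁ L i j)) hlt1
      intro n
      obtain ⟨c, ⟨c', hA, hK, hcc'⟩, z, hz⟩ := hm n
      have h1 : Z - algebraMap (constK₁ L i j) (BAmice (constK₁ L i j))
          (constToK₁ L i j ⟨c', (mem_levelConst L i).mpr ⟨hA, hK⟩⟩) =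
          unifK₁ L i j ^ n • I.b2 z := by
        rw [hZ, ← b2F_emb_const I hdv hA hK hcc', ← map_sub, hz, map_mul, map_pow, b2F_coe,
          b2F_coe, I.b2_unif, ← map_pow, ← Algebra.smul_def]
      have h2 : BAmice.coeff k Z = BAmice.coeff k (Z - algebraMap (constK₁ L i j)
          (BAmice (constK₁ L i j)) (constToK₁ L i j ⟨c', (mem_levelConst L i).mpr ⟨hA, hK⟩⟩)) := by
        rw [map_sub, BAmice.coeff_algebraMap, if_neg hk, sub_zero]
      rw [h2, h1]
      refine (BAmice.norm_coeff_le k _).trans ?_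
      rw [norm_smul, norm_pow]
      calc ‖unifK₁ L i j‖ ^ n * ‖I.b2 z‖ ≤ ‖unifK₁ L i j‖ ^ n * 1 :=
            mul_le_mul_of_nonneg_left (I.norm_b2_le z) (pow_nonneg (norm_nonneg _) n)
        _ = ‖unifK₁ L i j‖ ^ n := mul_one _
    have hZc := eq_algebraMap_coeff_zero hcoeff
    have h3 := eq_cK₂_of_b2F_eq I hdv hcp hZc
    have hu' : ((C.unif (S₀.tgt e) : C.Oh (S₀.tgt e)) : C.Lh (S₀.tgt e)) ^ m ≠ 0 :=
      pow_ne_zero m fun h0 => unif_tgt_ne_zero (hj := hj) I (Subtype.ext h0)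
    refine ⟨(unifK₁ L i j ^ m)⁻¹ * BAmice.coeff 0 Z, ?_⟩
    rw [map_mul, map_inv₀, map_pow, cK₂_unifK₁ I hdv hcp, ← h3, inv_mul_cancel_left₀ hu']

include hj in
/-- **the embedding of the completed constants is intrinsic** (side of `tgt e`): `z = cK₂ y` iff
`z` is the limit of the constants of the level converging to `y`. -/
theorem eq_cK₂_iff (y : constK₁ L i j) (z : C.Lh (S₀.tgt e)) :
    z = cK₂ I hdv hcp y ↔
      IsConstLimOf C j (L.level i).K' (L.level i).ϖ (S₀.tgt e) (y : Ω) z := by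
  have hϖ0 : unifK₁ L i j ≠ 0 := unifK₁_ne_zero' (hj := hj)
  have hpos := norm_unifK₁_pos (L := L) (i := i) (j := j) (hj := hj)
  have hlt1 := norm_unifK₁_lt_one (L := L) (i := i) (j := j) (hj := hj)
  have hu' : ∀ m : ℕ, ((C.unif (S₀.tgt e) : C.Oh (S₀.tgt e)) : C.Lh (S₀.tgt e)) ^ m ≠ 0 :=
    fun m => pow_ne_zero m fun h0 => unif_tgt_ne_zero (hj := hj) I (Subtype.ext h0)
  constructor
  · rintro rfl
    obtain ⟨m, hm⟩ : ∃ m : ℕ, ‖unifK₁ L i j ^ m * y‖ ≤ 1 := by
      rcases eq_or_ne y 0 with rfl | hy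
      · exact ⟨0, by rw [mul_zero, norm_zero]; exact zero_le_one⟩
      · have hy' : 0 < ‖y‖ := norm_pos_iff.2 hy
        obtain ⟨m, hm⟩ := exists_pow_lt_of_lt_one (inv_pos.2 hy') hlt1
        refine ⟨m, ?_⟩
        rw [norm_mul, norm_pow]
        have := mul_le_mul_of_nonneg_right hm.le hy'.le
        rwa [inv_mul_cancel₀ hy'.ne'] at this
    refine ⟨m, fun n => ?_⟩
    obtain ⟨c, hc⟩ := exists_levelConst_approx (hj := hj) (unifK₁ L i j ^ m * y) hm n
    refine ⟨I.toF₀ (constHom L i c), (c : K), ((mem_levelConst L i).mp c.2).1,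
      ((mem_levelConst L i).mp c.2).2, rfl, hc, ?_⟩
    apply exists_mul_of_norm_b2F_le (hj := hj) I hdv
    rw [map_sub, map_mul, map_pow, ← cK₂_unifK₁ I hdv hcp, b2F_cK₂, b2F_cK₂,
      b2F_emb_const I hdv ((mem_levelConst L i).mp c.2).1 ((mem_levelConst L i).mp c.2).2 rfl,
      ← map_pow, ← map_mul, ← map_sub, norm_algebraMap']
    exact hc
  · rintro ⟨m, hm⟩
    set Z := b2F I hdv (((C.unif (S₀.tgt e) : C.Oh (S₀.tgt e)) : C.Lh (S₀.tgt e)) ^ m * z) with hZ
    have hZy : Z = algebraMap (constK₁ L i j) (BAmice (constK₁ L i j)) (unifK₁ L i j ^ m * y) := by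
      rw [← sub_eq_zero]
      apply eq_zero_of_forall_norm_le_pow (norm_nonneg (unifK₁ L i j)) hlt1
      intro n
      obtain ⟨c, c', hA, hK, hcc', hclose, z', hz'⟩ := hm n
      have h1 : Z - algebraMap (constK₁ L i j) (BAmice (constK₁ L i j))
          (constToK₁ L i j ⟨c', (mem_levelConst L i).mpr ⟨hA, hK⟩⟩) =
          unifK₁ L i j ^ n • I.b2 z' := by
        rw [hZ, ← b2F_emb_const I hdv hA hK hcc', ← map_sub, hz', map_mul, map_pow, b2F_coe,
          b2F_coe, I.b2_unif, ← map_pow, ← Algebra.smul_def]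
      have h2 : Z - algebraMap (constK₁ L i j) (BAmice (constK₁ L i j)) (unifK₁ L i j ^ m * y) =
          (Z - algebraMap (constK₁ L i j) (BAmice (constK₁ L i j))
            (constToK₁ L i j ⟨c', (mem_levelConst L i).mpr ⟨hA, hK⟩⟩)) -
          algebraMap (constK₁ L i j) (BAmice (constK₁ L i j))
            (unifK₁ L i j ^ m * y - constToK₁ L i j ⟨c', (mem_levelConst L i).mpr ⟨hA, hK⟩⟩) := by
        rw [map_sub]
        ring
      rw [h2, h1]
      refine (norm_sub_le_max_of_ultra _ _).trans (max_le ?_ ?_)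
      · rw [norm_smul, norm_pow]
        calc ‖unifK₁ L i j‖ ^ n * ‖I.b2 z'‖ ≤ ‖unifK₁ L i j‖ ^ n * 1 :=
              mul_le_mul_of_nonneg_left (I.norm_b2_le z') (pow_nonneg (norm_nonneg _) n)
          _ = ‖unifK₁ L i j‖ ^ n := mul_one _
      · rw [norm_algebraMap']
        exact hclose
    have h3 : ((C.unif (S₀.tgt e) : C.Oh (S₀.tgt e)) : C.Lh (S₀.tgt e)) ^ m * z =
        cK₂ I hdv hcp (unifK₁ L i j ^ m * y) := eq_cK₂_of_b2F_eq I hdv hcp hZy
    rw [map_mul, map_pow, cK₂_unifK₁ I hdv hcp] at h3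
    exact mul_left_cancel₀ (hu' m) h3

end Tgt

end Fermat.Agent.FF4.BdryFrac
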