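/-
PROGRAMME II (row 38, target S44), kernel (K-GAL), part 1 (helper1): `det ρ̄_{W,p} = χ_p`.

`W : WeierstrassCurve ℤ`, `W.Δ ≠ 0`, `p` a prime, `Vp W p = W[p](ℚ̄)`, `rhoV W p : G_ℚ →* End_{𝔽_p} (Vp W p)`
(vocabulary of `LR/NonEisCore`).

* `det_trace_of_quadratic` : linear algebra in dimension two: `M² - a M + l = 0` and "every root of
  `X² - a X + l` is an eigenvalue of `M`" give `det M = l`, `tr M = a`;
* `card_Vp`            : `#W[p] = p²` (landed `EC/Tor/Main.card_torsion`);
* `frob_quadratic`     : Cayley–Hamilton `φ² + l = a_l φ` on `W[p]` for a Frobenius element `φ` at a good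
  prime `l ≠ p` (landed `SW/K4/CharEq.frob_charEq` + `SW/K4/Done.frobCharEq`);
* `frob_eigen`         : the eigenvalue criterion (landed `EC/Good/MainStar.good_eigen_all` at the
  Hasse–Weil export `EC/Coeff/Done.starExport`);
* **`frob_det_trace`** : `det ρ̄(φ) = l`, `tr ρ̄(φ) = a_l(W)` in `𝔽_p`;
* **`det_rhoV`**       : `det ρ̄(σ) = χ_p(σ)` for EVERY `σ ∈ G_ℚ` (exact Chebotarev `Cheb.chebExact`, as in
  `LR/NonEisCore`), and `det_rhoV_cycloLift` in the `cycloLift` dialect.
-/
import Fermat.Agent.LR.NonEisCore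
import Fermat.Agent.EC.Tor.Main
import Fermat.Agent.EC.Coeff.Done
import Fermat.Agent.SW.K4.Done

set_option autoImplicit false
set_option linter.style.haveILetI false
set_option linter.unusedSectionVars false

open WeierstrassCurve WeierstrassCurve.Affine
open scoped WeierstrassCurve.Affine
open Fermat.Agent.LR.NonEis Fermat.Agent.Pseudo.Cyclo

namespace Fermat.Agent.FF4.DetCyclo

local notation "Qb" => AlgebraicClosure ℚ
local notation "GQ" => (AlgebraicClosure ℚ ≃ₐ[ℚ] AlgebraicClosure ℚ)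

/-! ### linear algebra in dimension two -/

/-- Cayley–Hamilton for `2 × 2` matrices, by hand. -/
theorem matrix_two_cayley {k : Type*} [CommRing k] (A : Matrix (Fin 2) (Fin 2) k) :
    A * A - A.trace • A + A.det • (1 : Matrix (Fin 2) (Fin 2) k) = 0 := by
  ext i j
  fin_cases i <;> fin_cases j <;>
    simp [Matrix.mul_apply, Fin.sum_univ_two, Matrix.det_fin_two, Matrix.trace_fin_two] <;> ring

/-- **Determinant and trace from a quadratic relation and the eigenvalue criterion** (dimension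
two): if `M² - a M + l = 0` and every root `c` of `X² - a X + l` is an eigenvalue of `M`, then
`det M = l` and `tr M = a`. -/
theorem det_trace_of_quadratic {k V : Type*} [Field k] [AddCommGroup V] [Module k V]
    (hV : Module.finrank k V = 2) (M : Module.End k V) (a l : k)
    (hCH : ∀ v : V, M (M v) + l • v = a • M v)
    (heig : ∀ c : k, c ^ 2 - a * c + l = 0 → ∃ v : V, v ≠ 0 ∧ M v = c • v) :
    LinearMap.det M = l ∧ LinearMap.trace k V M = a := by
  classical
  haveI : Module.Finite k V := Module.finite_of_finrank_pos (by rw [hV]; norm_num)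
  let b : Module.Basis (Fin 2) k V := Module.finBasisOfFinrankEq k V hV
  set A : Matrix (Fin 2) (Fin 2) k := LinearMap.toMatrix b b M with hA
  have hdet : LinearMap.det M = A.det := (LinearMap.det_toMatrix b M).symm
  have htr : LinearMap.trace k V M = A.trace := LinearMap.trace_eq_matrix_trace k b M
  -- the quadratic relation for `A`
  have hM2 : M * M + l • (1 : Module.End k V) = a • M := by
    ext v
    simpa using hCH v
  have hA2 : A * A + l • (1 : Matrix (Fin 2) (Fin 2) k) = a • A := by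
    have := congrArg (LinearMap.toMatrix b b) hM2
    rwa [map_add, LinearMap.toMatrix_mul, map_smul, map_smul, LinearMap.toMatrix_one] at this
  have hC := matrix_two_cayley A
  -- subtract
  have hsub : (A.trace - a) • A = (A.det - l) • (1 : Matrix (Fin 2) (Fin 2) k) := by
    have h1 : A * A = a • A - l • (1 : Matrix (Fin 2) (Fin 2) k) := eq_sub_of_add_eq hA2
    rw [h1] at hC
    rw [sub_smul, sub_smul]
    have h2 : a • A - l • (1 : Matrix (Fin 2) (Fin 2) k) - A.trace • A
        + A.det • (1 : Matrix (Fin 2) (Fin 2) k) = 0 := hC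
    have h3 : A.trace • A - a • A = A.det • (1 : Matrix (Fin 2) (Fin 2) k) - l • 1 := by
      have := h2
      calc A.trace • A - a • A
          = -(a • A - l • (1 : Matrix (Fin 2) (Fin 2) k) - A.trace • A
              + A.det • (1 : Matrix (Fin 2) (Fin 2) k))
            + (A.det • (1 : Matrix (Fin 2) (Fin 2) k) - l • 1) := by abel
        _ = A.det • (1 : Matrix (Fin 2) (Fin 2) k) - l • 1 := by rw [this, neg_zero, zero_add]
    exact h3
  by_cases hta : A.trace = a
  · refine ⟨?_, by rw [htr, hta]⟩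
    rw [hta, sub_self, zero_smul] at hsub
    have h00 := congrFun (congrFun hsub 0) 0
    simp at h00
    rw [hdet]
    exact (sub_eq_zero.mp h00.symm)
  · exfalso
    -- `A` is the scalar `c`
    have hne : A.trace - a ≠ 0 := sub_ne_zero.mpr hta
    set c : k := (A.det - l) / (A.trace - a) with hc
    have hAc : A = c • (1 : Matrix (Fin 2) (Fin 2) k) := by
      have := congrArg (fun Z => (A.trace - a)⁻¹ • Z) hsub
      simp only [smul_smul, inv_mul_cancel₀ hne, one_smul] at this
      rw [this, hc, div_eq_inv_mul]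
    have hMc : M = c • (1 : Module.End k V) := by
      apply (LinearMap.toMatrix b b).injective
      rw [map_smul, LinearMap.toMatrix_one]
      exact hAc
    have hMv : ∀ v : V, M v = c • v := fun v => by rw [hMc]; simp
    -- `c` is a root
    haveI : Nontrivial V := Module.nontrivial_of_finrank_pos (R := k) (by rw [hV]; norm_num)
    obtain ⟨v₀, hv₀⟩ := exists_ne (0 : V)
    have hroot : c ^ 2 - a * c + l = 0 := by
      have h := hCH v₀
      rw [hMv, hMv, smul_smul, smul_smul] at h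
      have h' : (c * c + l - a * c) • v₀ = 0 := by
        rw [sub_smul, add_smul, h, sub_self]
      rcases smul_eq_zero.mp h' with h0 | h0
      · linear_combination h0
      · exact absurd h0 hv₀
    -- the other root `a - c` is an eigenvalue, hence equal to `c`
    have hroot' : (a - c) ^ 2 - a * (a - c) + l = 0 := by linear_combination hroot
    obtain ⟨v, hv, hMv'⟩ := heig (a - c) hroot'
    rw [hMv] at hMv'
    have h' : (c - (a - c)) • v = 0 := by rw [sub_smul, hMv', sub_self]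
    have hcc : c - (a - c) = 0 := (smul_eq_zero.mp h').resolve_right hv
    -- trace of the scalar
    apply hta
    rw [hAc]
    simp
    linear_combination hcc
  
/-! ### the torsion of `W` -/

theorem card_Vp (W : WeierstrassCurve ℤ) (hΔ : W.Δ ≠ 0) {p : ℕ} (hp : p.Prime) :
    Nat.card (Vp W p) = p ^ 2 := by
  have hΔ' : ((WQ W)⁄Qb).Δ ≠ 0 := by
    show (((W.map (Int.castRingHom ℚ)).map (algebraMap ℚ Qb))).Δ ≠ 0
    rw [WeierstrassCurve.map_Δ, WeierstrassCurve.map_Δ]
    intro h
    apply hΔ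
    have h1 : (algebraMap ℚ Qb) ((Int.castRingHom ℚ) W.Δ) = (algebraMap ℚ Qb) 0 := by rw [h, map_zero]
    have h2 := (algebraMap ℚ Qb).injective h1
    have h3 : ((W.Δ : ℤ) : ℚ) = 0 := h2
    exact_mod_cast h3
  have hpK : ((p : ℕ) : Qb) ≠ 0 := Nat.cast_ne_zero.mpr hp.ne_zero
  exact Fermat.Agent.EC.Tor.Main.card_torsion ((WQ W)⁄Qb) hΔ' hpK

variable (W : WeierstrassCurve ℤ) (hΔ : W.Δ ≠ 0) {p l : ℕ} [hpF : Fact p.Prime]

/-- the Cayley–Hamilton relation of a Frobenius element on `W[p]` -/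
theorem frob_quadratic (hl : l.Prime) (hlp : l ≠ p)
    (hgood : W.IsGoodPrimeFor l) (A : ValuationSubring Qb) (hA : A.LiesOverPrime l) (φ : GQ)
    (hφ : A.IsFrobeniusAt φ l) (v : Vp W p) :
    rhoV W p φ (rhoV W p φ v) + (l : ZMod p) • v =
      ((W.apOfModel l : ℤ) : ZMod p) • rhoV W p φ v := by
  have hp : p.Prime := hpF.out
  have hCE : Fermat.Agent.SW.K4.CharEq.CharEqAt W l A :=
    Fermat.Agent.SW.K4.CharEq.charEqAt_of_export W hl hgood A hA
      Fermat.Agent.SW.K4.Done.frobCharEq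
  have hcop : p.Coprime l := (Nat.coprime_primes hp hl).mpr (Ne.symm hlp)
  have hv : p • (v : ((WQ W)⁄Qb).Point) = 0 := by
    have := v.2
    rw [Submodule.mem_torsionBy_iff] at this
    rwa [natCast_zsmul] at this
  have h := Fermat.Agent.SW.K4.CharEq.frob_charEq W hl hgood A hA φ hφ hCE hcop hv
  apply Subtype.ext
  rw [Nat.cast_smul_eq_nsmul, Int.cast_smul_eq_zsmul]
  simp only [rhoV_apply]
  push_cast
  rw [natCast_zsmul] at h
  exact h

include hΔ in
/-- the eigenvalue criterion of a Frobenius element on `W[p]` (one direction) -/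
theorem frob_eigen (hl : l.Prime) (hlp : l ≠ p)
    (hgood : W.IsGoodPrimeFor l) (A : ValuationSubring Qb) (hA : A.LiesOverPrime l) (φ : GQ)
    (hφ : A.IsFrobeniusAt φ l) (c : ZMod p)
    (hc : c ^ 2 - ((W.apOfModel l : ℤ) : ZMod p) * c + (l : ZMod p) = 0) :
    ∃ v : Vp W p, v ≠ 0 ∧ rhoV W p φ v = c • v := by
  have hp : p.Prime := hpF.out
  obtain ⟨n, rfl⟩ := ZMod.intCast_surjective c
  have hdvd : (p : ℤ) ∣ n ^ 2 - W.apOfModel l * n + (l : ℤ) := by
    rw [← ZMod.intCast_zmod_eq_zero_iff_dvd]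
    push_cast
    exact hc
  obtain ⟨P, hP0, hpP, hφP⟩ :=
    (Fermat.Agent.EC.Good.MainStar.good_eigen_all Fermat.Agent.EC.Coeff.Done.starExport W hΔ hl hp
      hlp hgood A hA φ hφ n).mpr hdvd
  have hmem : P ∈ Submodule.torsionBy ℤ ((WQ W)⁄Qb).Point p := by
    rw [Submodule.mem_torsionBy_iff, natCast_zsmul]
    exact hpP
  refine ⟨⟨P, hmem⟩, fun h => hP0 (congrArg Subtype.val h), ?_⟩
  apply Subtype.ext
  rw [Int.cast_smul_eq_zsmul]
  exact hφP

include hΔ in
/-- **`det ρ̄_{W,p}(Frob_l) = l` and `tr ρ̄_{W,p}(Frob_l) = a_l(W)`** at a good prime `l ≠ p`. -/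
theorem frob_det_trace (hl : l.Prime) (hlp : l ≠ p)
    (hgood : W.IsGoodPrimeFor l) (A : ValuationSubring Qb) (hA : A.LiesOverPrime l) (φ : GQ)
    (hφ : A.IsFrobeniusAt φ l) :
    LinearMap.det (rhoV W p φ) = (l : ZMod p) ∧
      LinearMap.trace (ZMod p) (Vp W p) (rhoV W p φ) = ((W.apOfModel l : ℤ) : ZMod p) :=
  det_trace_of_quadratic (finrank_Vp_eq_two W (card_Vp W hΔ hpF.out)) (rhoV W p φ) _ _
    (frob_quadratic W hl hlp hgood A hA φ hφ) (frob_eigen W hΔ hl hlp hgood A hA φ hφ)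

include hΔ in
/-- **`det ρ̄_{W,p} = χ_p`** (the mod `p` cyclotomic character), by Chebotarev. -/
theorem det_rhoV (σ : GQ) :
    haveI : NeZero p := ⟨hpF.out.ne_zero⟩
    LinearMap.det (rhoV W p σ) = ((cycloN p σ : (ZMod p)ˣ) : ZMod p) := by
  haveI : NeZero p := ⟨hpF.out.ne_zero⟩
  have hp : p.Prime := hpF.out
  haveI : Finite (Vp W p) :=
    Nat.finite_of_card_ne_zero (card_Vp W hΔ hp ▸ pow_ne_zero 2 hp.pos.ne')
  obtain ⟨LV, hLVfd, hLV⟩ :=
    Fermat.Agent.Res.FreyLevel.galoisFactorsThroughFiniteLevel_of_finite (WQ W) p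
  obtain ⟨Lm, hLmfd, hLm⟩ := exists_finite_level_cycloN p
  have hfd : FiniteDimensional ℚ ↥(LV ⊔ Lm) := IntermediateField.finiteDimensional_sup LV Lm
  obtain ⟨l, hl, hlT, A, φ, hA, hφ, hσφ⟩ :=
    Fermat.Agent.Cheb.chebExact (LV ⊔ Lm) hfd σ (badSet W 1 p 1 ∅)
  obtain ⟨-, -, hlp, -, hgood⟩ :=
    not_mem_badSet W Nat.one_pos hp Nat.one_pos hΔ hl hlT
  have hlp' : ¬ l ∣ p := fun h => hlp ((Nat.prime_dvd_prime_iff_eq hl hp).mp h)
  have hcyc : cycloN p σ = cycloN p φ :=
    hLm σ φ fun x hx => hσφ x ((le_sup_right : Lm ≤ LV ⊔ Lm) hx)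
  have hρ : rhoV W p σ = rhoV W p φ :=
    map_eq_of_agree (rhoV W p) hLV fun x hx => hσφ x ((le_sup_left : LV ≤ LV ⊔ Lm) hx)
  rw [hρ, hcyc, cycloN_frobenius p hl hlp' A hA hφ]
  exact (frob_det_trace W hΔ hl hlp hgood A hA φ hφ).1


include hΔ in
/-- `det ρ̄_{W,p} = χ_p` in the `cycloLift` dialect. -/
theorem det_rhoV_cycloLift (σ : GQ) :
    haveI : NeZero p := ⟨hpF.out.ne_zero⟩
    LinearMap.det (rhoV W p σ) = ((cycloLift p σ : ℤ) : ZMod p) := by
  haveI : NeZero p := ⟨hpF.out.ne_zero⟩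
  rw [cycloLift_cast]
  exact det_rhoV W hΔ σ

end Fermat.Agent.FF4.DetCyclo
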