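import Mathlib
import Fermat.Agent.FF3.ExpPackComp.GalAbs
import Fermat.Agent.FF3.ExpPackComp.TwistFinal
import Fermat.Agent.BR.Inst.InertiaFK

/-!
# K1-(b) spike, API claim §2(iii) of finding #1835 (helper21): the action of the inertia group on
the completed component rings is a GROUP action with FINITE image

Abstract part (`D : DVCompl.Datum F₀`, `F₀ ≤ F`, `O` a valuation ring of `F` with trace `D.O₀`,
`g : F ≃+* F` stabilising `F₀` and `O`; notation of `FF3/ExpPackComp/GalAbs.lean`):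

* `eq_autL` : uniqueness of `autL` (a ring endomorphism of `L̂` inducing `g` on `F₀` and mapping `Ô`
  into itself IS `autL g`);
* `autL_congr`, `autO_congr` : `autL g`, `autO g` only depend on `g` restricted to `F₀`;
* `autL_refl`, `autO_refl`, `autL_eq_refl_of_fixes`, `autO_eq_refl_of_fixes`;
* `autL_trans`, `autO_trans` (+ `_apply`) : `autO (g₂.trans g₁) = (autO g₂).trans (autO g₁)`.

Modular part (`σ, τ ∈ B.inertiaSubgroupIn ℚ`, `S` a level stable under them, ANY component data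
`Dd` over `Final.setupFinal`; notation of `FF3/ExpPackComp/TwistFinal.lean`):

* `galRing_mul`, `galRing_one`;
* `sigmaF_mul` : `sigmaF (σ * τ) v y = sigmaF σ v (sigmaF τ v y)`; `sigmaF_one`;
* `sigmaF_congr` : `sigmaF σ v = sigmaF σ' v` as soon as `σ`, `σ'` agree on the constants `K₀(S)` of
  the level; `sigmaF_eq_id_of_fixes`;
* `eqOn_KS_of_eqOn` : two inertia elements which agree on `S` agree on `K₀(S)`;
* `finite_range_sigmaF` : the set `{sigmaF σ v | σ ∈ I}` of ring endomorphisms of `Ô_v` is FINITE;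
* `sigmaF_emb_const` : faithfulness on constants, `σh v (emb c) = emb (σ c)`.
-/

set_option autoImplicit false
set_option linter.unusedSectionVars false
set_option synthInstance.maxHeartbeats 400000

noncomputable section

namespace Fermat.Agent.FF4.CompGroup

open Fermat.Agent.FF3.DVCompl Fermat.Agent.FF3.ExpPackComp

/-! ### abstract part -/

section Abstract

variable {F : Type*} [Field F] {F₀ : Subfield F} (D : Datum F₀) (O : ValuationSubring F)
  (hO : ∀ x : F₀, x ∈ D.O₀ ↔ (x : F) ∈ O)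

/-- **Uniqueness of `autL`.** -/
theorem eq_autL (g : F ≃+* F) (hgF : ∀ y, g y ∈ F₀ ↔ y ∈ F₀) (hgO : ∀ y, g y ∈ O ↔ y ∈ O)
    (Ψ : D.Lh →+* D.Lh) (h1 : ∀ x : F₀, Ψ (D.emb x) = D.emb (restrictEquiv F₀ g hgF x))
    (h2 : ∀ y ∈ D.Oh, Ψ y ∈ D.Oh) :
    Ψ = (autL D O hO g hgF hgO : D.Lh →+* D.Lh) :=
  (Datum.Hom.ofEquiv (restrictEquiv F₀ g hgF)
    (mem_O₀_restrictEquiv_iff D O hO g hgF hgO)).eq_map Ψ h1 h2

/-- `autL g` only depends on the restriction of `g` to `F₀`. -/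
theorem autL_congr (g g' : F ≃+* F) (hgF : ∀ y, g y ∈ F₀ ↔ y ∈ F₀) (hgO : ∀ y, g y ∈ O ↔ y ∈ O)
    (hgF' : ∀ y, g' y ∈ F₀ ↔ y ∈ F₀) (hgO' : ∀ y, g' y ∈ O ↔ y ∈ O)
    (h : ∀ x : F₀, g (x : F) = g' (x : F)) (y : D.Lh) :
    autL D O hO g hgF hgO y = autL D O hO g' hgF' hgO' y := by
  have key := eq_autL D O hO g' hgF' hgO' (autL D O hO g hgF hgO : D.Lh →+* D.Lh)
    (fun x => by
      show autL D O hO g hgF hgO (D.emb x) = _
      rw [autL_emb]
      congr 1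
      exact Subtype.ext (h x))
    (fun y hy => (autL_mem_Oh_iff D O hO g hgF hgO y).2 hy)
  exact RingHom.congr_fun key y

theorem autO_congr (g g' : F ≃+* F) (hgF : ∀ y, g y ∈ F₀ ↔ y ∈ F₀) (hgO : ∀ y, g y ∈ O ↔ y ∈ O)
    (hgF' : ∀ y, g' y ∈ F₀ ↔ y ∈ F₀) (hgO' : ∀ y, g' y ∈ O ↔ y ∈ O)
    (h : ∀ x : F₀, g (x : F) = g' (x : F)) (y : D.Oh) :
    autO D O hO g hgF hgO y = autO D O hO g' hgF' hgO' y :=
  Subtype.ext (autL_congr D O hO g g' hgF hgO hgF' hgO' h y)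

/-- an automorphism fixing `F₀` pointwise acts trivially on the completion -/
theorem autL_eq_refl_of_fixes (g : F ≃+* F) (hgF : ∀ y, g y ∈ F₀ ↔ y ∈ F₀)
    (hgO : ∀ y, g y ∈ O ↔ y ∈ O) (h : ∀ x : F₀, g (x : F) = x) (y : D.Lh) :
    autL D O hO g hgF hgO y = y := by
  have key := eq_autL D O hO g hgF hgO (RingHom.id D.Lh)
    (fun x => by
      show D.emb x = _
      congr 1
      exact Subtype.ext (h x).symm)
    (fun y hy => hy)
  exact (RingHom.congr_fun key y).symm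

theorem autO_eq_refl_of_fixes (g : F ≃+* F) (hgF : ∀ y, g y ∈ F₀ ↔ y ∈ F₀)
    (hgO : ∀ y, g y ∈ O ↔ y ∈ O) (h : ∀ x : F₀, g (x : F) = x) (y : D.Oh) :
    autO D O hO g hgF hgO y = y :=
  Subtype.ext (autL_eq_refl_of_fixes D O hO g hgF hgO h y)

theorem autL_refl (y : D.Lh) :
    autL D O hO (RingEquiv.refl F) (fun _ => Iff.rfl) (fun _ => Iff.rfl) y = y :=
  autL_eq_refl_of_fixes D O hO _ _ _ (fun _ => rfl) y

theorem autO_refl (y : D.Oh) :
    autO D O hO (RingEquiv.refl F) (fun _ => Iff.rfl) (fun _ => Iff.rfl) y = y :=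
  Subtype.ext (autL_refl D O hO y)

variable (g₁ g₂ : F ≃+* F) (hgF₁ : ∀ y, g₁ y ∈ F₀ ↔ y ∈ F₀) (hgO₁ : ∀ y, g₁ y ∈ O ↔ y ∈ O)
  (hgF₂ : ∀ y, g₂ y ∈ F₀ ↔ y ∈ F₀) (hgO₂ : ∀ y, g₂ y ∈ O ↔ y ∈ O)

/-- **The group law**: `autL (g₁ ∘ g₂) = autL g₁ ∘ autL g₂`, for any proofs of stability of the
composite. -/
theorem autL_trans_apply (hgF : ∀ y, (g₂.trans g₁) y ∈ F₀ ↔ y ∈ F₀)
    (hgO : ∀ y, (g₂.trans g₁) y ∈ O ↔ y ∈ O) (y : D.Lh) :
    autL D O hO (g₂.trans g₁) hgF hgO y =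
      autL D O hO g₁ hgF₁ hgO₁ (autL D O hO g₂ hgF₂ hgO₂ y) := by
  have key := eq_autL D O hO (g₂.trans g₁) hgF hgO
    ((autL D O hO g₁ hgF₁ hgO₁ : D.Lh →+* D.Lh).comp
      (autL D O hO g₂ hgF₂ hgO₂ : D.Lh →+* D.Lh))
    (fun x => by
      show autL D O hO g₁ hgF₁ hgO₁ (autL D O hO g₂ hgF₂ hgO₂ (D.emb x)) = _
      rw [autL_emb, autL_emb]
      rfl)
    (fun y hy => (autL_mem_Oh_iff D O hO g₁ hgF₁ hgO₁ _).2
      ((autL_mem_Oh_iff D O hO g₂ hgF₂ hgO₂ y).2 hy))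
  exact (RingHom.congr_fun key y).symm

theorem autO_trans_apply (hgF : ∀ y, (g₂.trans g₁) y ∈ F₀ ↔ y ∈ F₀)
    (hgO : ∀ y, (g₂.trans g₁) y ∈ O ↔ y ∈ O) (y : D.Oh) :
    autO D O hO (g₂.trans g₁) hgF hgO y =
      autO D O hO g₁ hgF₁ hgO₁ (autO D O hO g₂ hgF₂ hgO₂ y) :=
  Subtype.ext (autL_trans_apply D O hO g₁ g₂ hgF₁ hgO₁ hgF₂ hgO₂ hgF hgO y)

theorem autO_trans (hgF : ∀ y, (g₂.trans g₁) y ∈ F₀ ↔ y ∈ F₀)
    (hgO : ∀ y, (g₂.trans g₁) y ∈ O ↔ y ∈ O) :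
    autO D O hO (g₂.trans g₁) hgF hgO =
      (autO D O hO g₂ hgF₂ hgO₂).trans (autO D O hO g₁ hgF₁ hgO₁) :=
  RingEquiv.ext (autO_trans_apply D O hO g₁ g₂ hgF₁ hgO₁ hgF₂ hgO₂ hgF hgO)

end Abstract

/-! ### the modular tower -/

section Modular

open ModularCurve AlgebraicCurve IsLocalRing Fermat.Agent.X0 Fermat.Agent.Val Fermat.Agent.BR
  Fermat.Agent.Red Fermat.Agent.BR.SS Fermat.Agent.BR.Inst.Levels Fermat.Agent.BR.Inst.FKCover
  Fermat.Agent.BR.S0 Fermat.Agent.BR.S0.RedModular Fermat.Agent.BR.S0.PointDict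
  Fermat.Agent.BR.ValTwo Fermat.Agent.FF3.B4 Fermat.Agent.FF3 Fermat.Agent.FF3.InertiaLevels
  Fermat.Agent.BR.UnramCyclo Fermat.Agent.BR.UnramCycloTower

variable {M q : ℕ} [NeZero M] [hq : Fact q.Prime]
variable (B : ValuationSubring Kb) (hB : B.LiesOverPrime q) (hqM : ¬ q ∣ M) (S : Finset Kb)
variable {σ τ σ' : Kb ≃ₐ[ℚ] Kb}

theorem galRing_mul_apply (N : ℕ) [NeZero N] (σ τ : Kb ≃ₐ[ℚ] Kb) (y : Fb N) :
    galRing N (σ * τ) y = galRing N σ (galRing N τ y) := by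
  rw [galRing_apply, galRing_apply, galRing_apply]
  show arithmeticGalois (modularFunctionFieldFull N) (σ * τ) • y = _
  rw [map_mul, mul_smul]

theorem galRing_mul (N : ℕ) [NeZero N] (σ τ : Kb ≃ₐ[ℚ] Kb) :
    galRing N (σ * τ) = (galRing N τ).trans (galRing N σ) :=
  RingEquiv.ext (galRing_mul_apply N σ τ)

theorem galRing_one_apply (N : ℕ) [NeZero N] (y : Fb N) : galRing N (1 : Kb ≃ₐ[ℚ] Kb) y = y := by
  rw [galRing_apply]
  show arithmeticGalois (modularFunctionFieldFull N) (1 : Kb ≃ₐ[ℚ] Kb) • y = y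
  rw [map_one, one_smul]

/-- two elements of the Galois group which agree on the constants of the level act in the same
way on the level field -/
theorem galRing_eq_of_eqOn (N : ℕ) [NeZero N] {E : Subfield Kb} (h : ∀ c ∈ E, σ c = σ' c)
    {y : Fb N} (hy : y ∈ FKs N E) : galRing N σ y = galRing N σ' y := by
  have h1 : ∀ c ∈ E, (σ'⁻¹ * σ) c = c := fun c hc => by
    show σ'⁻¹ (σ c) = c
    rw [h c hc]
    exact σ'.symm_apply_apply c
  have h2 : galRing N (σ'⁻¹ * σ) y = y := by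
    rw [galRing_apply]
    exact gal_smul_eq_of_mem_FKs E h1 hy
  have h3 : galRing N σ' (galRing N (σ'⁻¹ * σ) y) = galRing N σ y := by
    rw [← galRing_mul_apply, mul_inv_cancel_left]
  rw [← h3, h2]

variable (hne : Nonempty (Crossing (chartDataModular B hB hqM)))
  {ϖ : FKs (M * q) (KS q S)} (Dd : Fin 2 → Datum (FKs (M * q) (KS q S)))
  (hO : ∀ v (x : FKs (M * q) (KS q S)),
    x ∈ (Dd v).O₀ ↔ (x : Fb (M * q)) ∈ (Final.setupFinal B hB hqM hne).O v)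
  (hw : ∀ v, (Dd v).w = ϖ)

/-- **the group law** of the action of inertia on the completed component rings -/
theorem sigmaF_mul (hσ : σ ∈ B.inertiaSubgroupIn ℚ) (hτ : τ ∈ B.inertiaSubgroupIn ℚ)
    (hSσ : GalStable q σ S) (hSτ : GalStable q τ S) (hSστ : GalStable q (σ * τ) S)
    (v : Fin 2) (y : (Dd v).Oh) :
    sigmaF B hB hqM S hne Dd hO hw (Subgroup.mul_mem _ hσ hτ) hSστ v y =
      sigmaF B hB hqM S hne Dd hO hw hσ hSσ v (sigmaF B hB hqM S hne Dd hO hw hτ hSτ v y) := by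
  rw [sigmaF_apply, sigmaF_apply, sigmaF_apply]
  rw [← autO_trans_apply (Dd v) ((Final.setupFinal B hB hqM hne).O v) (hO v)
    (galRing (M * q) σ) (galRing (M * q) τ) (galRing_mem_FKs_iff (M * q) hSσ)
    (setupFinal_gal_mem_O_iff B hB hqM hne hσ v) (galRing_mem_FKs_iff (M * q) hSτ)
    (setupFinal_gal_mem_O_iff B hB hqM hne hτ v)
    (fun y => by
      show galRing (M * q) σ (galRing (M * q) τ y) ∈ _ ↔ _
      rw [galRing_mem_FKs_iff (M * q) hSσ, galRing_mem_FKs_iff (M * q) hSτ])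
    (fun y => by
      show galRing (M * q) σ (galRing (M * q) τ y) ∈ _ ↔ _
      rw [setupFinal_gal_mem_O_iff B hB hqM hne hσ v, setupFinal_gal_mem_O_iff B hB hqM hne hτ v])]
  exact autO_congr (Dd v) ((Final.setupFinal B hB hqM hne).O v) (hO v) _ _ _ _ _ _
    (fun x => galRing_mul_apply (M * q) σ τ x) y

/-- `sigmaF σ v` only depends on the restriction of `σ` to the constants `K₀(S)` of the level -/
theorem sigmaF_congr (hσ : σ ∈ B.inertiaSubgroupIn ℚ) (hσ' : σ' ∈ B.inertiaSubgroupIn ℚ)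
    (hS : GalStable q σ S) (hS' : GalStable q σ' S) (h : ∀ c ∈ KS q S, σ c = σ' c)
    (v : Fin 2) (y : (Dd v).Oh) :
    sigmaF B hB hqM S hne Dd hO hw hσ hS v y = sigmaF B hB hqM S hne Dd hO hw hσ' hS' v y := by
  rw [sigmaF_apply, sigmaF_apply]
  exact autO_congr (Dd v) ((Final.setupFinal B hB hqM hne).O v) (hO v) _ _ _ _ _ _
    (fun x => galRing_eq_of_eqOn (M * q) h x.2) y

/-- an inertia element fixing the constants of the level acts trivially -/
theorem sigmaF_eq_id_of_fixes (hσ : σ ∈ B.inertiaSubgroupIn ℚ) (hS : GalStable q σ S)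
    (h : ∀ c ∈ KS q S, σ c = c) (v : Fin 2) (y : (Dd v).Oh) :
    sigmaF B hB hqM S hne Dd hO hw hσ hS v y = y := by
  rw [sigmaF_apply]
  exact autO_eq_refl_of_fixes (Dd v) ((Final.setupFinal B hB hqM hne).O v) (hO v) _ _ _
    (fun x => gal_smul_eq_of_mem_FKs (KS q S) h x.2) y

theorem sigmaF_one (hS : GalStable q (1 : Kb ≃ₐ[ℚ] Kb) S) (v : Fin 2) (y : (Dd v).Oh) :
    sigmaF B hB hqM S hne Dd hO hw (Subgroup.one_mem _) hS v y = y :=
  sigmaF_eq_id_of_fixes B hB hqM S hne Dd hO hw (Subgroup.one_mem _) hS (fun _ _ => rfl) v y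

/-- **faithfulness on the constants**: `σh v (emb c) = emb (σ c)` -/
theorem sigmaF_emb_const (hσ : σ ∈ B.inertiaSubgroupIn ℚ) (hS : GalStable q σ S) (v : Fin 2)
    (c : Kb) (hc : algebraMap Kb (Fb (M * q)) c ∈ FKs (M * q) (KS q S))
    (hc' : algebraMap Kb (Fb (M * q)) (σ c) ∈ FKs (M * q) (KS q S))
    (hm : (Dd v).emb ⟨algebraMap Kb (Fb (M * q)) c, hc⟩ ∈ (Dd v).Oh)
    (hm' : (Dd v).emb ⟨algebraMap Kb (Fb (M * q)) (σ c), hc'⟩ ∈ (Dd v).Oh) :
    sigmaF B hB hqM S hne Dd hO hw hσ hS v ⟨_, hm⟩ = ⟨_, hm'⟩ := by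
  rw [sigmaF_apply]
  apply Subtype.ext
  rw [coe_autO, autL_emb]
  congr 1
  apply Subtype.ext
  show galRing (M * q) σ (algebraMap Kb (Fb (M * q)) c) = algebraMap Kb (Fb (M * q)) (σ c)
  rw [galRing_apply]
  exact gal_smul_algebraMap (M * q) σ c

include hB in
/-- two inertia elements which agree on the finite set `S` agree on `K₀(S)` -/
theorem eqOn_KS_of_eqOn (hσ : σ ∈ B.inertiaSubgroupIn ℚ) (hσ' : σ' ∈ B.inertiaSubgroupIn ℚ)
    (h : ∀ x ∈ S, σ x = σ' x) : ∀ c ∈ KS q S, σ c = σ' c := by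
  intro c hc
  let E : IntermediateField ℚ Kb :=
    { AlgHom.equalizer (σ : Kb →ₐ[ℚ] Kb) (σ' : Kb →ₐ[ℚ] Kb) with
      inv_mem' := fun x hx => by
        show σ x⁻¹ = σ' x⁻¹
        have hx' : σ x = σ' x := hx
        rw [map_inv₀, map_inv₀, hx'] }
  have hle : coeffField q S ≤ E := by
    unfold coeffField
    refine sup_le ?_ ?_
    · intro x hx
      show σ x = σ' x
      rw [apply_eq_of_mem_inertia B hq.out hB hσ hx, apply_eq_of_mem_inertia B hq.out hB hσ' hx]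
    · rw [IntermediateField.adjoin_le_iff]
      intro x hx
      exact h x (Finset.mem_coe.1 hx)
  exact hle (mem_KS_iff.1 hc)

/-- **FINITE IMAGE**: the inertia group acts on the completed component ring `Ô_v` of a
Galois-stable level through a finite set of ring endomorphisms. -/
theorem finite_range_sigmaF (hS : ∀ σ : Kb ≃ₐ[ℚ] Kb, GalStable q σ S) (v : Fin 2) :
    (Set.range fun σ : ↥(B.inertiaSubgroupIn ℚ) =>
      sigmaF B hB hqM S hne Dd hO hw σ.2 (hS σ.1) v).Finite := by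
  classical
  -- the restriction to `S`
  let f : ↥(B.inertiaSubgroupIn ℚ) → (↥S → Kb) := fun σ x => (σ : Kb ≃ₐ[ℚ] Kb) (x : Kb)
  let Φ : ↥(B.inertiaSubgroupIn ℚ) → ((Dd v).Oh →+* (Dd v).Oh) := fun σ =>
    sigmaF B hB hqM S hne Dd hO hw σ.2 (hS σ.1) v
  have hfin : (Set.range f).Finite := by
    have hsub : Set.range f ⊆
        Set.pi Set.univ fun x : ↥S => (minpoly ℚ (x : Kb)).rootSet Kb := by
      rintro _ ⟨σ, rfl⟩ x -
      have halg : Algebra.IsAlgebraic ℚ Kb := algebraIsAlgebraic_rat_algebraicClosure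
      have hint : IsIntegral ℚ (x : Kb) := Algebra.IsIntegral.isIntegral _
      rw [Polynomial.mem_rootSet]
      refine ⟨minpoly.ne_zero hint, ?_⟩
      show Polynomial.aeval ((σ : Kb ≃ₐ[ℚ] Kb) (x : Kb)) (minpoly ℚ (x : Kb)) = 0
      have := Polynomial.aeval_algHom_apply ((σ : Kb ≃ₐ[ℚ] Kb) : Kb →ₐ[ℚ] Kb) (x : Kb)
        (minpoly ℚ (x : Kb))
      rw [minpoly.aeval, map_zero] at this
      exact this
    exact (Set.Finite.pi fun x => Polynomial.rootSet_finite _ _).subset hsub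
  have hfac : Function.FactorsThrough Φ f := by
    intro σ σ' hσσ'
    refine RingHom.ext fun y => ?_
    exact sigmaF_congr B hB hqM S hne Dd hO hw σ.2 σ'.2 (hS σ.1) (hS σ'.1)
      (eqOn_KS_of_eqOn B hB S σ.2 σ'.2 fun x hx => congrFun hσσ' ⟨x, hx⟩) v y
  have hrange : Set.range Φ ⊆ (Function.extend f Φ fun _ => Φ 1) '' Set.range f := by
    rintro _ ⟨σ, rfl⟩
    exact ⟨f σ, ⟨σ, rfl⟩, hfac.extend_apply _ σ⟩
  exact (hfin.image _).subset hrange

end Modular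

end Fermat.Agent.FF4.CompGroup
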