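/-
K1-(b) SPIKE (findings #1834 / #1835), leaf (helper20):
THE LEADING CONSTANTS `Λ_{v,e}` ON THE COMPLETED FUNCTION FIELDS OF THE COMPONENTS.

Abstract over a node input `I : ExpandBR.NodeInput Xb i j hj hfull hcol C` with `IsDV`, `IsCompl`
(`FF4/BdryFrac`, `FF4/ConstEmb`), on top of helper11's `FF4/AmiceLead` (`HasLead`).

* `lead₁ x : K₁`, `ord₁ x : ℤ` : the leading constant and the order of the expansion `b1F x`
  (`hasLead₁`); `lead₁_mul`, `ord₁_mul`, `lead₁_cK₁`, `norm_lead₁`, `norm_lead₁_unif_zpow_mul`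
  (`‖Λ (unif ^ n * w)‖ = ‖ϖ₁‖ ^ n`: T3);  the same on the side `tgt e` (`lead₂`, `ord₂`);
* `leadC₁ x := cK₁ (lead₁ x)` : the leading constant as an element of `C.Lh (src e)`, with the
  clauses of `Descent.IsLead` : `leadC₁_ne_zero`, `leadC₁_mul`, `leadC₁_const`, `leadC₁_mem`, and
  `leadC₁_equivariant` (from a square `b1F ∘ τ = mapCoeff σ ∘ b1F`); `isLead_leadC₁`;
* `mem_fieldRange_cK₁_of_pow` : `hroot` of `Descent.descent` for `C = (cK₁).fieldRange`.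
-/
import Mathlib
import Fermat.Agent.FF4.ConstEmb
import Fermat.Agent.FF4.AmiceLead.Galois
import Fermat.Agent.FF4.AmiceLead.Norm
import Fermat.Agent.FF4.Descent

set_option autoImplicit false

noncomputable section

namespace Fermat.Agent.FF4.BdryFrac

open AlgebraicCurve IsLocalRing Fermat.Agent.Red Fermat.Agent.BR.Centre Fermat.Agent.BR.SS
  Fermat.Agent.BR.Refine Fermat.Agent.BR.S0 Fermat.Agent.BR.S0.AnnulusChartOfLevels
  Fermat.Agent.FF3 Fermat.Agent.FF3.Amice Fermat.Agent.FF3.B4 Fermat.Agent.FF3.ExpandBR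
  Fermat.Agent.FF4.AmiceLead

attribute [local instance] normedAlgebraSubfield
attribute [local instance] nontrivial_bAmice

universe u w

variable {K : Type} {F : Type u} [Field K] [Field F] [Algebra K F]
  {A : ValuationSubring K} [IsAlgClosed (ResidueField A)]
  {ι₀ : Type} {Ft₀ : ι₀ → Type} [∀ v, Field (Ft₀ v)] [∀ v, Algebra (ResidueField A) (Ft₀ v)]
  {ν₀ : Type} {S₀ : SemistableSetup (F := F) A (residue A) ι₀ Ft₀ ν₀} {e : ν₀} {ι : Type*}
  {L : AnnulusLevels A (tube S₀ e) ι} {Xb : BranchData S₀ e L} {i : ι}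
  {Ω : Type w} [NormedField Ω] [IsUltrametricDist Ω] [CompleteSpace Ω]
  {j : K →+* Ω} {hj : ∀ c : K, ‖j c‖ ≤ 1 ↔ c ∈ A}
  {hfull : LevelFullRes L i} {hcol : DenseNearOne j}
  {F₀ : Subfield F} {ϖ₀ : F₀} {C : CompPack.{0, u, 0, 0, 0, 0, w} S₀ F₀ ϖ₀}
  (I : NodeInput Xb i j hj hfull hcol C)

/-! ### the side of `src e` -/

section Src

variable (hdv : IsDV C (S₀.src e))

include hj in
theorem exists_hasLead₁ {x : C.Lh (S₀.src e)} (hx : x ≠ 0) :
    ∃ (c : constK₁ L i j) (a : ℤ), HasLead (b1F I hdv x) c a :=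
  exists_hasLead (isDiscreteNorm_unifK₁ L i j hj)
    (fun h0 => hx (b1F_injective I hdv (by rw [h0, map_zero])))

open Classical in
/-- the leading constant of the expansion on the side of `src e` -/
def lead₁ (x : C.Lh (S₀.src e)) : constK₁ L i j :=
  if hx : x = 0 then 0 else Classical.choose (exists_hasLead₁ (hj := hj) I hdv hx)

open Classical in
/-- the order of the expansion on the side of `src e` -/
def ord₁ (x : C.Lh (S₀.src e)) : ℤ :=
  if hx : x = 0 then 0 else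
    Classical.choose (Classical.choose_spec (exists_hasLead₁ (hj := hj) I hdv hx))

theorem hasLead₁ {x : C.Lh (S₀.src e)} (hx : x ≠ 0) :
    HasLead (b1F I hdv x) (lead₁ I hdv x) (ord₁ I hdv x) := by
  unfold lead₁ ord₁
  rw [dif_neg hx, dif_neg hx]
  exact Classical.choose_spec (Classical.choose_spec (exists_hasLead₁ (hj := hj) I hdv hx))

theorem lead₁_zero : lead₁ I hdv (0 : C.Lh (S₀.src e)) = 0 := by
  unfold lead₁
  rw [dif_pos rfl]

theorem lead₁_ne_zero {x : C.Lh (S₀.src e)} (hx : x ≠ 0) : lead₁ I hdv x ≠ 0 :=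
  (hasLead₁ I hdv hx).const_ne_zero

/-- uniqueness: any leading constant of `b1F x` is `lead₁ x` -/
theorem lead₁_eq_of_hasLead {x : C.Lh (S₀.src e)} {c : constK₁ L i j} {a : ℤ}
    (h : HasLead (b1F I hdv x) c a) : lead₁ I hdv x = c ∧ ord₁ I hdv x = a := by
  have hx : x ≠ 0 := by
    rintro rfl
    exact h.ne_zero (map_zero _)
  exact (hasLead₁ I hdv hx).unique h

theorem lead₁_mul {x y : C.Lh (S₀.src e)} (hx : x ≠ 0) (hy : y ≠ 0) :
    lead₁ I hdv (x * y) = lead₁ I hdv x * lead₁ I hdv y :=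
  (lead₁_eq_of_hasLead I hdv (by
    rw [map_mul]
    exact (hasLead₁ I hdv hx).mul (hasLead₁ I hdv hy))).1

theorem ord₁_mul {x y : C.Lh (S₀.src e)} (hx : x ≠ 0) (hy : y ≠ 0) :
    ord₁ I hdv (x * y) = ord₁ I hdv x + ord₁ I hdv y :=
  (lead₁_eq_of_hasLead I hdv (by
    rw [map_mul]
    exact (hasLead₁ I hdv hx).mul (hasLead₁ I hdv hy))).2

/-- **T3**: the norm of the leading constant is the norm of the expansion -/
theorem norm_lead₁ (x : C.Lh (S₀.src e)) : ‖lead₁ I hdv x‖ = ‖b1F I hdv x‖ := by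
  rcases eq_or_ne x 0 with rfl | hx
  · rw [lead₁_zero, map_zero, norm_zero, norm_zero]
  · exact (hasLead₁ I hdv hx).norm_eq.symm

/-- **T3**: `‖Λ (unif ^ n * w)‖ = ‖ϖ₁‖ ^ n` : the norm of the leading constant is the valuation of
the component, at every node -/
theorem norm_lead₁_unif_zpow_mul (n : ℤ) (w : (C.Oh (S₀.src e))ˣ) :
    ‖lead₁ I hdv (((C.unif (S₀.src e) : C.Oh (S₀.src e)) : C.Lh (S₀.src e)) ^ n *
      ((w : C.Oh (S₀.src e)) : C.Lh (S₀.src e)))‖ = ‖unifK₁ L i j‖ ^ n := by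
  rw [norm_lead₁, norm_b1F]

variable (hcp : IsCompl C (S₀.src e))

theorem lead₁_cK₁ {c : constK₁ L i j} (hc : c ≠ 0) :
    lead₁ I hdv (cK₁ I hdv hcp c) = c ∧ ord₁ I hdv (cK₁ I hdv hcp c) = 0 :=
  lead₁_eq_of_hasLead I hdv (by
    rw [b1F_cK₁]
    exact hasLead_algebraMap hc)

/-- **the leading constant, as an element of the completed function field of `src e`** -/
def leadC₁ (x : C.Lh (S₀.src e)) : C.Lh (S₀.src e) := cK₁ I hdv hcp (lead₁ I hdv x)

theorem leadC₁_ne_zero {x : C.Lh (S₀.src e)} (hx : x ≠ 0) : leadC₁ I hdv hcp x ≠ 0 :=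
  (map_ne_zero (cK₁ I hdv hcp)).2 (lead₁_ne_zero I hdv hx)

theorem leadC₁_mul {x y : C.Lh (S₀.src e)} (hx : x ≠ 0) (hy : y ≠ 0) :
    leadC₁ I hdv hcp (x * y) = leadC₁ I hdv hcp x * leadC₁ I hdv hcp y := by
  unfold leadC₁
  rw [lead₁_mul I hdv hx hy, map_mul]

theorem leadC₁_const {c : C.Lh (S₀.src e)} (hc : c ∈ (cK₁ I hdv hcp).fieldRange)
    (hc0 : c ≠ 0) : leadC₁ I hdv hcp c = c := by
  obtain ⟨c', rfl⟩ := hc
  have hc' : c' ≠ 0 := by
    rintro rfl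
    exact hc0 (map_zero _)
  unfold leadC₁
  rw [(lead₁_cK₁ I hdv hcp hc').1]

theorem leadC₁_mem (x : C.Lh (S₀.src e)) : leadC₁ I hdv hcp x ∈ (cK₁ I hdv hcp).fieldRange :=
  ⟨_, rfl⟩

/-- **equivariance of the leading constant**: for an endomorphism `τ` of `C.Lh (src e)` and an
isometric endomorphism `σ` of `K₁` with `b1F ∘ τ = mapCoeff σ ∘ b1F`. -/
theorem leadC₁_equivariant (τ : C.Lh (S₀.src e) →+* C.Lh (S₀.src e))
    (σ : constK₁ L i j →+* constK₁ L i j) (hσ : ∀ x, ‖σ x‖ = ‖x‖)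
    (hsq : ∀ x, b1F I hdv (τ x) = mapCoeff σ hσ (b1F I hdv x))
    {x : C.Lh (S₀.src e)} (hx : x ≠ 0) :
    leadC₁ I hdv hcp (τ x) = τ (leadC₁ I hdv hcp x) := by
  have h1 : lead₁ I hdv (τ x) = σ (lead₁ I hdv x) :=
    (lead₁_eq_of_hasLead I hdv (by
      rw [hsq]
      exact (hasLead₁ I hdv hx).map σ hσ)).1
  unfold leadC₁
  rw [h1]
  apply b1F_injective I hdv
  rw [b1F_cK₁, hsq, b1F_cK₁, mapCoeff_algebraMap]

/-- `τ` preserves the completed constants -/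
theorem map_mem_fieldRange_cK₁ (τ : C.Lh (S₀.src e) →+* C.Lh (S₀.src e))
    (σ : constK₁ L i j →+* constK₁ L i j) (hσ : ∀ x, ‖σ x‖ = ‖x‖)
    (hsq : ∀ x, b1F I hdv (τ x) = mapCoeff σ hσ (b1F I hdv x))
    {c : C.Lh (S₀.src e)} (hc : c ∈ (cK₁ I hdv hcp).fieldRange) :
    τ c ∈ (cK₁ I hdv hcp).fieldRange := by
  obtain ⟨c', rfl⟩ := hc
  refine ⟨σ c', ?_⟩
  apply b1F_injective I hdv
  rw [b1F_cK₁, hsq, b1F_cK₁, mapCoeff_algebraMap]

/-- **`hroot`** of `Descent.descent` -/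
theorem mem_fieldRange_cK₁_of_pow {n : ℕ} (hn0 : n ≠ 0) (hn : (n : constK₁ L i j) ≠ 0)
    {b : C.Lh (S₀.src e)} (hb : b ^ n ∈ (cK₁ I hdv hcp).fieldRange) :
    b ∈ (cK₁ I hdv hcp).fieldRange := by
  have h := mem_range_cK₁_of_pow I hdv hcp hn0 hn (b := b) hb
  exact h

/-- **the clauses of `Descent.IsLead`** for the leading constant at the node `e`, side of `src e`:
`G` acts on `C.Lh (src e)` and, through isometric endomorphisms `σ s`, on `K₁`, compatibly with the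
expansion. -/
theorem isLead_leadC₁ {G : Type*} [Group G] [MulSemiringAction G (C.Lh (S₀.src e))]
    (σ : G → (constK₁ L i j →+* constK₁ L i j)) (hσ : ∀ s x, ‖σ s x‖ = ‖x‖)
    (hsq : ∀ (s : G) x, b1F I hdv (s • x) = mapCoeff (σ s) (hσ s) (b1F I hdv x)) :
    Descent.IsLead (G := G) (cK₁ I hdv hcp).fieldRange (leadC₁ I hdv hcp) where
  ne_zero _ hx := leadC₁_ne_zero I hdv hcp hx
  mul _ _ hx hy := leadC₁_mul I hdv hcp hx hy
  const _ hc hc0 := leadC₁_const I hdv hcp hc hc0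
  mem x _ := leadC₁_mem I hdv hcp x
  smul s _ hx := leadC₁_equivariant I hdv hcp (MulSemiringAction.toRingHom G _ s) (σ s) (hσ s)
    (hsq s) hx

/-- the completed constants are stable under the action -/
theorem smul_mem_fieldRange_cK₁ {G : Type*} [Group G] [MulSemiringAction G (C.Lh (S₀.src e))]
    (σ : G → (constK₁ L i j →+* constK₁ L i j)) (hσ : ∀ s x, ‖σ s x‖ = ‖x‖)
    (hsq : ∀ (s : G) x, b1F I hdv (s • x) = mapCoeff (σ s) (hσ s) (b1F I hdv x))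
    (s : G) {c : C.Lh (S₀.src e)} (hc : c ∈ (cK₁ I hdv hcp).fieldRange) :
    s • c ∈ (cK₁ I hdv hcp).fieldRange :=
  map_mem_fieldRange_cK₁ I hdv hcp (MulSemiringAction.toRingHom G _ s) (σ s) (hσ s) (hsq s) hc

end Src

/-! ### the side of `tgt e` -/

section Tgt

variable (hdv : IsDV C (S₀.tgt e))

include hj in
theorem exists_hasLead₂ {x : C.Lh (S₀.tgt e)} (hx : x ≠ 0) :
    ∃ (c : constK₁ L i j) (a : ℤ), HasLead (b2F I hdv x) c a :=
  exists_hasLead (isDiscreteNorm_unifK₁ L i j hj)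
    (fun h0 => hx (b2F_injective I hdv (by rw [h0, map_zero])))

open Classical in
/-- the leading constant of the expansion on the side of `tgt e` -/
def lead₂ (x : C.Lh (S₀.tgt e)) : constK₁ L i j :=
  if hx : x = 0 then 0 else Classical.choose (exists_hasLead₂ (hj := hj) I hdv hx)

open Classical in
/-- the order of the expansion on the side of `tgt e` -/
def ord₂ (x : C.Lh (S₀.tgt e)) : ℤ :=
  if hx : x = 0 then 0 else
    Classical.choose (Classical.choose_spec (exists_hasLead₂ (hj := hj) I hdv hx))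

theorem hasLead₂ {x : C.Lh (S₀.tgt e)} (hx : x ≠ 0) :
    HasLead (b2F I hdv x) (lead₂ I hdv x) (ord₂ I hdv x) := by
  unfold lead₂ ord₂
  rw [dif_neg hx, dif_neg hx]
  exact Classical.choose_spec (Classical.choose_spec (exists_hasLead₂ (hj := hj) I hdv hx))

theorem lead₂_zero : lead₂ I hdv (0 : C.Lh (S₀.tgt e)) = 0 := by
  unfold lead₂
  rw [dif_pos rfl]

theorem lead₂_ne_zero {x : C.Lh (S₀.tgt e)} (hx : x ≠ 0) : lead₂ I hdv x ≠ 0 :=
  (hasLead₂ I hdv hx).const_ne_zero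

/-- uniqueness: any leading constant of `b2F x` is `lead₂ x` -/
theorem lead₂_eq_of_hasLead {x : C.Lh (S₀.tgt e)} {c : constK₁ L i j} {a : ℤ}
    (h : HasLead (b2F I hdv x) c a) : lead₂ I hdv x = c ∧ ord₂ I hdv x = a := by
  have hx : x ≠ 0 := by
    rintro rfl
    exact h.ne_zero (map_zero _)
  exact (hasLead₂ I hdv hx).unique h

theorem lead₂_mul {x y : C.Lh (S₀.tgt e)} (hx : x ≠ 0) (hy : y ≠ 0) :
    lead₂ I hdv (x * y) = lead₂ I hdv x * lead₂ I hdv y :=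
  (lead₂_eq_of_hasLead I hdv (by
    rw [map_mul]
    exact (hasLead₂ I hdv hx).mul (hasLead₂ I hdv hy))).1

theorem ord₂_mul {x y : C.Lh (S₀.tgt e)} (hx : x ≠ 0) (hy : y ≠ 0) :
    ord₂ I hdv (x * y) = ord₂ I hdv x + ord₂ I hdv y :=
  (lead₂_eq_of_hasLead I hdv (by
    rw [map_mul]
    exact (hasLead₂ I hdv hx).mul (hasLead₂ I hdv hy))).2

/-- **T3**: the norm of the leading constant is the norm of the expansion -/
theorem norm_lead₂ (x : C.Lh (S₀.tgt e)) : ‖lead₂ I hdv x‖ = ‖b2F I hdv x‖ := by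
  rcases eq_or_ne x 0 with rfl | hx
  · rw [lead₂_zero, map_zero, norm_zero, norm_zero]
  · exact (hasLead₂ I hdv hx).norm_eq.symm

/-- **T3**: `‖Λ (unif ^ n * w)‖ = ‖ϖ₁‖ ^ n` : the norm of the leading constant is the valuation of
the component, at every node -/
theorem norm_lead₂_unif_zpow_mul (n : ℤ) (w : (C.Oh (S₀.tgt e))ˣ) :
    ‖lead₂ I hdv (((C.unif (S₀.tgt e) : C.Oh (S₀.tgt e)) : C.Lh (S₀.tgt e)) ^ n *
      ((w : C.Oh (S₀.tgt e)) : C.Lh (S₀.tgt e)))‖ = ‖unifK₁ L i j‖ ^ n := by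
  rw [norm_lead₂, norm_b2F]

variable (hcp : IsCompl C (S₀.tgt e))

theorem lead₂_cK₂ {c : constK₁ L i j} (hc : c ≠ 0) :
    lead₂ I hdv (cK₂ I hdv hcp c) = c ∧ ord₂ I hdv (cK₂ I hdv hcp c) = 0 :=
  lead₂_eq_of_hasLead I hdv (by
    rw [b2F_cK₂]
    exact hasLead_algebraMap hc)

/-- **the leading constant, as an element of the completed function field of `tgt e`** -/
def leadC₂ (x : C.Lh (S₀.tgt e)) : C.Lh (S₀.tgt e) := cK₂ I hdv hcp (lead₂ I hdv x)

theorem leadC₂_ne_zero {x : C.Lh (S₀.tgt e)} (hx : x ≠ 0) : leadC₂ I hdv hcp x ≠ 0 :=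
  (map_ne_zero (cK₂ I hdv hcp)).2 (lead₂_ne_zero I hdv hx)

theorem leadC₂_mul {x y : C.Lh (S₀.tgt e)} (hx : x ≠ 0) (hy : y ≠ 0) :
    leadC₂ I hdv hcp (x * y) = leadC₂ I hdv hcp x * leadC₂ I hdv hcp y := by
  unfold leadC₂
  rw [lead₂_mul I hdv hx hy, map_mul]

theorem leadC₂_const {c : C.Lh (S₀.tgt e)} (hc : c ∈ (cK₂ I hdv hcp).fieldRange)
    (hc0 : c ≠ 0) : leadC₂ I hdv hcp c = c := by
  obtain ⟨c', rfl⟩ := hc
  have hc' : c' ≠ 0 := by
    rintro rfl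
    exact hc0 (map_zero _)
  unfold leadC₂
  rw [(lead₂_cK₂ I hdv hcp hc').1]

theorem leadC₂_mem (x : C.Lh (S₀.tgt e)) : leadC₂ I hdv hcp x ∈ (cK₂ I hdv hcp).fieldRange :=
  ⟨_, rfl⟩

/-- **equivariance of the leading constant**: for an endomorphism `τ` of `C.Lh (src e)` and an
isometric endomorphism `σ` of `K₁` with `b2F ∘ τ = mapCoeff σ ∘ b2F`. -/
theorem leadC₂_equivariant (τ : C.Lh (S₀.tgt e) →+* C.Lh (S₀.tgt e))
    (σ : constK₁ L i j →+* constK₁ L i j) (hσ : ∀ x, ‖σ x‖ = ‖x‖)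
    (hsq : ∀ x, b2F I hdv (τ x) = mapCoeff σ hσ (b2F I hdv x))
    {x : C.Lh (S₀.tgt e)} (hx : x ≠ 0) :
    leadC₂ I hdv hcp (τ x) = τ (leadC₂ I hdv hcp x) := by
  have h1 : lead₂ I hdv (τ x) = σ (lead₂ I hdv x) :=
    (lead₂_eq_of_hasLead I hdv (by
      rw [hsq]
      exact (hasLead₂ I hdv hx).map σ hσ)).1
  unfold leadC₂
  rw [h1]
  apply b2F_injective I hdv
  rw [b2F_cK₂, hsq, b2F_cK₂, mapCoeff_algebraMap]

/-- `τ` preserves the completed constants -/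
theorem map_mem_fieldRange_cK₂ (τ : C.Lh (S₀.tgt e) →+* C.Lh (S₀.tgt e))
    (σ : constK₁ L i j →+* constK₁ L i j) (hσ : ∀ x, ‖σ x‖ = ‖x‖)
    (hsq : ∀ x, b2F I hdv (τ x) = mapCoeff σ hσ (b2F I hdv x))
    {c : C.Lh (S₀.tgt e)} (hc : c ∈ (cK₂ I hdv hcp).fieldRange) :
    τ c ∈ (cK₂ I hdv hcp).fieldRange := by
  obtain ⟨c', rfl⟩ := hc
  refine ⟨σ c', ?_⟩
  apply b2F_injective I hdv
  rw [b2F_cK₂, hsq, b2F_cK₂, mapCoeff_algebraMap]

/-- **`hroot`** of `Descent.descent` -/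
theorem mem_fieldRange_cK₂_of_pow {n : ℕ} (hn0 : n ≠ 0) (hn : (n : constK₁ L i j) ≠ 0)
    {b : C.Lh (S₀.tgt e)} (hb : b ^ n ∈ (cK₂ I hdv hcp).fieldRange) :
    b ∈ (cK₂ I hdv hcp).fieldRange := by
  have h := mem_range_cK₂_of_pow I hdv hcp hn0 hn (b := b) hb
  exact h

/-- **the clauses of `Descent.IsLead`** for the leading constant at the node `e`, side of `tgt e`:
`G` acts on `C.Lh (tgt e)` and, through isometric endomorphisms `σ s`, on `K₁`, compatibly with the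
expansion. -/
theorem isLead_leadC₂ {G : Type*} [Group G] [MulSemiringAction G (C.Lh (S₀.tgt e))]
    (σ : G → (constK₁ L i j →+* constK₁ L i j)) (hσ : ∀ s x, ‖σ s x‖ = ‖x‖)
    (hsq : ∀ (s : G) x, b2F I hdv (s • x) = mapCoeff (σ s) (hσ s) (b2F I hdv x)) :
    Descent.IsLead (G := G) (cK₂ I hdv hcp).fieldRange (leadC₂ I hdv hcp) where
  ne_zero _ hx := leadC₂_ne_zero I hdv hcp hx
  mul _ _ hx hy := leadC₂_mul I hdv hcp hx hy
  const _ hc hc0 := leadC₂_const I hdv hcp hc hc0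
  mem x _ := leadC₂_mem I hdv hcp x
  smul s _ hx := leadC₂_equivariant I hdv hcp (MulSemiringAction.toRingHom G _ s) (σ s) (hσ s)
    (hsq s) hx

/-- the completed constants are stable under the action -/
theorem smul_mem_fieldRange_cK₂ {G : Type*} [Group G] [MulSemiringAction G (C.Lh (S₀.tgt e))]
    (σ : G → (constK₁ L i j →+* constK₁ L i j)) (hσ : ∀ s x, ‖σ s x‖ = ‖x‖)
    (hsq : ∀ (s : G) x, b2F I hdv (s • x) = mapCoeff (σ s) (hσ s) (b2F I hdv x))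
    (s : G) {c : C.Lh (S₀.tgt e)} (hc : c ∈ (cK₂ I hdv hcp).fieldRange) :
    s • c ∈ (cK₂ I hdv hcp).fieldRange :=
  map_mem_fieldRange_cK₂ I hdv hcp (MulSemiringAction.toRingHom G _ s) (σ s) (hσ s) (hsq s) hc

end Tgt

end Fermat.Agent.FF4.BdryFrac
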