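import Mathlib
import Fermat.Agent.FF4.AmiceLead.Galois

/-!
# FF4 : change of the field of constants in the bounded Amice ring (helper20)

`θ : K →+* K'` an isometric homomorphism of complete ultrametric normed fields (two-field version of
helper11's `AmiceLead.mapCoeff`; the proofs are his).

* `mapCoeffTwo θ hθ : BAmice K →+* BAmice K'` : `∑ cₙ Xⁿ ↦ ∑ θ(cₙ) Xⁿ` (`coeff_mapCoeffTwo`),
  isometric (`norm_mapCoeffTwo`), injective, `mapCoeffTwo_algebraMap`, `mapCoeffTwo_X_zpow`;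
* `HasLead.mapTwo` : `HasLead z c a → HasLead (mapCoeffTwo θ hθ z) (θ c) a`;
* `mapCoeffTwo_mapCoeff` : compatibility with the coefficientwise actions, for `θ ∘ σ = σ' ∘ θ`.
-/

set_option autoImplicit false
set_option linter.unusedSectionVars false

namespace Fermat.Agent.FF4.AmiceLead

open Filter Topology
open Fermat.Agent.FF3.Amice Fermat.Agent.FF3.Birkhoff Fermat.Agent.FF3.AmiceU
open scoped Classical

variable {K : Type*} [NormedField K] [IsUltrametricDist K] [CompleteSpace K]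
  {K' : Type*} [NormedField K'] [IsUltrametricDist K'] [CompleteSpace K']

section

variable (θ : K →+* K') (hθ : ∀ x : K, ‖θ x‖ = ‖x‖)
include hθ

theorem continuous_of_isometric_two : Continuous θ := by
  have hiso : Isometry θ := by
    refine Isometry.of_dist_eq fun x y => ?_
    rw [dist_eq_norm, dist_eq_norm, ← map_sub, hθ]
  exact hiso.continuous

/-- the coefficientwise image of a sequence -/
noncomputable def mapCoeffTwoFun (z : BAmice K) : BAmice K' :=
  BAmice.mk (fun n => θ (BAmice.coeff n z))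
    (by
      obtain ⟨C, hC⟩ := BAmice.bddAbove_norm_coeff z
      refine ⟨C, ?_⟩
      rintro _ ⟨n, rfl⟩
      show ‖θ (BAmice.coeff n z)‖ ≤ C
      rw [hθ]
      exact hC ⟨n, rfl⟩)
    (by
      have h := (continuous_of_isometric_two θ hθ).tendsto 0
      rw [map_zero] at h
      exact h.comp (BAmice.tendsto_coeff_atBot z))

theorem coeff_mapCoeffTwoFun (z : BAmice K) (n : ℤ) :
    BAmice.coeff n (mapCoeffTwoFun θ hθ z) = θ (BAmice.coeff n z) := rfl

theorem mapCoeffTwoFun_mul (z w : BAmice K) :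
    mapCoeffTwoFun θ hθ (z * w) = mapCoeffTwoFun θ hθ z * mapCoeffTwoFun θ hθ w := by
  apply BAmice.ext; intro n
  rw [coeff_mapCoeffTwoFun, BAmice.coeff_mul, BAmice.coeff_mul]
  have hs := (BAmice.summable_coeff_mul n z w).hasSum
  have h2 := hs.map θ.toAddMonoidHom (continuous_of_isometric_two θ hθ)
  have h3 : (θ.toAddMonoidHom ∘ fun i : ℤ => BAmice.coeff i z * BAmice.coeff (n - i) w)
      = fun i : ℤ => BAmice.coeff i (mapCoeffTwoFun θ hθ z)
          * BAmice.coeff (n - i) (mapCoeffTwoFun θ hθ w) := by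
    funext i
    show θ (BAmice.coeff i z * BAmice.coeff (n - i) w) = _
    rw [map_mul]; rfl
  rw [h3] at h2
  exact h2.tsum_eq.symm

/-- **the change of constants** along an isometric homomorphism -/
noncomputable def mapCoeffTwo : BAmice K →+* BAmice K' where
  toFun := mapCoeffTwoFun θ hθ
  map_one' := by
    apply BAmice.ext; intro n
    rw [coeff_mapCoeffTwoFun, BAmice.coeff_one, BAmice.coeff_one]
    split_ifs
    · exact map_one θ
    · exact map_zero θ
  map_mul' := mapCoeffTwoFun_mul θ hθ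
  map_zero' := by
    apply BAmice.ext; intro n
    rw [coeff_mapCoeffTwoFun, BAmice.coeff_zero, BAmice.coeff_zero, map_zero]
  map_add' := fun z w => by
    apply BAmice.ext; intro n
    rw [coeff_mapCoeffTwoFun, BAmice.coeff_add, BAmice.coeff_add, map_add]; rfl

@[simp] theorem coeff_mapCoeffTwo (z : BAmice K) (n : ℤ) :
    BAmice.coeff n (mapCoeffTwo θ hθ z) = θ (BAmice.coeff n z) := rfl

theorem norm_mapCoeffTwo (z : BAmice K) : ‖mapCoeffTwo θ hθ z‖ = ‖z‖ := by
  apply le_antisymm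
  · rw [BAmice.norm_le_iff]
    intro n
    rw [coeff_mapCoeffTwo, hθ]
    exact BAmice.norm_coeff_le n z
  · rw [BAmice.norm_le_iff]
    intro n
    rw [← hθ, ← coeff_mapCoeffTwo θ hθ]
    exact BAmice.norm_coeff_le n _

theorem mapCoeffTwo_injective : Function.Injective (mapCoeffTwo θ hθ) :=
  (injective_iff_map_eq_zero _).2 fun z hz => by
    have h := norm_mapCoeffTwo θ hθ z
    rw [hz, norm_zero] at h
    exact norm_eq_zero.1 h.symm

theorem mapCoeffTwo_algebraMap (c : K) :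
    mapCoeffTwo θ hθ (algebraMap K (BAmice K) c) = algebraMap K' (BAmice K') (θ c) := by
  apply BAmice.ext; intro n
  rw [coeff_mapCoeffTwo, BAmice.coeff_algebraMap, BAmice.coeff_algebraMap]
  split_ifs
  · rfl
  · exact map_zero θ

theorem mapCoeffTwo_single (k : ℤ) (x : K) :
    mapCoeffTwo θ hθ (BAmice.single k x) = BAmice.single k (θ x) := by
  apply BAmice.ext; intro n
  rw [coeff_mapCoeffTwo, BAmice.coeff_single, BAmice.coeff_single]
  split_ifs
  · rfl
  · exact map_zero θ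

theorem mapCoeffTwo_X_zpow (k : ℤ) :
    mapCoeffTwo θ hθ (((BAmice.X ^ k : (BAmice K)ˣ) : BAmice K))
      = ((BAmice.X ^ k : (BAmice K')ˣ) : BAmice K') := by
  rw [BAmice.coe_X_zpow, BAmice.coe_X_zpow, mapCoeffTwo_single, map_one]

theorem suppIn_mapCoeffTwo {z : BAmice K} {P : ℤ → Prop} (h : SuppIn z P) :
    SuppIn (mapCoeffTwo θ hθ z) P := by
  intro n hn
  rw [coeff_mapCoeffTwo, h n hn, map_zero]

theorem isPlus_mapCoeffTwo {b : BAmice K} (hb : IsPlus b) : IsPlus (mapCoeffTwo θ hθ b) :=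
  ⟨mem_BP_iff.2 (suppIn_mapCoeffTwo θ hθ (mem_BP_iff.1 hb.1)),
    by rw [norm_mapCoeffTwo]; exact hb.2⟩

theorem isMinus_mapCoeffTwo {d : BAmice K} (hd : IsMinus d) : IsMinus (mapCoeffTwo θ hθ d) :=
  ⟨mem_BM_iff.2 (suppIn_mapCoeffTwo θ hθ (mem_BM_iff.1 hd.1)),
    by rw [norm_mapCoeffTwo]; exact hd.2⟩

theorem mapCoeffTwo_nf (c : K) (a : ℤ) (b d : BAmice K) :
    mapCoeffTwo θ hθ (NF c a b d) = NF (θ c) a (mapCoeffTwo θ hθ b) (mapCoeffTwo θ hθ d) := by
  unfold NF
  rw [map_mul, map_mul, map_mul, mapCoeffTwo_algebraMap, mapCoeffTwo_X_zpow, map_add, map_add,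
    map_one]

/-- **the leading constant under a change of constants** -/
theorem HasLead.mapTwo {z : BAmice K} {c : K} {a : ℤ} (h : HasLead z c a) :
    HasLead (mapCoeffTwo θ hθ z) (θ c) a := by
  obtain ⟨hc, b, d, hb, hd, rfl⟩ := h
  refine ⟨?_, mapCoeffTwo θ hθ b, mapCoeffTwo θ hθ d, isPlus_mapCoeffTwo θ hθ hb,
    isMinus_mapCoeffTwo θ hθ hd, mapCoeffTwo_nf θ hθ c a b d⟩
  intro h0
  have := hθ c
  rw [h0, norm_zero] at this
  exact hc (norm_eq_zero.1 this.symm)

/-- compatibility with the coefficientwise actions -/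
theorem mapCoeffTwo_mapCoeff (σ : K →+* K) (hσ : ∀ x, ‖σ x‖ = ‖x‖) (σ' : K' →+* K')
    (hσ' : ∀ x, ‖σ' x‖ = ‖x‖) (hc : ∀ x, θ (σ x) = σ' (θ x)) (z : BAmice K) :
    mapCoeffTwo θ hθ (mapCoeff σ hσ z) = mapCoeff σ' hσ' (mapCoeffTwo θ hθ z) := by
  apply BAmice.ext; intro n
  rw [coeff_mapCoeffTwo, coeff_mapCoeff, coeff_mapCoeff, coeff_mapCoeffTwo, hc]

end

end Fermat.Agent.FF4.AmiceLead
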