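/-
PROGRAMME II, kernel K1, node N6 (b) (helper20): THE LEADING-CONSTANT DATA AT THE MODULAR TOWER,
OVER ONE FIELD OF COMPLETED CONSTANTS.

Level `S : Finset Kb` of the tower, component data `(D, hO, hw)`, `C = CompPack.ofDatum … D hO hw`,
`I e = BLift.nodeInput_modular … e …` the landed node input at the crossing `e`.  The field of
completed constants `constK₁ (L e) S j` of the node `e` depends on `e` as a TYPE; as a subfield of
`Ω` it does not:

* `KFS S` : the constants of the function field `F_S` of the level; `level_K'_eq_KFS`;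
* `K₁S` : the completed constants of the level, `constK₁_eq_K₁S e`; `thetaK e`, `thetaKinv e` : the
  two identifications `constK₁ (L e) S j ⇄ K₁S` (identity on `Ω`);
* `cK₁_eq_cK₁_of_coe_eq`, `cK₂_…` : THE EMBEDDING OF THE COMPLETED CONSTANTS INTO `C.Lh v` DOES NOT
  DEPEND ON THE NODE;
* `iotaSrc e : K₁S →+* C.Lh 0`, `iotaTgt e : K₁S →+* C.Lh 1`, `iotaSrc_eq e e'`, `iotaTgt_eq e e'`;
* `phiSrc e : C.Lh 0 →+* BAmice K₁S`, `phiTgt e : C.Lh 1 →+* BAmice K₁S` : the expansions at the
  node `e` with coefficients in `K₁S`; `phiSrc_iotaSrc`, `phiTgt_iotaTgt` (for ANY pair `e e'`),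
  injectivity, `norm_phiSrc_eq e e'` (`hnorm` of `AmiceLead.exists_descent_unit`),
  `hasLead_phiSrc_iff`, `phiSrc_equivariant`.
-/
import Mathlib
import Fermat.Agent.FF3.BLift.Modular
import Fermat.Agent.FF4.ConstRange
import Fermat.Agent.FF4.LeadAt
import Fermat.Agent.FF4.MapCoeffTwo

set_option autoImplicit false
set_option linter.unusedSectionVars false
set_option synthInstance.maxHeartbeats 400000
set_option maxHeartbeats 4000000

noncomputable section

/- build-time shortcut instances (as in main's `BR3/SubAnnChart/ModularRef`): they only shorten the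
instance search; each is the instance that the search finds anyway. -/
local instance (priority := 100000) Fermat.Agent.FF4.FastInst.instAlgFullC_ModularLead
    {k : Type*} [Field k] (N : ℕ) :
    Algebra k ↥(ModularCurve.modularFunctionFieldFullC k N) := inferInstance
local instance (priority := 100000) Fermat.Agent.FF4.FastInst.instFieldFullC_ModularLead
    {k : Type*} [Field k] (N : ℕ) :
    Field ↥(ModularCurve.modularFunctionFieldFullC k N) := inferInstance

namespace Fermat.Agent.FF4.ModularLead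

open AlgebraicCurve ModularCurve IsLocalRing Fermat.Agent.Red Fermat.Agent.X0
  Fermat.Agent.BR Fermat.Agent.BR.Centre Fermat.Agent.BR.S0 Fermat.Agent.BR.SS
  Fermat.Agent.BR.S0.RedModular
  Fermat.Agent.BR.S0.RedHyp Fermat.Agent.BR.S0.PointDict Fermat.Agent.BR.Inst.AnnulusInstFinal
  Fermat.Agent.BR.Inst.Levels Fermat.Agent.BR.Inst.NodeInst Fermat.Agent.BR.Inst.LocSub
  Fermat.Agent.FF3 Fermat.Agent.FF3.Amice Fermat.Agent.FF3.B4 Fermat.Agent.FF3.DVCompl
  Fermat.Agent.FF3.ExpandBR Fermat.Agent.FF3.BLift Fermat.Agent.FF4.BdryFrac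
  Fermat.Agent.FF4.AmiceLead

attribute [local instance] normedAlgebraSubfield
attribute [local instance] nontrivial_bAmice

local notation "Kb" => AlgebraicClosure ℚ

variable {M q : ℕ} [NeZero M] [hq : Fact q.Prime]
variable (B : ValuationSubring Kb) (hB : B.LiesOverPrime q) (hqM : ¬ q ∣ M)
variable [IsAlgClosed (ResidueField B)]
variable (hne : Nonempty (Crossing (chartDataModular B hB hqM)))
variable (e e' : Crossing (chartDataModular B hB hqM))
variable {Ω : Type} [NormedField Ω] [IsUltrametricDist Ω] [CompleteSpace Ω]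
  (j : Kb →+* Ω) (hj : ∀ c : Kb, ‖j c‖ ≤ 1 ↔ c ∈ B) (S : Finset Kb)

/-! ### generic lemmas on inclusions of subfields of `Ω` -/

section Generic

variable {Ω' : Type*} [NormedField Ω'] {X Y : Subfield Ω'}

theorem coe_subfield_inclusion (h : X ≤ Y) (x : X) :
    ((Subfield.inclusion h x : Y) : Ω') = (x : Ω') := rfl

theorem norm_subfield_inclusion (h : X ≤ Y) (x : X) : ‖Subfield.inclusion h x‖ = ‖x‖ := rfl

theorem subfield_inclusion_inclusion (h : X ≤ Y) (h' : Y ≤ X) (x : X) :
    Subfield.inclusion h' (Subfield.inclusion h x) = x := Subtype.ext rfl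

end Generic

/-! ### the constants of the level do not depend on the node -/

/-- the constants of the function field of the level `S` -/
def KFS : Subfield Kb := (FS (M * q) q S).comap (algebraMap Kb (Fb (M * q)))

theorem mem_KFS {c : Kb} : c ∈ KFS (M := M) (q := q) S ↔
    algebraMap Kb (Fb (M * q)) c ∈ FS (M * q) q S := Iff.rfl

/-- **the constant field of the level `S` of the tube of `e` is the field of constants of the
function field of the level** -/
theorem level_K'_eq_KFS :
    ((annulusLevels_modular_final B hB hqM hne e).level S).K' = KFS (M := M) (q := q) S := by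
  ext c
  rw [mem_KFS]
  show c ∈ constField Kb ((annulusLevels_modular_final B hB hqM hne e).level S).R ↔ _
  rw [mem_constField_iff]
  constructor
  · rintro ⟨a, b, hb, hab⟩
    have hb0 : (b : Fb (M * q)) ≠ 0 := fun h0 => hb (Subtype.ext h0)
    have e1 : algebraMap Kb (Fb (M * q)) c = (a : Fb (M * q)) * (b : Fb (M * q))⁻¹ := by
      rw [← hab, mul_assoc, mul_inv_cancel₀ hb0, mul_one]
    rw [e1]
    exact (FS (M * q) q S).mul_mem (level_le_FS B hB hqM hne e S a a.2)
      ((FS (M * q) q S).inv_mem (level_le_FS B hB hqM hne e S b b.2))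
  · intro hc
    exact level_frac B hB hqM hne e S ⟨_, hc⟩

/-- **the completed constants of the level `S`**, as a subfield of `Ω` (no node involved) -/
def K₁S : Subfield Ω := Wc.Kc ((KFS (M := M) (q := q) S).map j)

instance instCompleteSpaceK₁S : CompleteSpace (K₁S (M := M) (q := q) j S) :=
  Wc.instCompleteSpaceKc _

theorem constK₁_eq_K₁S :
    constK₁ (annulusLevels_modular_final B hB hqM hne e) S j = K₁S (M := M) (q := q) j S := by
  show Wc.Kc (constField (annulusLevels_modular_final B hB hqM hne e) S j) = _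
  unfold K₁S ExpandBR.constField
  rw [level_K'_eq_KFS]

/-- the identification `constK₁ (L e) S j → K₁S` (the identity on `Ω`) -/
def thetaK : constK₁ (annulusLevels_modular_final B hB hqM hne e) S j →+*
    K₁S (M := M) (q := q) j S :=
  Subfield.inclusion (constK₁_eq_K₁S B hB hqM hne e j S).le

/-- the identification `K₁S → constK₁ (L e) S j` (the identity on `Ω`) -/
def thetaKinv : K₁S (M := M) (q := q) j S →+*
    constK₁ (annulusLevels_modular_final B hB hqM hne e) S j :=
  Subfield.inclusion (constK₁_eq_K₁S B hB hqM hne e j S).ge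

@[simp] theorem coe_thetaK (x : constK₁ (annulusLevels_modular_final B hB hqM hne e) S j) :
    ((thetaK B hB hqM hne e j S x : K₁S (M := M) (q := q) j S) : Ω) = (x : Ω) :=
  coe_subfield_inclusion _ x

@[simp] theorem coe_thetaKinv (x : K₁S (M := M) (q := q) j S) :
    ((thetaKinv B hB hqM hne e j S x :
      constK₁ (annulusLevels_modular_final B hB hqM hne e) S j) : Ω) = (x : Ω) :=
  coe_subfield_inclusion _ x

@[simp] theorem thetaK_thetaKinv (x : K₁S (M := M) (q := q) j S) :
    thetaK B hB hqM hne e j S (thetaKinv B hB hqM hne e j S x) = x :=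
  subfield_inclusion_inclusion _ _ x

@[simp] theorem thetaKinv_thetaK (x : constK₁ (annulusLevels_modular_final B hB hqM hne e) S j) :
    thetaKinv B hB hqM hne e j S (thetaK B hB hqM hne e j S x) = x :=
  subfield_inclusion_inclusion _ _ x

theorem norm_thetaK (x : constK₁ (annulusLevels_modular_final B hB hqM hne e) S j) :
    ‖thetaK B hB hqM hne e j S x‖ = ‖x‖ := norm_subfield_inclusion _ x

theorem norm_thetaKinv (x : K₁S (M := M) (q := q) j S) :
    ‖thetaKinv B hB hqM hne e j S x‖ = ‖x‖ := norm_subfield_inclusion _ x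

/-! ### the embedding of the completed constants does not depend on the node -/

variable (D : Fin 2 → Datum (FS (M * q) q S))
  (hO : ∀ v (x : FS (M * q) q S),
    x ∈ (D v).O₀ ↔ (x : Fb (M * q)) ∈ (Final.setupFinal B hB hqM hne).O v)
  (hw : ∀ v, (D v).w = unifFS (M := M) B hB S)

/-- the component pack of the level -/
abbrev CD : CompPack (Final.setupFinal B hB hqM hne) (FS (M * q) q S) (unifFS (M := M) B hB S) :=
  CompPack.ofDatum (Final.setupFinal B hB hqM hne) D hO hw

/-- **the intrinsic description of `cK₁` at the tower** (no node on the right-hand side) -/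
theorem eq_cK₁_iff_modular
    (y : constK₁ (annulusLevels_modular_final B hB hqM hne e) S j)
    (z : (CD B hB hqM hne S D hO hw).Lh 0) :
    z = cK₁ (nodeInput_modular B hB hqM hne e j hj S D hO hw) (isDV_ofDatum D hO hw 0)
        (isCompl_ofDatum D hO hw 0) y ↔
      IsConstLimOf (CD B hB hqM hne S D hO hw) j (KFS (M := M) (q := q) S)
        (unif B hq.out hB S) 0 (y : Ω) z := by
  have h := eq_cK₁_iff (hj := hj) (nodeInput_modular B hB hqM hne e j hj S D hO hw)
    (isDV_ofDatum D hO hw 0) (isCompl_ofDatum D hO hw 0) y z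
  rw [level_K'_eq_KFS, level_unif_eq] at h
  exact h

/-- **the intrinsic description of `cK₂` at the tower** -/
theorem eq_cK₂_iff_modular
    (y : constK₁ (annulusLevels_modular_final B hB hqM hne e) S j)
    (z : (CD B hB hqM hne S D hO hw).Lh 1) :
    z = cK₂ (nodeInput_modular B hB hqM hne e j hj S D hO hw) (isDV_ofDatum D hO hw 1)
        (isCompl_ofDatum D hO hw 1) y ↔
      IsConstLimOf (CD B hB hqM hne S D hO hw) j (KFS (M := M) (q := q) S)
        (unif B hq.out hB S) 1 (y : Ω) z := by
  have h := eq_cK₂_iff (hj := hj) (nodeInput_modular B hB hqM hne e j hj S D hO hw)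
    (isDV_ofDatum D hO hw 1) (isCompl_ofDatum D hO hw 1) y z
  rw [level_K'_eq_KFS, level_unif_eq] at h
  exact h

/-- **the embedding of the completed constants into `C.Lh 0` does not depend on the node** -/
theorem cK₁_eq_cK₁_of_coe_eq
    (y : constK₁ (annulusLevels_modular_final B hB hqM hne e) S j)
    (y' : constK₁ (annulusLevels_modular_final B hB hqM hne e') S j) (h : (y : Ω) = (y' : Ω)) :
    (cK₁ (nodeInput_modular B hB hqM hne e j hj S D hO hw) (isDV_ofDatum D hO hw 0)
        (isCompl_ofDatum D hO hw 0) y : (CD B hB hqM hne S D hO hw).Lh 0) =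
      cK₁ (nodeInput_modular B hB hqM hne e' j hj S D hO hw) (isDV_ofDatum D hO hw 0)
        (isCompl_ofDatum D hO hw 0) y' := by
  refine (eq_cK₁_iff_modular B hB hqM hne e' j hj S D hO hw y' _).mpr ?_
  rw [← h]
  exact (eq_cK₁_iff_modular B hB hqM hne e j hj S D hO hw y _).mp rfl

/-- **the embedding of the completed constants into `C.Lh 1` does not depend on the node** -/
theorem cK₂_eq_cK₂_of_coe_eq
    (y : constK₁ (annulusLevels_modular_final B hB hqM hne e) S j)
    (y' : constK₁ (annulusLevels_modular_final B hB hqM hne e') S j) (h : (y : Ω) = (y' : Ω)) :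
    (cK₂ (nodeInput_modular B hB hqM hne e j hj S D hO hw) (isDV_ofDatum D hO hw 1)
        (isCompl_ofDatum D hO hw 1) y : (CD B hB hqM hne S D hO hw).Lh 1) =
      cK₂ (nodeInput_modular B hB hqM hne e' j hj S D hO hw) (isDV_ofDatum D hO hw 1)
        (isCompl_ofDatum D hO hw 1) y' := by
  refine (eq_cK₂_iff_modular B hB hqM hne e' j hj S D hO hw y' _).mpr ?_
  rw [← h]
  exact (eq_cK₂_iff_modular B hB hqM hne e j hj S D hO hw y _).mp rfl

/-! ### the data over the common field `K₁S` -/

/-- **the completed constants of the level inside `C.Lh 0`** (computed at the node `e`) -/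
def iotaSrc : K₁S (M := M) (q := q) j S →+* (CD B hB hqM hne S D hO hw).Lh 0 :=
  (cK₁ (nodeInput_modular B hB hqM hne e j hj S D hO hw) (isDV_ofDatum D hO hw 0)
    (isCompl_ofDatum D hO hw 0)).comp (thetaKinv B hB hqM hne e j S)

/-- **the completed constants of the level inside `C.Lh 1`** (computed at the node `e`) -/
def iotaTgt : K₁S (M := M) (q := q) j S →+* (CD B hB hqM hne S D hO hw).Lh 1 :=
  (cK₂ (nodeInput_modular B hB hqM hne e j hj S D hO hw) (isDV_ofDatum D hO hw 1)
    (isCompl_ofDatum D hO hw 1)).comp (thetaKinv B hB hqM hne e j S)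

/-- `iotaSrc` does not depend on the node -/
theorem iotaSrc_eq : iotaSrc B hB hqM hne e j hj S D hO hw = iotaSrc B hB hqM hne e' j hj S D hO hw :=
  RingHom.ext fun c => cK₁_eq_cK₁_of_coe_eq B hB hqM hne e e' j hj S D hO hw _ _
    ((coe_thetaKinv B hB hqM hne e j S c).trans (coe_thetaKinv B hB hqM hne e' j S c).symm)

/-- `iotaTgt` does not depend on the node -/
theorem iotaTgt_eq : iotaTgt B hB hqM hne e j hj S D hO hw = iotaTgt B hB hqM hne e' j hj S D hO hw :=
  RingHom.ext fun c => cK₂_eq_cK₂_of_coe_eq B hB hqM hne e e' j hj S D hO hw _ _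
    ((coe_thetaKinv B hB hqM hne e j S c).trans (coe_thetaKinv B hB hqM hne e' j S c).symm)

/-- **the expansion at the node `e` of the completed function field of the component `0`**, with
coefficients in the common field `K₁S` -/
def phiSrc : (CD B hB hqM hne S D hO hw).Lh 0 →+* BAmice (K₁S (M := M) (q := q) j S) :=
  (mapCoeffTwo (thetaK B hB hqM hne e j S) (norm_thetaK B hB hqM hne e j S)).comp
    (b1F (nodeInput_modular B hB hqM hne e j hj S D hO hw) (isDV_ofDatum D hO hw 0))

/-- **the expansion at the node `e` of the completed function field of the component `1`**, with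
coefficients in the common field `K₁S` -/
def phiTgt : (CD B hB hqM hne S D hO hw).Lh 1 →+* BAmice (K₁S (M := M) (q := q) j S) :=
  (mapCoeffTwo (thetaK B hB hqM hne e j S) (norm_thetaK B hB hqM hne e j S)).comp
    (b2F (nodeInput_modular B hB hqM hne e j hj S D hO hw) (isDV_ofDatum D hO hw 1))

theorem phiSrc_apply (x : (CD B hB hqM hne S D hO hw).Lh 0) :
    phiSrc B hB hqM hne e j hj S D hO hw x =
      mapCoeffTwo (thetaK B hB hqM hne e j S) (norm_thetaK B hB hqM hne e j S)
        (b1F (nodeInput_modular B hB hqM hne e j hj S D hO hw) (isDV_ofDatum D hO hw 0) x) := rfl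

theorem phiTgt_apply (x : (CD B hB hqM hne S D hO hw).Lh 1) :
    phiTgt B hB hqM hne e j hj S D hO hw x =
      mapCoeffTwo (thetaK B hB hqM hne e j S) (norm_thetaK B hB hqM hne e j S)
        (b2F (nodeInput_modular B hB hqM hne e j hj S D hO hw) (isDV_ofDatum D hO hw 1) x) := rfl

/-- **`φ_e ∘ ι = algebraMap`**, for the constants computed at ANY node `e'` -/
theorem phiSrc_iotaSrc (c : K₁S (M := M) (q := q) j S) :
    phiSrc B hB hqM hne e j hj S D hO hw (iotaSrc B hB hqM hne e' j hj S D hO hw c) =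
      algebraMap (K₁S (M := M) (q := q) j S) (BAmice (K₁S (M := M) (q := q) j S)) c := by
  rw [iotaSrc_eq B hB hqM hne e' e, phiSrc_apply]
  have h1 : iotaSrc B hB hqM hne e j hj S D hO hw c =
      cK₁ (nodeInput_modular B hB hqM hne e j hj S D hO hw) (isDV_ofDatum D hO hw 0)
        (isCompl_ofDatum D hO hw 0) (thetaKinv B hB hqM hne e j S c) := rfl
  rw [h1, b1F_cK₁, mapCoeffTwo_algebraMap, thetaK_thetaKinv]

/-- **`ψ_e ∘ ι = algebraMap`**, for the constants computed at ANY node `e'` -/
theorem phiTgt_iotaTgt (c : K₁S (M := M) (q := q) j S) :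
    phiTgt B hB hqM hne e j hj S D hO hw (iotaTgt B hB hqM hne e' j hj S D hO hw c) =
      algebraMap (K₁S (M := M) (q := q) j S) (BAmice (K₁S (M := M) (q := q) j S)) c := by
  rw [iotaTgt_eq B hB hqM hne e' e, phiTgt_apply]
  have h1 : iotaTgt B hB hqM hne e j hj S D hO hw c =
      cK₂ (nodeInput_modular B hB hqM hne e j hj S D hO hw) (isDV_ofDatum D hO hw 1)
        (isCompl_ofDatum D hO hw 1) (thetaKinv B hB hqM hne e j S c) := rfl
  rw [h1, b2F_cK₂, mapCoeffTwo_algebraMap, thetaK_thetaKinv]

theorem phiSrc_injective : Function.Injective (phiSrc B hB hqM hne e j hj S D hO hw) :=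
  (mapCoeffTwo_injective (thetaK B hB hqM hne e j S) (norm_thetaK B hB hqM hne e j S)).comp
    (b1F_injective (nodeInput_modular B hB hqM hne e j hj S D hO hw) (isDV_ofDatum D hO hw 0))

theorem phiTgt_injective : Function.Injective (phiTgt B hB hqM hne e j hj S D hO hw) :=
  (mapCoeffTwo_injective (thetaK B hB hqM hne e j S) (norm_thetaK B hB hqM hne e j S)).comp
    (b2F_injective (nodeInput_modular B hB hqM hne e j hj S D hO hw) (isDV_ofDatum D hO hw 1))

/-! ### norms, leading constants, equivariance -/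

theorem norm_unifK₁_modular :
    ‖unifK₁ (annulusLevels_modular_final B hB hqM hne e) S j‖ = ‖j (unif B hq.out hB S)‖ := by
  have h : ((unifK₁ (annulusLevels_modular_final B hB hqM hne e) S j :
      constK₁ (annulusLevels_modular_final B hB hqM hne e) S j) : Ω) =
      j ((annulusLevels_modular_final B hB hqM hne e).level S).ϖ :=
    coe_unifK₁ (annulusLevels_modular_final B hB hqM hne e) S j
  rw [level_unif_eq] at h
  rw [← h]
  rfl

theorem norm_phiSrc (x : (CD B hB hqM hne S D hO hw).Lh 0) :
    ‖phiSrc B hB hqM hne e j hj S D hO hw x‖ =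
      ‖b1F (nodeInput_modular B hB hqM hne e j hj S D hO hw) (isDV_ofDatum D hO hw 0) x‖ := by
  rw [phiSrc_apply, norm_mapCoeffTwo]

theorem norm_phiTgt (x : (CD B hB hqM hne S D hO hw).Lh 1) :
    ‖phiTgt B hB hqM hne e j hj S D hO hw x‖ =
      ‖b2F (nodeInput_modular B hB hqM hne e j hj S D hO hw) (isDV_ofDatum D hO hw 1) x‖ := by
  rw [phiTgt_apply, norm_mapCoeffTwo]

/-- **T3 at the tower**: the norm of the expansion of `unif ^ n * w` (`w` a unit of `C.Oh 0`) at any
node is `‖j ϖ_S‖ ^ n`. -/
theorem norm_phiSrc_unif_zpow_mul (n : ℤ) (w : ((CD B hB hqM hne S D hO hw).Oh 0)ˣ) :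
    ‖phiSrc B hB hqM hne e j hj S D hO hw
      ((((CD B hB hqM hne S D hO hw).unif 0 : (CD B hB hqM hne S D hO hw).Oh 0) :
        (CD B hB hqM hne S D hO hw).Lh 0) ^ n *
        ((w : (CD B hB hqM hne S D hO hw).Oh 0) : (CD B hB hqM hne S D hO hw).Lh 0))‖ =
      ‖j (unif B hq.out hB S)‖ ^ n := by
  rw [norm_phiSrc, ← norm_unifK₁_modular B hB hqM hne e j S]
  exact norm_b1F (nodeInput_modular B hB hqM hne e j hj S D hO hw) (isDV_ofDatum D hO hw 0) n w

/-- **T3 at the tower**, component `1` -/
theorem norm_phiTgt_unif_zpow_mul (n : ℤ) (w : ((CD B hB hqM hne S D hO hw).Oh 1)ˣ) :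
    ‖phiTgt B hB hqM hne e j hj S D hO hw
      ((((CD B hB hqM hne S D hO hw).unif 1 : (CD B hB hqM hne S D hO hw).Oh 1) :
        (CD B hB hqM hne S D hO hw).Lh 1) ^ n *
        ((w : (CD B hB hqM hne S D hO hw).Oh 1) : (CD B hB hqM hne S D hO hw).Lh 1))‖ =
      ‖j (unif B hq.out hB S)‖ ^ n := by
  rw [norm_phiTgt, ← norm_unifK₁_modular B hB hqM hne e j S]
  exact norm_b2F (nodeInput_modular B hB hqM hne e j hj S D hO hw) (isDV_ofDatum D hO hw 1) n w

/-- **`hnorm`**: the norms of the expansions at two nodes of the component `0` coincide -/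
theorem norm_phiSrc_eq (x : (CD B hB hqM hne S D hO hw).Lh 0) :
    ‖phiSrc B hB hqM hne e j hj S D hO hw x‖ = ‖phiSrc B hB hqM hne e' j hj S D hO hw x‖ := by
  rcases eq_or_ne x 0 with rfl | hx
  · rw [map_zero, map_zero]
  · have hu : (CD B hB hqM hne S D hO hw).unif 0 ≠ 0 :=
      unif_src_ne_zero (hj := hj) (nodeInput_modular B hB hqM hne e j hj S D hO hw)
    obtain ⟨n, w, rfl⟩ := (isDV_ofDatum D hO hw 0).exists_zpow hu x hx
    rw [norm_phiSrc_unif_zpow_mul, norm_phiSrc_unif_zpow_mul]

/-- **`hnorm`**: the norms of the expansions at two nodes of the component `1` coincide -/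
theorem norm_phiTgt_eq (x : (CD B hB hqM hne S D hO hw).Lh 1) :
    ‖phiTgt B hB hqM hne e j hj S D hO hw x‖ = ‖phiTgt B hB hqM hne e' j hj S D hO hw x‖ := by
  rcases eq_or_ne x 0 with rfl | hx
  · rw [map_zero, map_zero]
  · have hu : (CD B hB hqM hne S D hO hw).unif 1 ≠ 0 :=
      unif_tgt_ne_zero (hj := hj) (nodeInput_modular B hB hqM hne e j hj S D hO hw)
    obtain ⟨n, w, rfl⟩ := (isDV_ofDatum D hO hw 1).exists_zpow hu x hx
    rw [norm_phiTgt_unif_zpow_mul, norm_phiTgt_unif_zpow_mul]

/-- the leading constants of `phiSrc e x` are those of `b1F (I e) x` -/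
theorem hasLead_phiSrc_iff (x : (CD B hB hqM hne S D hO hw).Lh 0)
    (c : K₁S (M := M) (q := q) j S) (a : ℤ) :
    HasLead (phiSrc B hB hqM hne e j hj S D hO hw x) c a ↔
      HasLead (b1F (nodeInput_modular B hB hqM hne e j hj S D hO hw) (isDV_ofDatum D hO hw 0) x)
        (thetaKinv B hB hqM hne e j S c) a := by
  constructor
  · intro h
    have hx : x ≠ 0 := by
      rintro rfl
      exact h.ne_zero (map_zero _)
    obtain ⟨c₀, a₀, h₀⟩ := exists_hasLead₁ (hj := hj)
      (nodeInput_modular B hB hqM hne e j hj S D hO hw) (isDV_ofDatum D hO hw 0) hx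
    have h1 := h₀.mapTwo (thetaK B hB hqM hne e j S) (norm_thetaK B hB hqM hne e j S)
    obtain ⟨hc, ha⟩ := h.unique h1
    rw [hc, ha, thetaKinv_thetaK]
    exact h₀
  · intro h
    have h1 := h.mapTwo (thetaK B hB hqM hne e j S) (norm_thetaK B hB hqM hne e j S)
    rw [thetaK_thetaKinv] at h1
    exact h1

/-- the leading constants of `phiTgt e x` are those of `b2F (I e) x` -/
theorem hasLead_phiTgt_iff (x : (CD B hB hqM hne S D hO hw).Lh 1)
    (c : K₁S (M := M) (q := q) j S) (a : ℤ) :
    HasLead (phiTgt B hB hqM hne e j hj S D hO hw x) c a ↔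
      HasLead (b2F (nodeInput_modular B hB hqM hne e j hj S D hO hw) (isDV_ofDatum D hO hw 1) x)
        (thetaKinv B hB hqM hne e j S c) a := by
  constructor
  · intro h
    have hx : x ≠ 0 := by
      rintro rfl
      exact h.ne_zero (map_zero _)
    obtain ⟨c₀, a₀, h₀⟩ := exists_hasLead₂ (hj := hj)
      (nodeInput_modular B hB hqM hne e j hj S D hO hw) (isDV_ofDatum D hO hw 1) hx
    have h1 := h₀.mapTwo (thetaK B hB hqM hne e j S) (norm_thetaK B hB hqM hne e j S)
    obtain ⟨hc, ha⟩ := h.unique h1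
    rw [hc, ha, thetaKinv_thetaK]
    exact h₀
  · intro h
    have h1 := h.mapTwo (thetaK B hB hqM hne e j S) (norm_thetaK B hB hqM hne e j S)
    rw [thetaK_thetaKinv] at h1
    exact h1

/-- **equivariance over `K₁S`** from the equivariance over `constK₁ (L e) S j`: `τ` an endomorphism of
`C.Lh 0`, `σ` and `σ'` isometric endomorphisms of `constK₁ (L e) S j` and of `K₁S` which agree in
`Ω`. -/
theorem phiSrc_equivariant
    (τ : (CD B hB hqM hne S D hO hw).Lh 0 →+* (CD B hB hqM hne S D hO hw).Lh 0)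
    (σ : constK₁ (annulusLevels_modular_final B hB hqM hne e) S j →+*
      constK₁ (annulusLevels_modular_final B hB hqM hne e) S j) (hσ : ∀ x, ‖σ x‖ = ‖x‖)
    (σ' : K₁S (M := M) (q := q) j S →+* K₁S (M := M) (q := q) j S) (hσ' : ∀ x, ‖σ' x‖ = ‖x‖)
    (hc : ∀ x, ((σ' (thetaK B hB hqM hne e j S x) : K₁S (M := M) (q := q) j S) : Ω) =
      ((σ x : constK₁ (annulusLevels_modular_final B hB hqM hne e) S j) : Ω))
    (hsq : ∀ x, b1F (nodeInput_modular B hB hqM hne e j hj S D hO hw) (isDV_ofDatum D hO hw 0)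
        (τ x) = mapCoeff σ hσ
      (b1F (nodeInput_modular B hB hqM hne e j hj S D hO hw) (isDV_ofDatum D hO hw 0) x))
    (x : (CD B hB hqM hne S D hO hw).Lh 0) :
    phiSrc B hB hqM hne e j hj S D hO hw (τ x) =
      mapCoeff σ' hσ' (phiSrc B hB hqM hne e j hj S D hO hw x) := by
  rw [phiSrc_apply, phiSrc_apply, hsq]
  exact mapCoeffTwo_mapCoeff (thetaK B hB hqM hne e j S) (norm_thetaK B hB hqM hne e j S) σ hσ σ'
    hσ' (fun y => Subtype.ext ((coe_thetaK B hB hqM hne e j S (σ y)).trans (hc y).symm)) _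

/-- **equivariance over `K₁S`**, component `1` -/
theorem phiTgt_equivariant
    (τ : (CD B hB hqM hne S D hO hw).Lh 1 →+* (CD B hB hqM hne S D hO hw).Lh 1)
    (σ : constK₁ (annulusLevels_modular_final B hB hqM hne e) S j →+*
      constK₁ (annulusLevels_modular_final B hB hqM hne e) S j) (hσ : ∀ x, ‖σ x‖ = ‖x‖)
    (σ' : K₁S (M := M) (q := q) j S →+* K₁S (M := M) (q := q) j S) (hσ' : ∀ x, ‖σ' x‖ = ‖x‖)
    (hc : ∀ x, ((σ' (thetaK B hB hqM hne e j S x) : K₁S (M := M) (q := q) j S) : Ω) =
      ((σ x : constK₁ (annulusLevels_modular_final B hB hqM hne e) S j) : Ω))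
    (hsq : ∀ x, b2F (nodeInput_modular B hB hqM hne e j hj S D hO hw) (isDV_ofDatum D hO hw 1)
        (τ x) = mapCoeff σ hσ
      (b2F (nodeInput_modular B hB hqM hne e j hj S D hO hw) (isDV_ofDatum D hO hw 1) x))
    (x : (CD B hB hqM hne S D hO hw).Lh 1) :
    phiTgt B hB hqM hne e j hj S D hO hw (τ x) =
      mapCoeff σ' hσ' (phiTgt B hB hqM hne e j hj S D hO hw x) := by
  rw [phiTgt_apply, phiTgt_apply, hsq]
  exact mapCoeffTwo_mapCoeff (thetaK B hB hqM hne e j S) (norm_thetaK B hB hqM hne e j S) σ hσ σ'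
    hσ' (fun y => Subtype.ext ((coe_thetaK B hB hqM hne e j S (σ y)).trans (hc y).symm)) _

end Fermat.Agent.FF4.ModularLead
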