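import Mathlib
import Fermat.Agent.FF3.ExpandBR.Functor
import Fermat.Agent.FF3.ExpandBR.Concrete
import Fermat.Agent.FF4.AmiceLead.Basic

/-!
# PROGRAMME II spike, K1-(b), step T4 / (2)+(iv): THE EXACT NODE IDENTITY FOR A FUNCTION WITH ZEROS
AND POLES INSIDE THE TUBE (helper5)

One level `i` of the tube `T` of a crossing point, `L : AnnulusLevels A T ι`, `(Ω, j, hj)`,
`K₁ = constK₁ L i j` the completed constants, `π₁ = thickK₁ L i j`, `levelExpand : R_i →+* NodeInt π₁`
(helper20), `expandB : R_i →+* NodeB π₁` its composition with the inclusion.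

`f ∈ Frac R_i` (`f * b = a`, `a b : R_i`), `S` a finite set of places of the tube containing all zeros
and poles of `f` in the tube, all RATIONAL over the level (`u(Q) ∈ K'_i`).  `fX`, `fY : BAmice K₁` the
two boundary expansions of `f`, GIVEN BY EQUATIONS `fX * toX (expand b) = toX (expand a)`,
`fY * toY (expand b) = toY (expand a)` (the shape of helper11's `lead_ratio_of_mul_eq` and of
helper20's `b1F_emb_mul`).  If `fX` has leading constant `cX` and order `aX`, `fY` has `cY`, `aY`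
(helper11's `HasLead`), then

  `cY = cX * π₁ ^ (-aY) * ∏ Q ∈ S, (-u(Q)) ^ ord_Q f`     and     `aX + aY = ∑ Q ∈ S, ord_Q f`

(`tube_lead_ratio`; the identity of constants is stated in `Ω`).  With `ord_Q f = p * m_Q` this is
`Λ_{1,e}(f) / Λ_{0,e}(f) = π_e ^ a_e * A_e ^ p`, `a_e = -aY`, `A_e = ∏ (-u(Q)) ^ m_Q`: T4 of #1834.

Proof: `z := f / ∏ (u - u(Q)) ^ ord_Q f` has no zero or pole on the tube (`AnnulusLevels.ord_div_prod`),
so `z = d * u ^ β * ε` with `ε` a unit of `R_i` (`ExpandBR.exists_unit_form`, from `(N2)`); `d ∈ K'_i`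
by the hypothesis `hK'` (the constants of `Frac R_i` are `K'_i`); the resulting identity in `R_i` is
expanded, and the leading constants of both sides are compared on the two circles
(`HasLead.mul`, `HasLead.unique`, `hasLead_toY_of_isUnit` for `expand ε`, `hasLead_to?_lin`).
-/

set_option autoImplicit false
set_option linter.unusedSectionVars false
set_option linter.unusedVariables false

noncomputable section

namespace Fermat.Agent.FF4.TubeLead

open AlgebraicCurve IsLocalRing Fermat.Agent.Red Fermat.Agent.BR.Centre Fermat.Agent.BR.S0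
  Fermat.Agent.FF3 Fermat.Agent.FF3.Amice Fermat.Agent.FF3.ExpandBR Fermat.Agent.FF3.NodeRing
  Fermat.Agent.FF3.AmiceU Fermat.Agent.FF4.AmiceLead

attribute [local instance] normedAlgebraSubfield

variable {K F : Type*} [Field K] [Field F] [Algebra K F]
  {A : ValuationSubring K} {T : Set (Place K F)} {ι : Type*}
  (L : AnnulusLevels A T ι) (i : ι)
  {Ω : Type*} [NormedField Ω] [IsUltrametricDist Ω] [CompleteSpace Ω]
  (j : K →+* Ω) (hj : ∀ c : K, ‖j c‖ ≤ 1 ↔ c ∈ A)
  (hfull : LevelFullRes L i) (hcol : DenseNearOne j)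

/-- the expansion at the node, with values in the node algebra -/
def expandB : (L.level i).R →+* NodeB (thickK₁ L i j) :=
  (nodeInt (thickK₁ L i j)).subtype.comp (levelExpand L i j hj hfull hcol)

theorem expandB_apply (y : (L.level i).R) :
    expandB L i j hj hfull hcol y =
      ((levelExpand L i j hj hfull hcol y : NodeInt (thickK₁ L i j)) : NodeB (thickK₁ L i j)) := rfl

theorem expandB_u :
    expandB L i j hj hfull hcol (uR L i) = X (thickK₁_ne_zero L i j hj) := by
  rw [expandB_apply, levelExpand_u, coe_XInt]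

theorem expandB_const (c : levelConst L i) :
    expandB L i j hj hfull hcol (constHom L i c) =
      algebraMap (constK₁ L i j) (NodeB (thickK₁ L i j)) (constToK₁ L i j c) := by
  rw [expandB_apply, levelExpand_const, coe_cInt]

theorem expandB_lin (c : levelConst L i) :
    expandB L i j hj hfull hcol (uR L i - constHom L i c) =
      lin (thickK₁_ne_zero L i j hj) (constToK₁ L i j c) := by
  rw [map_sub, expandB_u, expandB_const]
  rfl

theorem expandB_injective : Function.Injective (expandB L i j hj hfull hcol) := fun x y h =>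
  levelExpand_injective L i j hj hfull hcol (Subtype.ext h)


/-! ### the points of the tube which are rational over the level -/

section Points

/-- the value of `u` at a place of the tube is a constant of absolute value in `(|thick|, 1)` -/
theorem evalAt_u_spec {Q : Place K F} (hQ : Q ∈ T) :
    A.valuation L.thick < A.valuation (evalAt Q L.u) ∧ A.valuation (evalAt Q L.u) < 1 := by
  obtain ⟨c, hc, h1, h2⟩ := L.val_mem Q hQ
  rw [evalAt_eq_of_isValueAt hc]
  exact ⟨h1, h2⟩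

variable {L i} in
/-- the value of `u` at a rational place of the tube, as a constant of the level -/
def ptW {Q : Place K F} (hQ : Q ∈ T) (hK : evalAt Q L.u ∈ (L.level i).K') : levelConst L i :=
  ⟨evalAt Q L.u, (mem_levelConst L i).mpr
    ⟨(A.valuation_le_one_iff _).mp (evalAt_u_spec L hQ).2.le, hK⟩⟩

variable {L i} in
@[simp] theorem coe_ptW {Q : Place K F} (hQ : Q ∈ T) (hK : evalAt Q L.u ∈ (L.level i).K') :
    ((ptW hQ hK : levelConst L i) : K) = evalAt Q L.u := rfl

include hj in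
theorem norm_thick_lt_norm_ptW {Q : Place K F} (hQ : Q ∈ T)
    (hK : evalAt Q L.u ∈ (L.level i).K') :
    ‖thickK₁ L i j‖ < ‖constToK₁ L i j (ptW hQ hK)‖ := by
  have h0 : evalAt Q L.u ≠ 0 := by
    intro h0
    have := (evalAt_u_spec L hQ).1
    rw [h0, map_zero] at this
    exact absurd this (not_lt.mpr zero_le)
  show ‖j L.thick‖ < ‖j (evalAt Q L.u)‖
  exact (norm_lt_norm_iff j hj _ h0).mpr (evalAt_u_spec L hQ).1

include hj in
theorem norm_ptW_lt_one {Q : Place K F} (hQ : Q ∈ T) (hK : evalAt Q L.u ∈ (L.level i).K') :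
    ‖constToK₁ L i j (ptW hQ hK)‖ < 1 := by
  show ‖j (evalAt Q L.u)‖ < 1
  exact (norm_lt_one_iff j hj _).mpr (evalAt_u_spec L hQ).2

end Points


/-! ### leading constants of the coordinate and of products of linear factors -/

section Leads

variable {K₁ : Type*} [NormedField K₁] [IsUltrametricDist K₁] [CompleteSpace K₁] {π : K₁}

theorem hasLead_toX_X (hπ : π ≠ 0) : HasLead (toX (X hπ)) 1 1 := by
  have h := hasLead_X_zpow (K := K₁) 1
  rwa [zpow_one] at h

theorem hasLead_toY_X (hπ : π ≠ 0) : HasLead (toY (X hπ)) π (-1) := by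
  have h := (hasLead_X_zpow (K := K₁) (-1)).const_mul hπ
  rw [mul_one] at h
  rw [toY_X, Algebra.smul_def, zpow_neg_one] at *
  exact h

theorem hasLead_toX_prod_lin (hπ : π ≠ 0) {κ : Type*} (s : Finset κ) (α : κ → K₁) (m : κ → ℕ)
    (hα1 : ∀ i ∈ s, ‖α i‖ < 1) :
    HasLead (toX (∏ i ∈ s, lin hπ (α i) ^ m i)) 1 (∑ i ∈ s, (m i : ℤ)) := by
  have h := hasLead_toX_unit_mul_prod (π := π) hπ s α m hα1 (u := 1) (c := 1) (a := 0)
    (by rw [map_one]; exact hasLead_one)
  rwa [one_mul, zero_add] at h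

theorem hasLead_toY_prod_lin {ϖ : K₁} (hϖ : IsDiscreteNorm ϖ) (hπ : π ≠ 0) (hπ1 : ‖π‖ < 1)
    {κ : Type*} (s : Finset κ) (α : κ → K₁) (m : κ → ℕ) (hα : ∀ i ∈ s, ‖π‖ < ‖α i‖) :
    HasLead (toY (∏ i ∈ s, lin hπ (α i) ^ m i)) (∏ i ∈ s, (-α i) ^ m i) 0 := by
  have h := hasLead_toY_unit_mul_prod hϖ hπ hπ1 s α m hα (u := 1) isUnit_one (c := 1) (a := 0)
    (by rw [map_one]; exact hasLead_one)
  rwa [one_mul, zpow_zero, one_mul, one_mul, neg_zero] at h

end Leads


/-! ### the identity -/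

section Main

open Classical in
/-- **T4: the exact node identity for a function with zeros and poles inside the tube.** -/
theorem tube_lead_ratio
    (hK' : ∀ c : K, c ≠ 0 → (∃ r₁ r₂ : (L.level i).R, r₂ ≠ 0 ∧
      algebraMap K F c * (r₂ : F) = (r₁ : F)) → c ∈ (L.level i).K')
    {f : F} (hf : f ≠ 0) {a b : (L.level i).R} (hb : b ≠ 0) (hab : f * (b : F) = (a : F))
    (S : Finset (Place K F)) (hST : ∀ Q ∈ S, Q ∈ T) (hS : ∀ P ∈ T, P.ord f ≠ 0 → P ∈ S)
    (hrat : ∀ Q ∈ S, evalAt Q L.u ∈ (L.level i).K')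
    {fX fY : BAmice (constK₁ L i j)}
    (hfX : fX * toX (expandB L i j hj hfull hcol b) = toX (expandB L i j hj hfull hcol a))
    (hfY : fY * toY (expandB L i j hj hfull hcol b) = toY (expandB L i j hj hfull hcol a))
    {cX cY : constK₁ L i j} {aX aY : ℤ} (hX : HasLead fX cX aX) (hY : HasLead fY cY aY) :
    ((cY : constK₁ L i j) : Ω) =
        (cX : Ω) * j L.thick ^ (-aY) * ∏ Q ∈ S, (-(j (evalAt Q L.u))) ^ (Q.ord f)
      ∧ aX + aY = ∑ Q ∈ S, Q.ord f := by
  classical
  have hπ := thickK₁_ne_zero L i j hj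
  have hπ1 := norm_thickK₁_lt_one L i j hj
  have hϖ := isDiscreteNorm_unifK₁ L i j hj
  set E := expandB L i j hj hfull hcol with hE
  -- the points
  let cW : Place K F → levelConst L i := fun Q =>
    if h : Q ∈ S then ptW (hST Q h) (hrat Q h) else 0
  have hcW : ∀ Q ∈ S, ((cW Q : levelConst L i) : K) = evalAt Q L.u := by
    intro Q hQ
    simp only [cW, dif_pos hQ, coe_ptW]
  let α : Place K F → constK₁ L i j := fun Q => constToK₁ L i j (cW Q)
  have hαΩ : ∀ Q ∈ S, ((α Q : constK₁ L i j) : Ω) = j (evalAt Q L.u) := by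
    intro Q hQ
    show j ((cW Q : levelConst L i) : K) = _
    rw [hcW Q hQ]
  have hα : ∀ Q ∈ S, ‖thickK₁ L i j‖ < ‖α Q‖ := by
    intro Q hQ
    simp only [α, cW, dif_pos hQ]
    exact norm_thick_lt_norm_ptW L i j hj (hST Q hQ) (hrat Q hQ)
  have hα1 : ∀ Q ∈ S, ‖α Q‖ < 1 := by
    intro Q hQ
    simp only [α, cW, dif_pos hQ]
    exact norm_ptW_lt_one L i j hj (hST Q hQ) (hrat Q hQ)
  let g : Place K F → (L.level i).R := fun Q => uR L i - constHom L i (cW Q)
  have hgF : ∀ Q ∈ S, ((g Q : (L.level i).R) : F) = L.u - algebraMap K F (evalAt Q L.u) := by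
    intro Q hQ
    show L.u - algebraMap K F ((cW Q : levelConst L i) : K) = _
    rw [hcW Q hQ]
  have hgE : ∀ Q, E (g Q) = lin hπ (α Q) := fun Q => expandB_lin L i j hj hfull hcol (cW Q)
  have hg0 : ∀ Q ∈ S, ((g Q : (L.level i).R) : F) ≠ 0 := by
    intro Q hQ h0
    have := L.simple Q (hST Q hQ)
    rw [← hgF Q hQ, h0, Place.ord_zero] at this
    exact zero_ne_one this
  -- the exponents
  let m : Place K F → ℕ := fun Q => (Q.ord f).toNat
  let n : Place K F → ℕ := fun Q => (-Q.ord f).toNat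
  have hmn : ∀ Q, (m Q : ℤ) - (n Q : ℤ) = Q.ord f := fun Q => by
    simp only [m, n]; omega
  let PrP : (L.level i).R := ∏ Q ∈ S, g Q ^ m Q
  let PrM : (L.level i).R := ∏ Q ∈ S, g Q ^ n Q
  set Pr : F := ∏ Q ∈ S, (L.u - algebraMap K F (evalAt Q L.u)) ^ Q.ord f with hPr
  have hcoeP : ∀ k : Place K F → ℕ, ((∏ Q ∈ S, g Q ^ k Q : (L.level i).R) : F) =
      ∏ Q ∈ S, ((g Q : (L.level i).R) : F) ^ k Q := by
    intro k
    have := map_prod (L.level i).R.subtype (fun Q => g Q ^ k Q) S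
    simp only [map_pow, Subring.coe_subtype] at this
    exact this
  have hPrP0 : (PrP : F) ≠ 0 := by
    show ((∏ Q ∈ S, g Q ^ m Q : (L.level i).R) : F) ≠ 0
    rw [hcoeP]
    exact Finset.prod_ne_zero_iff.mpr fun Q hQ => pow_ne_zero _ (hg0 Q hQ)
  have hPrM0 : (PrM : F) ≠ 0 := by
    show ((∏ Q ∈ S, g Q ^ n Q : (L.level i).R) : F) ≠ 0
    rw [hcoeP]
    exact Finset.prod_ne_zero_iff.mpr fun Q hQ => pow_ne_zero _ (hg0 Q hQ)
  have hPr_eq : Pr * (PrM : F) = (PrP : F) := by
    show Pr * ((∏ Q ∈ S, g Q ^ n Q : (L.level i).R) : F) =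
      ((∏ Q ∈ S, g Q ^ m Q : (L.level i).R) : F)
    rw [hcoeP, hcoeP, hPr, ← Finset.prod_mul_distrib]
    apply Finset.prod_congr rfl
    intro Q hQ
    have h0 := hg0 Q hQ
    rw [hgF Q hQ] at h0 ⊢
    rw [← hmn Q, zpow_sub₀ h0, zpow_natCast, zpow_natCast]
    field_simp
  have hPr0 : Pr ≠ 0 := by
    intro h0
    rw [h0, zero_mul] at hPr_eq
    exact hPrP0 hPr_eq.symm
  -- the function without zeros and poles on the tube
  set z : F := f * Pr⁻¹ with hz
  have hz0 : z ≠ 0 := mul_ne_zero hf (inv_ne_zero hPr0)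
  have hord : ∀ P ∈ T, P.ord z = 0 := fun P hP => L.ord_div_prod hf S hST hS hP
  have hbP0 : b * PrP ≠ 0 := by
    intro h0
    have h1 := congrArg (fun x : (L.level i).R => (x : F)) h0
    simp only [Subring.coe_mul, ZeroMemClass.coe_zero] at h1
    rcases mul_eq_zero.mp h1 with h2 | h2
    · exact hb (Subtype.ext h2)
    · exact hPrP0 h2
  have hfrac : z * ((b * PrP : (L.level i).R) : F) = ((a * PrM : (L.level i).R) : F) := by
    rw [Subring.coe_mul, Subring.coe_mul, ← hab, ← hPr_eq, hz]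
    field_simp
  obtain ⟨d, β, ε, hd, hε, hzε⟩ := exists_unit_form L i hz0 ⟨a * PrM, b * PrP, hbP0, hfrac⟩ hord
  -- the exponent of `u`
  let n' : ℕ := β.toNat
  let m' : ℕ := (-β).toNat
  have hβ : β = (n' : ℤ) - (m' : ℤ) := by simp only [n', m']; omega
  have hu0 : L.u ≠ 0 := L.u_ne_zero
  have hε0 : (ε : F) ≠ 0 := by
    intro h0
    have : ε = 0 := Subtype.ext h0
    rw [this] at hε
    exact not_isUnit_zero hε
  -- the key identity in `F`
  have hkeyF : algebraMap K F d * (L.u ^ n' * (ε : F) * ((b : F) * (PrP : F))) =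
      (a : F) * (PrM : F) * L.u ^ m' := by
    have h1 : z * ((b : F) * (PrP : F)) = (a : F) * (PrM : F) := by
      have := hfrac
      rwa [Subring.coe_mul, Subring.coe_mul] at this
    rw [← h1, hzε, hβ, zpow_sub₀ hu0, zpow_natCast, zpow_natCast]
    field_simp
  -- `d` is a constant of the level
  have hdK : d ∈ (L.level i).K' := by
    refine hK' d hd ⟨a * PrM * uR L i ^ m', uR L i ^ n' * ε * (b * PrP), ?_, ?_⟩
    · intro h0
      have h1 := congrArg (fun x : (L.level i).R => (x : F)) h0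
      simp only [Subring.coe_mul, Subring.coe_pow, ZeroMemClass.coe_zero] at h1
      have h2 : (L.u ^ n' * (ε : F)) * ((b : F) * (PrP : F)) ≠ 0 :=
        mul_ne_zero (mul_ne_zero (pow_ne_zero _ hu0) hε0)
          (mul_ne_zero (fun h => hb (Subtype.ext h)) hPrP0)
      exact h2 h1
    · simp only [Subring.coe_mul, Subring.coe_pow]
      exact hkeyF
  obtain ⟨d₁, d₂, hd₂0, hd12⟩ : ∃ d₁ d₂ : levelConst L i, (d₂ : K) ≠ 0 ∧
      d * (d₂ : K) = (d₁ : K) := by
    by_cases hdA : d ∈ A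
    · exact ⟨⟨d, (mem_levelConst L i).mpr ⟨hdA, hdK⟩⟩, 1, by simp, by simp⟩
    · have hdi : d⁻¹ ∈ A := (A.mem_or_inv_mem d).resolve_left hdA
      refine ⟨1, ⟨d⁻¹, (mem_levelConst L i).mpr ⟨hdi, (L.level i).K'.inv_mem hdK⟩⟩,
        inv_ne_zero hd, ?_⟩
      show d * d⁻¹ = ((1 : levelConst L i) : K)
      rw [mul_inv_cancel₀ hd]
      rfl
  have hd₁0 : (d₁ : K) ≠ 0 := by rw [← hd12]; exact mul_ne_zero hd hd₂0
  -- the identity in the level ring
  have hkeyR : constHom L i d₂ * uR L i ^ m' * (a * PrM) =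
      constHom L i d₁ * uR L i ^ n' * ε * (b * PrP) := by
    apply Subtype.ext
    simp only [Subring.coe_mul, Subring.coe_pow, coe_constHom]
    show algebraMap K F (d₂ : K) * L.u ^ m' * ((a : F) * (PrM : F)) =
      algebraMap K F (d₁ : K) * L.u ^ n' * (ε : F) * ((b : F) * (PrP : F))
    rw [← hd12, map_mul]
    linear_combination (-(algebraMap K F (d₂ : K))) * hkeyF
  -- its expansion
  set PM : NodeB (thickK₁ L i j) := ∏ Q ∈ S, lin hπ (α Q) ^ n Q with hPM
  set PP : NodeB (thickK₁ L i j) := ∏ Q ∈ S, lin hπ (α Q) ^ m Q with hPP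
  have hEM : E PrM = PM := by
    show E (∏ Q ∈ S, g Q ^ n Q) = _
    rw [map_prod]
    exact Finset.prod_congr rfl fun Q _ => by rw [map_pow, hgE]
  have hEP : E PrP = PP := by
    show E (∏ Q ∈ S, g Q ^ m Q) = _
    rw [map_prod]
    exact Finset.prod_congr rfl fun Q _ => by rw [map_pow, hgE]
  set d₁' : constK₁ L i j := constToK₁ L i j d₁ with hd₁'
  set d₂' : constK₁ L i j := constToK₁ L i j d₂ with hd₂'
  have hd₁'0 : d₁' ≠ 0 := by
    intro h0
    have h1 := congrArg (fun x : constK₁ L i j => (x : Ω)) h0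
    exact (map_ne_zero j).mpr hd₁0 h1
  have hd₂'0 : d₂' ≠ 0 := by
    intro h0
    have h1 := congrArg (fun x : constK₁ L i j => (x : Ω)) h0
    exact (map_ne_zero j).mpr hd₂0 h1
  have hEq : algebraMap (constK₁ L i j) (NodeB (thickK₁ L i j)) d₂' * X hπ ^ m' * (E a * PM) =
      algebraMap (constK₁ L i j) (NodeB (thickK₁ L i j)) d₁' * X hπ ^ n' * E ε * (E b * PP) := by
    have h := congrArg E hkeyR
    simp only [map_mul, map_pow] at h
    rw [hEM, hEP] at h
    rw [hE, expandB_const, expandB_const, expandB_u] at h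
    exact h
  -- the leading constants of the factors
  have hEb0 : E b ≠ 0 := fun h0 => hb (expandB_injective L i j hj hfull hcol (by rw [← hE, h0, map_zero]))
  have hXb0 : toX (E b) ≠ 0 := fun h0 => hEb0 (toX_injective hπ (by rw [h0, map_zero]))
  have hYb0 : toY (E b) ≠ 0 := fun h0 => hEb0 (toY_injective hπ (by rw [h0, map_zero]))
  obtain ⟨cb, ab, hlb⟩ := exists_hasLead hϖ hXb0
  obtain ⟨cb', ab', hlb'⟩ := exists_hasLead hϖ hYb0
  have hεu : IsUnit (E ε) := hε.map E
  have hEε0 : E ε ≠ 0 := fun h0 => hε0 (congrArg (fun x : (L.level i).R => (x : F))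
    (expandB_injective L i j hj hfull hcol (by rw [← hE, h0, map_zero]) : ε = 0))
  have hXε0 : toX (E ε) ≠ 0 := fun h0 => hEε0 (toX_injective hπ (by rw [h0, map_zero]))
  obtain ⟨cε, aε, hlε⟩ := exists_hasLead hϖ hXε0
  have hlεY := hasLead_toY_of_isUnit hϖ hπ hπ1 hεu hlε
  have hcb0 := hlb.const_ne_zero
  have hcb'0 := hlb'.const_ne_zero
  -- the outer circle
  have hEX : algebraMap (constK₁ L i j) (BAmice (constK₁ L i j)) d₂' * toX (X hπ) ^ m' *
        (fX * toX (E b)) * toX PM =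
      algebraMap (constK₁ L i j) (BAmice (constK₁ L i j)) d₁' * toX (X hπ) ^ n' * toX (E ε) *
        (toX (E b) * toX PP) := by
    have h := congrArg toX hEq
    simp only [map_mul, map_pow, AlgHom.commutes] at h
    rw [← hfX] at h
    linear_combination h
  have LX := (((hasLead_algebraMap hd₂'0).mul ((hasLead_toX_X hπ).pow m')).mul (hX.mul hlb)).mul
    (hasLead_toX_prod_lin hπ S α n hα1)
  have RX := (((hasLead_algebraMap hd₁'0).mul ((hasLead_toX_X hπ).pow n')).mul hlε).mul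
    (hlb.mul (hasLead_toX_prod_lin hπ S α m hα1))
  rw [hEX] at LX
  obtain ⟨h1, h2⟩ := LX.unique RX
  -- the inner circle
  have hEY : algebraMap (constK₁ L i j) (BAmice (constK₁ L i j)) d₂' * toY (X hπ) ^ m' *
        (fY * toY (E b)) * toY PM =
      algebraMap (constK₁ L i j) (BAmice (constK₁ L i j)) d₁' * toY (X hπ) ^ n' * toY (E ε) *
        (toY (E b) * toY PP) := by
    have h := congrArg toY hEq
    simp only [map_mul, map_pow, AlgHom.commutes] at h
    rw [← hfY] at h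
    linear_combination h
  have LY := (((hasLead_algebraMap hd₂'0).mul ((hasLead_toY_X hπ).pow m')).mul (hY.mul hlb')).mul
    (hasLead_toY_prod_lin hϖ hπ hπ1 S α n hα)
  have RY := (((hasLead_algebraMap hd₁'0).mul ((hasLead_toY_X hπ).pow n')).mul hlεY).mul
    (hlb'.mul (hasLead_toY_prod_lin hϖ hπ hπ1 S α m hα))
  rw [hEY] at LY
  obtain ⟨h3, h4⟩ := LY.unique RY
  -- the arithmetic
  have hsum : ∑ Q ∈ S, Q.ord f = ∑ Q ∈ S, (m Q : ℤ) - ∑ Q ∈ S, (n Q : ℤ) := by
    rw [← Finset.sum_sub_distrib]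
    exact Finset.sum_congr rfl fun Q _ => (hmn Q).symm
  refine ⟨?_, by omega⟩
  have hαne : ∀ Q ∈ S, -α Q ≠ 0 := fun Q hQ => neg_ne_zero.mpr fun h0 => by
    have := hα Q hQ
    rw [h0, norm_zero] at this
    exact absurd this (not_lt.mpr (norm_nonneg _))
  have hK₁ : cY = cX * thickK₁ L i j ^ (-aY) * ∏ Q ∈ S, (-α Q) ^ (Q.ord f) := by
    have hprod : ∏ Q ∈ S, (-α Q) ^ (Q.ord f) =
        (∏ Q ∈ S, (-α Q) ^ m Q) / ∏ Q ∈ S, (-α Q) ^ n Q := by
      rw [← Finset.prod_div_distrib]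
      exact Finset.prod_congr rfl fun Q hQ => by
        rw [← hmn Q, zpow_sub₀ (hαne Q hQ), zpow_natCast, zpow_natCast]
    have hpM0 : ∏ Q ∈ S, (-α Q) ^ n Q ≠ 0 :=
      Finset.prod_ne_zero_iff.mpr fun Q hQ => pow_ne_zero _ (hαne Q hQ)
    have haY : -aY = (n' : ℤ) + aε - (m' : ℤ) := by omega
    have key1 : d₂' * cX = d₁' * cε := by
      apply mul_right_cancel₀ hcb0
      linear_combination h1
    rw [hprod, haY, zpow_sub₀ hπ, zpow_add₀ hπ, zpow_natCast, zpow_natCast]
    generalize (∏ Q ∈ S, (-α Q) ^ m Q) = P at *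
    generalize (∏ Q ∈ S, (-α Q) ^ n Q) = Mn at *
    generalize thickK₁ L i j ^ aε = tε at *
    have ht0 : thickK₁ L i j ^ m' ≠ 0 := pow_ne_zero _ hπ
    have key3 : cY * (thickK₁ L i j ^ m' * Mn) = cX * (thickK₁ L i j ^ n' * tε) * P := by
      apply mul_left_cancel₀ (mul_ne_zero hd₂'0 hcb'0)
      linear_combination h3 - (thickK₁ L i j ^ n' * tε * cb' * P) * key1
    field_simp
    linear_combination key3
  have h5 := congrArg (constK₁ L i j).subtype hK₁
  simp only [map_mul, map_zpow₀, map_prod, map_neg, Subfield.coe_subtype] at h5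
  rw [h5, coe_thickK₁]
  congr 1
  exact Finset.prod_congr rfl fun Q hQ => by rw [hαΩ Q hQ]

/-- **T4 for a divisor divisible by `p` on the tube**: if `ord_Q f = p * μ Q` for all `Q ∈ S` then
`cY = cX * π₁ ^ (-aY) * A ^ p` with `A = ∏ Q ∈ S, (-u(Q)) ^ μ Q`. -/
theorem tube_lead_ratio_pow
    (hK' : ∀ c : K, c ≠ 0 → (∃ r₁ r₂ : (L.level i).R, r₂ ≠ 0 ∧
      algebraMap K F c * (r₂ : F) = (r₁ : F)) → c ∈ (L.level i).K')
    {f : F} (hf : f ≠ 0) {a b : (L.level i).R} (hb : b ≠ 0) (hab : f * (b : F) = (a : F))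
    (S : Finset (Place K F)) (hST : ∀ Q ∈ S, Q ∈ T) (hS : ∀ P ∈ T, P.ord f ≠ 0 → P ∈ S)
    (hrat : ∀ Q ∈ S, evalAt Q L.u ∈ (L.level i).K')
    (p : ℕ) (μ : Place K F → ℤ) (hμ : ∀ Q ∈ S, Q.ord f = (p : ℤ) * μ Q)
    {fX fY : BAmice (constK₁ L i j)}
    (hfX : fX * toX (expandB L i j hj hfull hcol b) = toX (expandB L i j hj hfull hcol a))
    (hfY : fY * toY (expandB L i j hj hfull hcol b) = toY (expandB L i j hj hfull hcol a))
    {cX cY : constK₁ L i j} {aX aY : ℤ} (hX : HasLead fX cX aX) (hY : HasLead fY cY aY) :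
    ((cY : constK₁ L i j) : Ω) =
        (cX : Ω) * j L.thick ^ (-aY) * (∏ Q ∈ S, (-(j (evalAt Q L.u))) ^ (μ Q)) ^ p
      ∧ aX + aY = (p : ℤ) * ∑ Q ∈ S, μ Q := by
  obtain ⟨h1, h2⟩ := tube_lead_ratio L i j hj hfull hcol hK' hf hb hab S hST hS hrat hfX hfY hX hY
  refine ⟨?_, ?_⟩
  · rw [h1, ← Finset.prod_pow]
    congr 1
    exact Finset.prod_congr rfl fun Q hQ => by
      rw [hμ Q hQ, mul_comm, zpow_mul, zpow_natCast]
  · rw [h2, Finset.mul_sum]
    exact Finset.sum_congr rfl fun Q hQ => hμ Q hQ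

end Main

end Fermat.Agent.FF4.TubeLead
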