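/-
PROGRAMME II (S40), kernel K1, node N7 (GeoAssembly), the T4 plug (helper5):
THE NODE IDENTITY `hnode` OF `AmiceLead.k1_gamma` FOR THE BOUNDARY MAPS `b1F`, `b2F`.

Abstract over a node input `I : ExpandBR.NodeInput Xb i j hj hfull hcol C` (helper20's setting of
`FF4/BdryFrac`), `K₁ = constK₁ L i j`, `hϖ = isDiscreteNorm_unifK₁ L i j hj`.

For `h ∈ F₀` nonzero, `h * b = a` with `a b` in the level ring, `S` the zeros and poles of `h` in the
tube, rational over the level, `ord_Q h = p μ_Q`: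

  `leadC (b2F (emb h)) = leadC (b1F (emb h)) * π₁ ^ a_e * A₁ ^ p`,
  `a_e = - leadOrd (b2F (emb h))`,  `A₁ ∈ K₁` with `(A₁ : Ω) = ∏ Q ∈ S, (-(j (u(Q)))) ^ μ_Q`, `A₁ ≠ 0`,

and `leadOrd (b1F (emb h)) + leadOrd (b2F (emb h)) = p ∑ μ_Q`.
This is `FF4/TubeLead.tube_lead_ratio_pow` at `fX = b1F (emb h)`, `fY = b2F (emb h)`
(`BdryFrac.b1F_emb_mul`, `b2F_emb_mul`), pulled back from `Ω` to `K₁`.
-/
import Mathlib
import Fermat.Agent.FF4.TubeLead
import Fermat.Agent.FF4.BdryFrac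
import Fermat.Agent.FF4.AmiceLead.IsLeadInst

set_option autoImplicit false
set_option linter.unusedSectionVars false

noncomputable section

namespace Fermat.Agent.FF4.NodeIdentity

open AlgebraicCurve IsLocalRing Fermat.Agent.Red Fermat.Agent.BR.Centre Fermat.Agent.BR.SS
  Fermat.Agent.BR.Refine Fermat.Agent.BR.S0 Fermat.Agent.BR.S0.AnnulusChartOfLevels
  Fermat.Agent.FF3 Fermat.Agent.FF3.Amice Fermat.Agent.FF3.B4 Fermat.Agent.FF3.ExpandBR
  Fermat.Agent.FF3.NodeRing Fermat.Agent.FF4.AmiceLead Fermat.Agent.FF4.BdryFrac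
  Fermat.Agent.FF4.TubeLead

attribute [local instance] normedAlgebraSubfield
attribute [local instance] nontrivial_bAmice

universe u w

variable {K : Type} {F : Type u} [Field K] [Field F] [Algebra K F]
  {A : ValuationSubring K} [IsAlgClosed (ResidueField A)]
  {ι₀ : Type} {Ft₀ : ι₀ → Type} [∀ v, Field (Ft₀ v)] [∀ v, Algebra (ResidueField A) (Ft₀ v)]
  {ν₀ : Type} {S₀ : SemistableSetup (F := F) A (residue A) ι₀ Ft₀ ν₀} {e : ν₀} {ι : Type*}
  {L : AnnulusLevels A (tube S₀ e) ι} {Xb : BranchData S₀ e L} {i : ι}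
  {Ω : Type w} [NormedField Ω] [IsUltrametricDist Ω] [CompleteSpace Ω]
  {j : K →+* Ω} {hj : ∀ c : K, ‖j c‖ ≤ 1 ↔ c ∈ A}
  {hfull : LevelFullRes L i} {hcol : DenseNearOne j}
  {F₀ : Subfield F} {ϖ₀ : F₀} {C : CompPack.{0, u, 0, 0, 0, 0, w} S₀ F₀ ϖ₀}
  (I : NodeInput Xb i j hj hfull hcol C)

include hj in
/-- **the tube factor lives in `K₁`**: for places of the tube rational over the level,
`∏ Q ∈ S, (-(j (u(Q)))) ^ μ_Q` is (the image of) a nonzero element of `K₁`. -/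
theorem exists_tubeConst (S : Finset (Place K F)) (hST : ∀ Q ∈ S, Q ∈ tube S₀ e)
    (hrat : ∀ Q ∈ S, evalAt Q L.u ∈ (L.level i).K') (μ : Place K F → ℤ) :
    ∃ A₁ : constK₁ L i j, A₁ ≠ 0 ∧
      ((A₁ : constK₁ L i j) : Ω) = ∏ Q ∈ S, (-(j (evalAt Q L.u))) ^ μ Q := by
  classical
  let cW : Place K F → levelConst L i := fun Q =>
    if h : Q ∈ S then ptW (hST Q h) (hrat Q h) else 0
  have hcW : ∀ Q ∈ S, ((constToK₁ L i j (cW Q) : constK₁ L i j) : Ω) = j (evalAt Q L.u) := by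
    intro Q hQ
    show j ((cW Q : levelConst L i) : K) = _
    simp only [cW, dif_pos hQ, coe_ptW]
  have hne : ∀ Q ∈ S, constToK₁ L i j (cW Q) ≠ 0 := by
    intro Q hQ h0
    have h1 := norm_thick_lt_norm_ptW L i j hj (hST Q hQ) (hrat Q hQ)
    have h2 : constToK₁ L i j (ptW (hST Q hQ) (hrat Q hQ)) = 0 := by
      simpa only [cW, dif_pos hQ] using h0
    rw [h2, norm_zero] at h1
    exact absurd h1 (not_lt.mpr (norm_nonneg _))
  refine ⟨∏ Q ∈ S, (-(constToK₁ L i j (cW Q))) ^ μ Q, ?_, ?_⟩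
  · rw [Finset.prod_ne_zero_iff]
    intro Q hQ
    exact zpow_ne_zero _ (neg_ne_zero.mpr (hne Q hQ))
  · have hcoe : ∀ x : constK₁ L i j, ((x : constK₁ L i j) : Ω) = (constK₁ L i j).subtype x :=
      fun _ => rfl
    rw [hcoe, map_prod]
    refine Finset.prod_congr rfl fun Q hQ => ?_
    rw [map_zpow₀, map_neg, ← hcoe, hcW Q hQ]

/-- **the node identity `hnode`** for the boundary expansions of a rational function. -/
theorem node_identity (hdvS : IsDV C (S₀.src e)) (hdvT : IsDV C (S₀.tgt e))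
    (hK' : ∀ c : K, c ≠ 0 → (∃ r₁ r₂ : (L.level i).R, r₂ ≠ 0 ∧
      algebraMap K F c * (r₂ : F) = (r₁ : F)) → c ∈ (L.level i).K')
    {h : F₀} (hh : h ≠ 0) {a b : (L.level i).R} (hb : b ≠ 0)
    (hab : (h : F) * (b : F) = (a : F))
    (S : Finset (Place K F)) (hST : ∀ Q ∈ S, Q ∈ tube S₀ e)
    (hS : ∀ P ∈ tube S₀ e, P.ord (h : F) ≠ 0 → P ∈ S)
    (hrat : ∀ Q ∈ S, evalAt Q L.u ∈ (L.level i).K')
    (p : ℕ) (μ : Place K F → ℤ) (hμ : ∀ Q ∈ S, Q.ord (h : F) = (p : ℤ) * μ Q)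
    {A₁ : constK₁ L i j}
    (hA₁ : ((A₁ : constK₁ L i j) : Ω) = ∏ Q ∈ S, (-(j (evalAt Q L.u))) ^ μ Q) :
    leadC (isDiscreteNorm_unifK₁ L i j hj) (b2F I hdvT (C.emb (S₀.tgt e) h)) =
        leadC (isDiscreteNorm_unifK₁ L i j hj) (b1F I hdvS (C.emb (S₀.src e) h)) *
          thickK₁ L i j ^
            (-(leadOrd (isDiscreteNorm_unifK₁ L i j hj) (b2F I hdvT (C.emb (S₀.tgt e) h)))) *
          A₁ ^ p ∧
      leadOrd (isDiscreteNorm_unifK₁ L i j hj) (b1F I hdvS (C.emb (S₀.src e) h)) +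
          leadOrd (isDiscreteNorm_unifK₁ L i j hj) (b2F I hdvT (C.emb (S₀.tgt e) h)) =
        (p : ℤ) * ∑ Q ∈ S, μ Q := by
  have hϖ := isDiscreteNorm_unifK₁ L i j hj
  have hhF : (h : F) ≠ 0 := fun h0 => hh (Subtype.ext h0)
  have hX0 : b1F I hdvS (C.emb (S₀.src e) h) ≠ 0 := by
    intro h0
    have h1 := b1F_injective I hdvS (h0.trans (map_zero _).symm)
    exact hh ((C.emb (S₀.src e)).injective (h1.trans (map_zero _).symm))
  have hY0 : b2F I hdvT (C.emb (S₀.tgt e) h) ≠ 0 := by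
    intro h0
    have h1 := b2F_injective I hdvT (h0.trans (map_zero _).symm)
    exact hh ((C.emb (S₀.tgt e)).injective (h1.trans (map_zero _).symm))
  obtain ⟨h1, h2⟩ := tube_lead_ratio_pow L i j hj hfull hcol hK' hhF hb hab S hST hS hrat p μ hμ
    (b1F_emb_mul I hdvS hab) (b2F_emb_mul I hdvT hab)
    (hasLead_leadC hϖ hX0) (hasLead_leadC hϖ hY0)
  refine ⟨?_, h2⟩
  apply Subtype.ext
  have hcoe : ∀ x : constK₁ L i j, ((x : constK₁ L i j) : Ω) = (constK₁ L i j).subtype x :=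
    fun _ => rfl
  rw [h1, ← hA₁]
  simp only [hcoe, map_mul, map_zpow₀, map_pow]
  rfl

end Fermat.Agent.FF4.NodeIdentity
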