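/-
PROGRAMME II (S40), kernel K1, node T5 (Galois side of the tube factor `A_e`) (helper5).

`L := annulusLevels_modular_final B hB hqM hne e` the levels of the tube `T` of a crossing `e` of
the semistable model of `X₀(qM)` at `q`, `σ` in the inertia group of `B`, `g := gal (M q) σ`.

* `gal_smul_u` : `g u = u` (the annulus coordinate lives over `K₀ = ℚ(μ_{prime to q})`);
* `evalAt_gal_smul_u` : `u(g Q) = σ (u(Q))`  -- the point law at the coordinate;
* `gal_smul_mem_tube_iff` (restated from `InertiaLevels.smul_mem_tube_iff`);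
* `ord_gal_smul_of_fixed` : `g f = f ⇒ ord_{gQ} f = ord_Q f`;
* `tubeProd S μ := ∏_{Q ∈ S} (−u(Q))^{μ Q}` (the factor `A_e` of `TubeLead.tube_lead_ratio_pow`,
  before `j`), `map_tubeProd`, `sigma_tubeProd`, `sigma_tubeProd_of_stable` :
  `σ A_e = A_e` as soon as `g` permutes `S` and `μ` is `g`-invariant on `S`;
* `sigma_tubeProd_of_fixed` : the same with `μ Q = ord_Q(f)/p`-type data: `g f = f`, `S` the
  (tube-)support of `f`, `ord_Q f = p μ_Q`;
* `sigmaΩ_tubeProd` : transport to `Ω` along `j` with `σΩ ∘ j = j ∘ σ`.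
-/
import Mathlib
import Fermat.Agent.FF3.InertiaLevels.Modular
import Fermat.Agent.BR.Inst.InertiaBase

set_option autoImplicit false
set_option synthInstance.maxHeartbeats 400000
set_option linter.unusedSectionVars false

noncomputable section

namespace Fermat.Agent.FF4.TubeGalois

open AlgebraicCurve ModularCurve IsLocalRing
open Fermat.Agent.Red Fermat.Agent.Val Fermat.Agent.X0 Fermat.Agent.Good.Bridge
open Fermat.Agent.BR Fermat.Agent.BR.SS Fermat.Agent.BR.Refine
open Fermat.Agent.BR.Centre Fermat.Agent.BR.S0 Fermat.Agent.BR.S0.RedModular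
open Fermat.Agent.BR.S0.PointDict Fermat.Agent.BR.S0.AnnulusChartOfLevels
open Fermat.Agent.BR.TwoVal Fermat.Agent.BR.TwoValInst
open Fermat.Agent.BR.ValTwo Fermat.Agent.BR.Inst.Levels Fermat.Agent.BR.Inst.AnnulusInstFinal
open Fermat.Agent.FF3.InertiaLevels

local notation "Kb" => AlgebraicClosure ℚ

variable {M q : ℕ} [NeZero M] [hq : Fact q.Prime]
variable (B : ValuationSubring Kb) (hB : B.LiesOverPrime q) (hqM : ¬ q ∣ M)
variable [IsAlgClosed (ResidueField B)]
variable (hne : Nonempty (Crossing (chartDataModular B hB hqM)))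
variable (e : Crossing (chartDataModular B hB hqM))
variable {σ : Kb ≃ₐ[ℚ] Kb}

set_option maxHeartbeats 4000000 in
/-- **`g u = u`**: the annulus coordinate of a crossing is fixed by inertia. -/
theorem gal_smul_u (hσ : σ ∈ B.inertiaSubgroupIn ℚ) :
    gal (M * q) σ • (annulusLevels_modular_final B hB hqM hne e).u =
      (annulusLevels_modular_final B hB hqM hne e).u :=
  Fermat.Agent.BR.Inst.InertiaBase.gal_smul_eq_of_mem_modelField_base B hq.out hB hσ
    (u_mem_base_modular_final B hB hqM hne e)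

set_option maxHeartbeats 4000000 in
/-- **the point law at the coordinate**: `u(g Q) = σ (u(Q))`. -/
theorem evalAt_gal_smul_u (hσ : σ ∈ B.inertiaSubgroupIn ℚ) (Q : Place Kb (Fb (M * q))) :
    evalAt (gal (M * q) σ • Q) (annulusLevels_modular_final B hB hqM hne e).u =
      σ (evalAt Q (annulusLevels_modular_final B hB hqM hne e).u) := by
  have h := evalAt_gal_smul (M * q) σ Q (annulusLevels_modular_final B hB hqM hne e).u
  rwa [gal_smul_u B hB hqM hne e hσ] at h

/-- `g T = T` (restated). -/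
theorem gal_smul_mem_tube_iff (hσ : σ ∈ B.inertiaSubgroupIn ℚ) (Q : Place Kb (Fb (M * q))) :
    gal (M * q) σ • Q ∈ tube (Final.setupFinal B hB hqM hne) e ↔
      Q ∈ tube (Final.setupFinal B hB hqM hne) e :=
  smul_mem_tube_iff B hB hqM hne e hσ Q

/-- `g f = f ⇒ ord_{g Q} f = ord_Q f`. -/
theorem ord_gal_smul_of_fixed {N : ℕ} [NeZero N] (σ : Kb ≃ₐ[ℚ] Kb) {f : Fb N}
    (hf : gal N σ • f = f) (Q : Place Kb (Fb N)) :
    (gal N σ • Q).ord f = Q.ord f := by
  have h := SemilinearAut.ord_smul (gal N σ) Q f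
  rwa [hf] at h

/-- **The tube factor** `A_e = ∏_{Q ∈ S} (−u(Q))^{μ Q}` (an element of `ℚ̄`). -/
def tubeProd (S : Finset (Place Kb (Fb (M * q)))) (μ : Place Kb (Fb (M * q)) → ℤ) : Kb :=
  ∏ Q ∈ S, (-(evalAt Q (annulusLevels_modular_final B hB hqM hne e).u)) ^ μ Q

/-- compatibility with a ring homomorphism `j : ℚ̄ → Ω`: this is the factor of
`TubeLead.tube_lead_ratio_pow`. -/
theorem map_tubeProd {Ω : Type*} [Field Ω] (j : Kb →+* Ω)
    (S : Finset (Place Kb (Fb (M * q)))) (μ : Place Kb (Fb (M * q)) → ℤ) :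
    j (tubeProd B hB hqM hne e S μ) =
      ∏ Q ∈ S, (-(j (evalAt Q (annulusLevels_modular_final B hB hqM hne e).u))) ^ μ Q := by
  unfold tubeProd
  rw [map_prod]
  refine Finset.prod_congr rfl fun Q _ => ?_
  rw [map_zpow₀, map_neg]

/-- `σ A_e = ∏_{Q ∈ S} (−u(g Q))^{μ Q}`. -/
theorem sigma_tubeProd (hσ : σ ∈ B.inertiaSubgroupIn ℚ)
    (S : Finset (Place Kb (Fb (M * q)))) (μ : Place Kb (Fb (M * q)) → ℤ) :
    σ (tubeProd B hB hqM hne e S μ) =
      ∏ Q ∈ S, (-(evalAt (gal (M * q) σ • Q)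
        (annulusLevels_modular_final B hB hqM hne e).u)) ^ μ Q := by
  unfold tubeProd
  rw [map_prod]
  refine Finset.prod_congr rfl fun Q _ => ?_
  rw [map_zpow₀, map_neg, evalAt_gal_smul_u B hB hqM hne e hσ Q]

/-- **`σ A_e = A_e`** when `g` permutes `S` and `μ` is `g`-invariant on `S`. -/
theorem sigma_tubeProd_of_stable (hσ : σ ∈ B.inertiaSubgroupIn ℚ)
    (S : Finset (Place Kb (Fb (M * q)))) (μ : Place Kb (Fb (M * q)) → ℤ)
    (hS : ∀ Q ∈ S, gal (M * q) σ • Q ∈ S)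
    (hμ : ∀ Q ∈ S, μ (gal (M * q) σ • Q) = μ Q) :
    σ (tubeProd B hB hqM hne e S μ) = tubeProd B hB hqM hne e S μ := by
  classical
  rw [sigma_tubeProd B hB hqM hne e hσ S μ]
  unfold tubeProd
  have hinj : Set.InjOn (fun Q : Place Kb (Fb (M * q)) => gal (M * q) σ • Q) (S : Set _) :=
    fun a _ b _ hab => MulAction.injective (gal (M * q) σ) hab
  have himg : S.image (fun Q : Place Kb (Fb (M * q)) => gal (M * q) σ • Q) = S := by
    refine Finset.eq_of_subset_of_card_le ?_ ?_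
    · intro Q hQ
      obtain ⟨Q', hQ', rfl⟩ := Finset.mem_image.mp hQ
      exact hS Q' hQ'
    · rw [Finset.card_image_of_injOn hinj]
  conv_rhs => rw [← himg]
  rw [Finset.prod_image hinj]
  refine Finset.prod_congr rfl fun Q hQ => ?_
  rw [hμ Q hQ]

/-- **`σ A_e = A_e`** for the divisor data of a `g`-fixed function: `g f = f`, `S` = the places
of the tube where `f` has a zero or pole, `ord_Q f = p μ_Q` on `S` (`p ≠ 0`). -/
theorem sigma_tubeProd_of_fixed (hσ : σ ∈ B.inertiaSubgroupIn ℚ) {f : Fb (M * q)}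
    (hf : gal (M * q) σ • f = f)
    (S : Finset (Place Kb (Fb (M * q))))
    (hS : ∀ Q, Q ∈ S ↔ Q ∈ tube (Final.setupFinal B hB hqM hne) e ∧ Q.ord f ≠ 0)
    {p : ℤ} (hp : p ≠ 0) (μ : Place Kb (Fb (M * q)) → ℤ) (hμ : ∀ Q ∈ S, Q.ord f = p * μ Q) :
    σ (tubeProd B hB hqM hne e S μ) = tubeProd B hB hqM hne e S μ := by
  have hstab : ∀ Q ∈ S, gal (M * q) σ • Q ∈ S := by
    intro Q hQ
    rw [hS] at hQ ⊢
    exact ⟨(gal_smul_mem_tube_iff B hB hqM hne e hσ Q).mpr hQ.1, by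
      rw [ord_gal_smul_of_fixed σ hf Q]; exact hQ.2⟩
  refine sigma_tubeProd_of_stable B hB hqM hne e hσ S μ hstab fun Q hQ => ?_
  have h1 := hμ _ (hstab Q hQ)
  rw [ord_gal_smul_of_fixed σ hf Q, hμ Q hQ] at h1
  exact (mul_left_cancel₀ hp h1).symm

/-- transport to `Ω`: `σΩ (j A_e) = j A_e` for `σΩ ∘ j = j ∘ σ`. -/
theorem sigmaΩ_tubeProd {Ω : Type*} [Field Ω] (j : Kb →+* Ω) (σΩ : Ω →+* Ω)
    (hσj : ∀ c : Kb, σΩ (j c) = j (σ c))
    (S : Finset (Place Kb (Fb (M * q)))) (μ : Place Kb (Fb (M * q)) → ℤ)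
    (h : σ (tubeProd B hB hqM hne e S μ) = tubeProd B hB hqM hne e S μ) :
    σΩ (∏ Q ∈ S, (-(j (evalAt Q (annulusLevels_modular_final B hB hqM hne e).u))) ^ μ Q) =
      ∏ Q ∈ S, (-(j (evalAt Q (annulusLevels_modular_final B hB hqM hne e).u))) ^ μ Q := by
  rw [← map_tubeProd B hB hqM hne e j S μ, hσj, h]

end Fermat.Agent.FF4.TubeGalois
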