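import Mathlib
import Fermat.Agent.FF4.TubeLead
import Fermat.Agent.FF3.ExpandBR.ModularPart

/-!
# PROGRAMME II, K1-(b), T4: the hypothesis `hK'` of `TubeLead.tube_lead_ratio` at the modular tower
(helper5)

`L := annulusLevels_modular_final B hB hqM hne e`, level `S : Finset Kb`.  The constant field of the
level is BY DEFINITION the field of the constants of `ℚ̄` lying in the fraction field of the level
ring (`BR/S0/CrossingModelLevel.constField`, `mem_constField_iff`), so `hK'` holds on the nose.
-/

set_option autoImplicit false
set_option linter.unusedSectionVars false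
set_option linter.style.haveILetI false
set_option synthInstance.maxHeartbeats 400000

noncomputable section

namespace Fermat.Agent.FF4.TubeLead

open AlgebraicCurve ModularCurve IsLocalRing Fermat.Agent.Red Fermat.Agent.X0
  Fermat.Agent.BR.Centre Fermat.Agent.BR.S0 Fermat.Agent.BR.S0.RedModular
  Fermat.Agent.BR.S0.RedHyp Fermat.Agent.BR.S0.PointDict Fermat.Agent.BR.Inst.AnnulusInstFinal
  Fermat.Agent.BR.Inst.Levels Fermat.Agent.BR.Inst.NodeInst Fermat.Agent.BR.Inst.LocSub

local notation "Kb" => AlgebraicClosure ℚ

variable {M q : ℕ} [NeZero M] [hq : Fact q.Prime]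
variable (B : ValuationSubring Kb) (hB : B.LiesOverPrime q) (hqM : ¬ q ∣ M)
variable [IsAlgClosed (ResidueField B)]
variable (hne : Nonempty (Crossing (chartDataModular B hB hqM)))
variable (e : Crossing (chartDataModular B hB hqM))

set_option maxHeartbeats 4000000 in
/-- the constant field of the level `S` is the field of constants of the fraction field of the
level ring -/
theorem level_K'_eq_constField (S : Finset Kb) :
    ((annulusLevels_modular_final B hB hqM hne e).level S).K' =
      constField Kb ((annulusLevels_modular_final B hB hqM hne e).level S).R := rfl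

/-- **`hK'` at the modular tower.** -/
theorem hK'_modular_final (S : Finset Kb) :
    ∀ c : Kb, c ≠ 0 →
      (∃ r₁ r₂ : ((annulusLevels_modular_final B hB hqM hne e).level S).R, r₂ ≠ 0 ∧
        algebraMap Kb (Fb (M * q)) c * (r₂ : Fb (M * q)) = (r₁ : Fb (M * q))) →
      c ∈ ((annulusLevels_modular_final B hB hqM hne e).level S).K' := by
  intro c _ h
  rw [level_K'_eq_constField]
  exact mem_constField_iff.mpr h

end Fermat.Agent.FF4.TubeLead
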