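/-
PROGRAMME II (S40), kernel K1, node N7 (GeoAssembly), the T4 plug AT THE MODULAR TOWER (helper5).

`L := annulusLevels_modular_final B hB hqM hne e`, level `S : Finset Kb`, component data `D` over
`FS (M q) q S`, `I := BLift.nodeInput_modular …` (helper16), `b1F`, `b2F` (helper20's `FF4/BdryFrac`).
For `h ∈ F_S` nonzero, `T` = the zeros and poles of `h` in the tube of `e`, with `u(Q) ∈ S` for
`Q ∈ T`, `ord_Q h = p μ_Q`:

  `leadC (b2F (emb h)) = leadC (b1F (emb h)) * π₁ ^ a_e * A₁ ^ p`,  `(A₁ : Ω) = j (tubeProd T μ)`,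

with NO hypothesis left (`hK'` is `TubeLead.hK'_modular_final`, the fraction is `NodeInput.frac`,
rationality of the points is `mem_K'_modular_final_of_mem`), and `A₁` is fixed by the inertia
action `modConstHom` on `K₁` as soon as `σ (tubeProd T μ) = tubeProd T μ`
(`TubeGalois.sigma_tubeProd_of_fixed`: e.g. when `gal σ • h = h`).
-/
import Mathlib
import Fermat.Agent.FF4.NodeIdentity
import Fermat.Agent.FF4.TubeLeadModular
import Fermat.Agent.FF4.TubeGalois
import Fermat.Agent.FF3.BLift.Modular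
import Fermat.Agent.FF3.InertiaLevels.NodeInstModular
import Fermat.Agent.BR3.SubAnnChart.Modular

set_option autoImplicit false
set_option linter.unusedSectionVars false
set_option synthInstance.maxHeartbeats 400000
set_option maxHeartbeats 4000000

noncomputable section

namespace Fermat.Agent.FF4.NodeIdentity

open AlgebraicCurve ModularCurve IsLocalRing Fermat.Agent.Red Fermat.Agent.X0
  Fermat.Agent.BR Fermat.Agent.BR.Centre Fermat.Agent.BR.S0 Fermat.Agent.BR.SS
  Fermat.Agent.BR.Refine Fermat.Agent.BR.S0.RedModular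
  Fermat.Agent.BR.S0.RedHyp Fermat.Agent.BR.S0.PointDict Fermat.Agent.BR.Inst.AnnulusInstFinal
  Fermat.Agent.BR.Inst.Levels Fermat.Agent.BR.Inst.NodeInst Fermat.Agent.BR.Inst.LocSub
  Fermat.Agent.BR.ValTwo
  Fermat.Agent.FF3 Fermat.Agent.FF3.B4 Fermat.Agent.FF3.DVCompl Fermat.Agent.FF3.ExpandBR
  Fermat.Agent.FF3.BLift Fermat.Agent.FF3.InertiaLevels
  Fermat.Agent.FF4.AmiceLead Fermat.Agent.FF4.BdryFrac Fermat.Agent.FF4.TubeLead
  Fermat.Agent.FF4.TubeGalois

attribute [local instance] normedAlgebraSubfield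
attribute [local instance] nontrivial_bAmice

local notation "Kb" => AlgebraicClosure ℚ

variable {M q : ℕ} [NeZero M] [hq : Fact q.Prime]
variable (B : ValuationSubring Kb) (hB : B.LiesOverPrime q) (hqM : ¬ q ∣ M)
variable [IsAlgClosed (ResidueField B)]
variable (hne : Nonempty (Crossing (chartDataModular B hB hqM)))
variable (e : Crossing (chartDataModular B hB hqM))
variable {Ω : Type} [NormedField Ω] [IsUltrametricDist Ω] [CompleteSpace Ω]
  (j : Kb →+* Ω) (hj : ∀ c : Kb, ‖j c‖ ≤ 1 ↔ c ∈ B) (S : Finset Kb)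
variable (D : Fin 2 → Datum (FS (M * q) q S))
  (hO : ∀ v (x : FS (M * q) q S),
    x ∈ (D v).O₀ ↔ (x : Fb (M * q)) ∈ (Final.setupFinal B hB hqM hne).O v)
  (hw : ∀ v, (D v).w = unifFS (M := M) B hB S)

/-- **The node identity at the crossing `e` of the modular tower, level `S`.** -/
theorem node_identity_modular {h : FS (M * q) q S} (hh : h ≠ 0)
    (T : Finset (Place Kb (Fb (M * q))))
    (hT : ∀ Q, Q ∈ T ↔ Q ∈ tube (Final.setupFinal B hB hqM hne) e ∧ Q.ord (h : Fb (M * q)) ≠ 0)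
    (hTS : ∀ Q ∈ T, evalAt Q (annulusLevels_modular_final B hB hqM hne e).u ∈ S)
    (p : ℕ) (μ : Place Kb (Fb (M * q)) → ℤ)
    (hμ : ∀ Q ∈ T, Q.ord (h : Fb (M * q)) = (p : ℤ) * μ Q) :
    ∃ A₁ : constK₁ (annulusLevels_modular_final B hB hqM hne e) S j, A₁ ≠ 0 ∧
      ((A₁ : constK₁ (annulusLevels_modular_final B hB hqM hne e) S j) : Ω) =
        j (tubeProd B hB hqM hne e T μ) ∧
      leadC (isDiscreteNorm_unifK₁ (annulusLevels_modular_final B hB hqM hne e) S j hj)
          (b2F (nodeInput_modular B hB hqM hne e j hj S D hO hw) (isDV_ofDatum D hO hw _)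
            ((CompPack.ofDatum (Final.setupFinal B hB hqM hne) D hO hw).emb _ h)) =
        leadC (isDiscreteNorm_unifK₁ (annulusLevels_modular_final B hB hqM hne e) S j hj)
          (b1F (nodeInput_modular B hB hqM hne e j hj S D hO hw) (isDV_ofDatum D hO hw _)
            ((CompPack.ofDatum (Final.setupFinal B hB hqM hne) D hO hw).emb _ h)) *
          thickK₁ (annulusLevels_modular_final B hB hqM hne e) S j ^
            (-(leadOrd (isDiscreteNorm_unifK₁ (annulusLevels_modular_final B hB hqM hne e) S j hj)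
              (b2F (nodeInput_modular B hB hqM hne e j hj S D hO hw) (isDV_ofDatum D hO hw _)
                ((CompPack.ofDatum (Final.setupFinal B hB hqM hne) D hO hw).emb _ h)))) *
          A₁ ^ p ∧
      leadOrd (isDiscreteNorm_unifK₁ (annulusLevels_modular_final B hB hqM hne e) S j hj)
          (b1F (nodeInput_modular B hB hqM hne e j hj S D hO hw) (isDV_ofDatum D hO hw _)
            ((CompPack.ofDatum (Final.setupFinal B hB hqM hne) D hO hw).emb _ h)) +
        leadOrd (isDiscreteNorm_unifK₁ (annulusLevels_modular_final B hB hqM hne e) S j hj)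
          (b2F (nodeInput_modular B hB hqM hne e j hj S D hO hw) (isDV_ofDatum D hO hw _)
            ((CompPack.ofDatum (Final.setupFinal B hB hqM hne) D hO hw).emb _ h)) =
        (p : ℤ) * ∑ Q ∈ T, μ Q := by
  have hST : ∀ Q ∈ T, Q ∈ tube (Final.setupFinal B hB hqM hne) e := fun Q hQ => ((hT Q).mp hQ).1
  have hS' : ∀ P ∈ tube (Final.setupFinal B hB hqM hne) e, P.ord (h : Fb (M * q)) ≠ 0 → P ∈ T :=
    fun P hP hord => (hT P).mpr ⟨hP, hord⟩
  have hrat : ∀ Q ∈ T, evalAt Q (annulusLevels_modular_final B hB hqM hne e).u ∈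
      ((annulusLevels_modular_final B hB hqM hne e).level S).K' :=
    fun Q hQ => Fermat.Agent.BR3.SubAnnChart.mem_K'_modular_final_of_mem B hB hqM hne e (hTS Q hQ)
  obtain ⟨A₁, hA₁0, hA₁⟩ := exists_tubeConst (hj := hj) (i := S) T hST hrat μ
  obtain ⟨a, b, hb, hab⟩ := (nodeInput_modular B hB hqM hne e j hj S D hO hw).frac h
  obtain ⟨h1, h2⟩ := node_identity (nodeInput_modular B hB hqM hne e j hj S D hO hw)
    (isDV_ofDatum D hO hw _) (isDV_ofDatum D hO hw _) (hK'_modular_final B hB hqM hne e S)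
    hh hb hab T hST hS' hrat p μ hμ hA₁
  exact ⟨A₁, hA₁0, by rw [hA₁, map_tubeProd], h1, h2⟩

/-- **The node identity at the modular tower, `HasLead` form** (the shape consumed by the assembly
`GeoAssembly`): the same `A₁` for all leading data of the two boundary expansions. -/
theorem node_identity_modular_hasLead {h : FS (M * q) q S} (hh : h ≠ 0)
    (T : Finset (Place Kb (Fb (M * q))))
    (hT : ∀ Q, Q ∈ T ↔ Q ∈ tube (Final.setupFinal B hB hqM hne) e ∧ Q.ord (h : Fb (M * q)) ≠ 0)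
    (hTS : ∀ Q ∈ T, evalAt Q (annulusLevels_modular_final B hB hqM hne e).u ∈ S)
    (p : ℕ) (μ : Place Kb (Fb (M * q)) → ℤ)
    (hμ : ∀ Q ∈ T, Q.ord (h : Fb (M * q)) = (p : ℤ) * μ Q) :
    ∃ A₁ : constK₁ (annulusLevels_modular_final B hB hqM hne e) S j, A₁ ≠ 0 ∧
      ((A₁ : constK₁ (annulusLevels_modular_final B hB hqM hne e) S j) : Ω) =
        j (tubeProd B hB hqM hne e T μ) ∧
      ∀ (cX cY : constK₁ (annulusLevels_modular_final B hB hqM hne e) S j) (aX aY : ℤ),
        HasLead (b1F (nodeInput_modular B hB hqM hne e j hj S D hO hw) (isDV_ofDatum D hO hw _)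
          ((CompPack.ofDatum (Final.setupFinal B hB hqM hne) D hO hw).emb _ h)) cX aX →
        HasLead (b2F (nodeInput_modular B hB hqM hne e j hj S D hO hw) (isDV_ofDatum D hO hw _)
          ((CompPack.ofDatum (Final.setupFinal B hB hqM hne) D hO hw).emb _ h)) cY aY →
        cY = cX * thickK₁ (annulusLevels_modular_final B hB hqM hne e) S j ^ (-aY) * A₁ ^ p ∧
          aX + aY = (p : ℤ) * ∑ Q ∈ T, μ Q := by
  obtain ⟨A₁, hA₁0, hA₁, h1, h2⟩ :=
    node_identity_modular B hB hqM hne e j hj S D hO hw hh T hT hTS p μ hμ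
  refine ⟨A₁, hA₁0, hA₁, fun cX cY aX aY hX hY => ?_⟩
  have hϖ := isDiscreteNorm_unifK₁ (annulusLevels_modular_final B hB hqM hne e) S j hj
  rw [hX.leadC_eq hϖ, hY.leadC_eq hϖ, hY.leadOrd_eq hϖ] at h1
  rw [hX.leadOrd_eq hϖ, hY.leadOrd_eq hϖ] at h2
  exact ⟨h1, h2⟩

omit [IsAlgClosed (ResidueField B)] in
/-- **big levels**: a function `f`, and the `u`-coordinates of finitely many places, live at every
level `S ⊇ S₀`. -/
theorem exists_level_of_function (u : Fb (M * q)) (f : Fb (M * q))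
    (T : Finset (Place Kb (Fb (M * q)))) :
    ∃ S₀ : Finset Kb, ∀ S : Finset Kb, S₀ ⊆ S →
      f ∈ FS (M * q) q S ∧ ∀ Q ∈ T, evalAt Q u ∈ S := by
  classical
  obtain ⟨S₁, hS₁⟩ := Fermat.Agent.BR.Inst.FKCover.exists_finset_forall_subset_FKs
    (N := M * q) ({f} : Finset (Fb (M * q)))
  refine ⟨S₁ ∪ T.image (fun Q => evalAt Q u), fun S hS => ⟨?_, fun Q hQ => ?_⟩⟩
  · have h1 : (↑S₁ : Set Kb) ⊆ KS q S := fun x hx =>
      subset_KS q S (Finset.mem_coe.mpr (hS (Finset.mem_union_left _ (Finset.mem_coe.mp hx))))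
    exact hS₁ (KS q S) h1 (by simp)
  · exact hS (Finset.mem_union_right _ (Finset.mem_image_of_mem _ hQ))

variable {σ : Kb ≃ₐ[ℚ] Kb}
  (σΩ : Ω →+* Ω) (hnorm : ∀ x, ‖σΩ x‖ = ‖x‖) (hσj : ∀ c : Kb, σΩ (j c) = j (σ c))
  (hσ : σ ∈ B.inertiaSubgroupIn ℚ) {S} (hS : InertiaLevels.GalStable q σ S)

/-- **The tube factor is fixed by the inertia action on `K₁`** when it is fixed in `ℚ̄`. -/
theorem modConstHom_eq_of_tubeProd_fixed (T : Finset (Place Kb (Fb (M * q))))
    (μ : Place Kb (Fb (M * q)) → ℤ)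
    {A₁ : constK₁ (annulusLevels_modular_final B hB hqM hne e) S j}
    (hA₁ : ((A₁ : constK₁ (annulusLevels_modular_final B hB hqM hne e) S j) : Ω) =
      j (tubeProd B hB hqM hne e T μ))
    (hfix : σ (tubeProd B hB hqM hne e T μ) = tubeProd B hB hqM hne e T μ) :
    modConstHom B hB hqM hne e j σΩ hnorm hσj hσ hS A₁ = A₁ := by
  apply Subtype.ext
  rw [coe_modConstHom, hA₁, hσj, hfix]

/-- **The tube factor of an inertia-fixed function is fixed by the inertia action on `K₁`.** -/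
theorem modConstHom_eq_of_fixed {h : Fb (M * q)} (hfix : gal (M * q) σ • h = h)
    (T : Finset (Place Kb (Fb (M * q))))
    (hT : ∀ Q, Q ∈ T ↔ Q ∈ tube (Final.setupFinal B hB hqM hne) e ∧ Q.ord h ≠ 0)
    {p : ℕ} (hp : p ≠ 0) (μ : Place Kb (Fb (M * q)) → ℤ)
    (hμ : ∀ Q ∈ T, Q.ord h = (p : ℤ) * μ Q)
    {A₁ : constK₁ (annulusLevels_modular_final B hB hqM hne e) S j}
    (hA₁ : ((A₁ : constK₁ (annulusLevels_modular_final B hB hqM hne e) S j) : Ω) =
      j (tubeProd B hB hqM hne e T μ)) :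
    modConstHom B hB hqM hne e j σΩ hnorm hσj hσ hS A₁ = A₁ :=
  modConstHom_eq_of_tubeProd_fixed B hB hqM hne e j σΩ hnorm hσj hσ hS T μ hA₁
    (sigma_tubeProd_of_fixed B hB hqM hne e hσ hfix T hT (Nat.cast_ne_zero.mpr hp) μ hμ)

end Fermat.Agent.FF4.NodeIdentity
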