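/-
PROGRAMME II (S40/S44), kernel K1, leaf L2 (Thick) (helper5):
THE THICKNESS OF A CROSSING OF `X₀(qM)` AT `q` IS `q · u_e`, `u_e` AN INERTIA-FIXED UNIT
(`M` without elliptic points: `nuTwo M = nuThree M = 0`).

`L := annulusLevels_modular_final B hB hqM hne e`.
* `valuation_thick_final` : `|L.thick| = |q|` (landed `BR3/ThickOneFamily` + `ThickOneUnit`);
* `thickUnit S j : constK₁ L S j := thickK₁ / q`, `thickK₁_eq_mul : thickK₁ = q * thickUnit`,
  `norm_thickUnit : ‖thickUnit‖ = 1`, `natCast_ne_zero_K₁`,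
  `modConstHom_thickUnit : modConstHom … thickUnit = thickUnit`, `modConstHom_natCast`
  = the hypotheses `hq`, `hu`, `hσu` of `AmiceLead.k1_gamma_thick_one`.
-/
import Mathlib
import Fermat.Agent.BR3.ThickOneFamily
import Fermat.Agent.BR3.ThickOneUnit
import Fermat.Agent.FF4.InertiaLead.ModularLead

set_option autoImplicit false
set_option linter.unusedSectionVars false
set_option synthInstance.maxHeartbeats 400000
set_option maxHeartbeats 4000000

noncomputable section

namespace Fermat.Agent.FF4.ThickOne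

open AlgebraicCurve ModularCurve IsLocalRing
open Fermat.Agent.Red Fermat.Agent.Val Fermat.Agent.X0
open Fermat.Agent.BR Fermat.Agent.BR.SS Fermat.Agent.BR.Refine
open Fermat.Agent.BR.Centre Fermat.Agent.BR.S0 Fermat.Agent.BR.S0.RedModular
open Fermat.Agent.BR.S0.PointDict Fermat.Agent.BR.S0.AnnulusChartOfLevels
open Fermat.Agent.BR.ValTwo Fermat.Agent.BR.Inst.Levels Fermat.Agent.BR.Inst.AnnulusInstFinal
open Fermat.Agent.FF3 Fermat.Agent.FF3.ExpandBR Fermat.Agent.FF3.InertiaLevels
open Fermat.Agent.FF4.InertiaLead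

attribute [local instance] normedAlgebraSubfield

local notation "Kb" => AlgebraicClosure ℚ

variable {M q : ℕ} [NeZero M] [hq : Fact q.Prime]
variable (B : ValuationSubring Kb) (hB : B.LiesOverPrime q) (hqM : ¬ q ∣ M)
variable [IsAlgClosed (ResidueField B)]
variable (hne : Nonempty (Crossing (chartDataModular B hB hqM)))
variable (e : Crossing (chartDataModular B hB hqM))

/-- **Thickness one**: `|thick_e| = |q|` at every crossing (`M` without elliptic points). -/
theorem valuation_thick_final (h2 : nuTwo M = 0) (h3 : nuThree M = 0) :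
    B.valuation (annulusLevels_modular_final B hB hqM hne e).thick = B.valuation (q : Kb) :=
  Fermat.Agent.BR3.ThickOneFamily.valuation_thick_of_crossingFamily B hB hqM _ h2 h3 e
    (Fermat.Agent.BR3.ThickOneUnit.crossingFamily_final B hB hqM hne e)

variable {Ω : Type*} [NormedField Ω] [IsUltrametricDist Ω] [CompleteSpace Ω]
  (j : Kb →+* Ω) (hj : ∀ c : Kb, ‖j c‖ ≤ 1 ↔ c ∈ B) (S : Finset Kb)

theorem coe_natCast_K₁ (n : ℕ) :
    (((n : constK₁ (annulusLevels_modular_final B hB hqM hne e) S j)) : Ω) = j (n : Kb) := by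
  rw [map_natCast]
  rfl

theorem natCast_ne_zero_K₁ :
    ((q : ℕ) : constK₁ (annulusLevels_modular_final B hB hqM hne e) S j) ≠ 0 := by
  intro h0
  have h1 := congrArg (fun x : constK₁ (annulusLevels_modular_final B hB hqM hne e) S j =>
    (x : Ω)) h0
  simp only [coe_natCast_K₁] at h1
  have h2 : j (q : Kb) ≠ 0 := (map_ne_zero j).mpr (Nat.cast_ne_zero.mpr hq.out.ne_zero)
  exact h2 h1

/-- the unit `u_e = thick_e / q` of the completed constants -/
def thickUnit : constK₁ (annulusLevels_modular_final B hB hqM hne e) S j :=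
  thickK₁ (annulusLevels_modular_final B hB hqM hne e) S j /
    ((q : ℕ) : constK₁ (annulusLevels_modular_final B hB hqM hne e) S j)

/-- **`π_e = q · u_e`** -/
theorem thickK₁_eq_mul :
    thickK₁ (annulusLevels_modular_final B hB hqM hne e) S j =
      ((q : ℕ) : constK₁ (annulusLevels_modular_final B hB hqM hne e) S j) *
        thickUnit B hB hqM hne e j S := by
  unfold thickUnit
  rw [mul_div_cancel₀ _ (natCast_ne_zero_K₁ B hB hqM hne e j S)]

include hj in
/-- **`‖u_e‖ = 1`** (`M` without elliptic points) -/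
theorem norm_thickUnit (h2 : nuTwo M = 0) (h3 : nuThree M = 0) :
    ‖thickUnit B hB hqM hne e j S‖ = 1 := by
  have hv := valuation_thick_final B hB hqM hne e h2 h3
  have hq0 : (q : Kb) ≠ 0 := Nat.cast_ne_zero.mpr hq.out.ne_zero
  have ht0 := (annulusLevels_modular_final B hB hqM hne e).thick_ne
  have hn : ‖j (annulusLevels_modular_final B hB hqM hne e).thick‖ = ‖j (q : Kb)‖ := by
    apply le_antisymm
    · rw [← not_lt, norm_lt_norm_iff j hj _ ht0, hv]
      exact lt_irrefl _
    · rw [← not_lt, norm_lt_norm_iff j hj _ hq0, hv]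
      exact lt_irrefl _
  unfold thickUnit
  rw [norm_div]
  have e1 : ‖thickK₁ (annulusLevels_modular_final B hB hqM hne e) S j‖ =
      ‖j (annulusLevels_modular_final B hB hqM hne e).thick‖ := rfl
  have e2 : ‖((q : ℕ) : constK₁ (annulusLevels_modular_final B hB hqM hne e) S j)‖ =
      ‖j (q : Kb)‖ := by
    rw [← coe_natCast_K₁ B hB hqM hne e j S q]
    rfl
  rw [e1, e2, hn]
  exact div_self (norm_ne_zero_iff.mpr ((map_ne_zero j).mpr hq0))

variable {σ : Kb ≃ₐ[ℚ] Kb}
  (σΩ : Ω →+* Ω) (hnorm : ∀ x, ‖σΩ x‖ = ‖x‖) (hσj : ∀ c : Kb, σΩ (j c) = j (σ c))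
  (hσ : σ ∈ B.inertiaSubgroupIn ℚ) {S} (hS : GalStable q σ S)

/-- **`σ u_e = u_e`**: the unit part of the thickness is fixed by the inertia action on `K₁`. -/
theorem modConstHom_thickUnit :
    modConstHom B hB hqM hne e j σΩ hnorm hσj hσ hS (thickUnit B hB hqM hne e j S) =
      thickUnit B hB hqM hne e j S := by
  unfold thickUnit
  rw [map_div₀, modConstHom_thickK₁, map_natCast]

end Fermat.Agent.FF4.ThickOne
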