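import Fermat.Agent.FF3.PGeo.InertiaG3

/-!
# PROGRAMME II spike, K1-(b), step T1 WITHOUT K5: `(s - 1) J[m] ⊆ torSub m` for inertia (helper5)

`Filt.smul_sub_mem_natSub` (main) gives `g • x - x ∈ natSub S m` for an automorphism `g` acting on the
semistable setup through automorphisms `a v` of the components.  When all `a v` are TRIVIAL (this is
`PGeo.equivariant_inertia`: an inertia element acts trivially on the residues of both components) the
same representative `(g D - D, g f / f)` has residue `g₀ / g₀ = 1` on every component, so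

* `smul_sub_mem_torSub`  : `g • x - x ∈ torSub S m` (abstract form);
* `inertia_tor`          : for `s` in the inertia group of `B` and `m • w = 0`:
                           `s • w - w ∈ Filt.torSub (setup Dt) m`   (no condition on `m`, e.g. `m = p`).

So the class `z_s = (s - 1) x` of the blueprint #1834 (T1) lies in `torSub p` with NO use of (G5)/K5
(no `e₀`), for every `x` killed by `p`; `alphaDown`/`betaDown` of `z_s` vanish when they vanish on `x`
(Galois-equivariance of the degeneracy maps), so Step A applies to `z_s` directly.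
-/

set_option autoImplicit false
set_option linter.unusedSectionVars false
set_option linter.style.haveILetI false

noncomputable section

set_option synthInstance.maxHeartbeats 400000

namespace Fermat.Agent.FF4.InertiaTor

open AlgebraicCurve Fermat.Agent.Red Fermat.Agent.BR.SS Fermat.Agent.BR2 Fermat.Agent.BR2.Filt

section abstract

variable {K F k : Type*} [Field K] [Field F] [Algebra K F] [Field k]
  {A : ValuationSubring K} {π : A →+* k} {ι : Type*} {Ft : ι → Type*}
  [∀ v, Field (Ft v)] [∀ v, Algebra k (Ft v)] {ν : Type*}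
  {S : SemistableSetup (F := F) A π ι Ft ν}

/-- **(G3) with trivial action on the components: `g - 1` maps the `m`-torsion into `torSub`.** -/
theorem smul_sub_mem_torSub {g : SemilinearAut K F}
    (h : Equivariant S g (fun _ => 1)) {m : ℕ} {x : Pic0 K F} (hx : m • x = 0) :
    g • x - x ∈ torSub S m := by
  obtain ⟨D, f, hR⟩ := exists_isRep (K := K) (F := F) hx
  have hf : f ≠ 0 := hR.2.1
  have hR' : IsRep m (g • x - x) (SemilinearAut.degZeroSMulHom g D + -D) (g • f * f⁻¹) := by
    rw [sub_eq_add_neg]
    exact (hR.smul g).add hR.neg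
  refine ⟨_, _, hR', fun v => ?_⟩
  obtain ⟨g₀, hg₀⟩ := exists_isResidue (S := S) v hf
  have h1 : IsResidue S v (g • f * f⁻¹) ((1 : SemilinearAut k (Ft v)) • g₀ * g₀⁻¹) :=
    (hg₀.smul h).mul hg₀.inv
  refine ⟨_, h1, 1, 1, ?_⟩
  rw [one_smul, mul_inv_cancel₀ hg₀.ne_zero, map_one, one_pow, one_mul]

end abstract

open ModularCurve IsLocalRing
open Fermat.Agent.X0 Fermat.Agent.Hecke Fermat.Agent.BR.Final Fermat.Agent.BR2.SetupOfData
open Fermat.Agent.FF3.PGeo

local notation "GQ" => (AlgebraicClosure ℚ ≃ₐ[ℚ] AlgebraicClosure ℚ)

variable {M q : ℕ} [NeZero M] [hq : Fact q.Prime]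
variable {B : ValuationSubring Kb} {hB : B.LiesOverPrime q} {hqM : ¬ q ∣ M}
variable [IsAlgClosed (ResidueField B)]

/-- **(T1 of #1834 without K5)**: for an inertia element `s` and `m • w = 0` the class `s w - w`
lies in the connected part `torSub m` of the setup of the data. -/
theorem inertia_tor (Dt : ModularData M q B hB hqM) {s : GQ} (hs : s ∈ B.inertiaSubgroupIn ℚ)
    (m : ℕ) (w : JZero (M * q)) (hw : m • w = 0) :
    s • w - w ∈ Filt.torSub (setup Dt) m :=
  smul_sub_mem_torSub (equivariant_inertia Dt hs) hw

end Fermat.Agent.FF4.InertiaTor
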