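/-
PROGRAMME II (S40), kernel K1, node T5 ("`(D, f)` chosen rational over the fixed field"), the
modular instance (helper5).

`x ∈ J₀(N)(ℚ̄)` killed by `m` and fixed by a set `H₀ ⊆ G_ℚ` of automorphisms has a representative
`(D, f)`, `m D = div f`, with `σ D = D` and `σ f = f` for all `σ ∈ H₀`
(`FF4/RatRep.exists_fixed_isRep` at the cusp `∞ = pinf N` (`FF2/Rat24/Pinf`), the uniformiser
`1/j` and `Val.riemannPkg_bar N`).
-/
import Mathlib
import Fermat.Agent.FF4.RatRep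
import Fermat.Agent.FF2.Rat24.Pinf
import Fermat.Agent.FF2.Rat.RationalLift
import Fermat.Agent.Val.RiemannPkgBar
import Fermat.Agent.BR.ValTwo

set_option autoImplicit false
set_option synthInstance.maxHeartbeats 400000

noncomputable section

namespace Fermat.Agent.FF4.RatRep

open AlgebraicCurve ModularCurve Fermat.Agent.Red Fermat.Agent.X0 Fermat.Agent.BR2
  Fermat.Agent.BR.ValTwo Fermat.Agent.FF2.Rat24 Fermat.Agent.Good.CuspBound

local notation "Kb" => AlgebraicClosure ℚ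

variable (N : ℕ) [NeZero N]

theorem pinf_ord_jBar_inv : (pinf N).ord (jBar N)⁻¹ = 1 := by
  rw [(pinf N).ord_inv, pinf_ord_jBar]
  norm_num

theorem gal_smul_jBar_inv (σ : Kb ≃ₐ[ℚ] Kb) : gal N σ • (jBar N)⁻¹ = (jBar N)⁻¹ := by
  rw [smul_inv'', Fermat.Agent.FF2.Rat.arithmeticGalois_smul_jBar]

/-- **Rational representative**: an `m`-torsion point of `J₀(N)` fixed by `H₀ ⊆ G_ℚ` is represented
by `(D, f)`, `m D = div f`, with `D` and `f` fixed by `H₀`. -/
theorem exists_fixed_isRep_modular (H₀ : Set (Kb ≃ₐ[ℚ] Kb)) {m : ℕ} {x : JZero N}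
    (hmx : m • x = 0) (hx : ∀ σ ∈ H₀, σ • x = x) :
    ∃ (D : Divisor.degZero (K := Kb) (F := Fb N)) (f : Fb N),
      Filt.IsRep m x D f ∧ (∀ σ ∈ H₀, gal N σ • (D : Divisor Kb (Fb N)) = D) ∧
        ∀ σ ∈ H₀, gal N σ • f = f := by
  obtain ⟨D, f, hrep, hD, hf⟩ :=
    exists_fixed_isRep (Fermat.Agent.Val.riemannPkg_bar N) (pinf N) (gal N '' H₀)
      (by
        rintro g ⟨σ, -, rfl⟩
        exact arithmeticGalois_smul_pinf N σ)
      (pinf_ord_jBar_inv N)
      (by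
        rintro g ⟨σ, -, rfl⟩
        exact gal_smul_jBar_inv N σ)
      hmx
      (by
        rintro g ⟨σ, hσ, rfl⟩
        exact hx σ hσ)
  exact ⟨D, f, hrep, fun σ hσ => hD _ ⟨σ, hσ, rfl⟩, fun σ hσ => hf _ ⟨σ, hσ, rfl⟩⟩

end Fermat.Agent.FF4.RatRep
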