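/-
PROGRAMME II, kernel K1, leaf L3 (SlopeBridge), CORE ON THE LEVEL RING (helper20):
THE ORDER OF THE EXPANSION OF A FUNCTION OF THE LEVEL IS THE ORDER OF ITS REDUCTION AT THE BRANCH.

`K₁` complete, discretely normed, `π : K₁`, `0 < ‖π‖ < 1`:

* `hasLead_toX_of_isUnit_nodeInt`, `hasLead_toY_of_isUnit_nodeInt` : a unit of the integral node ring
  `NodeInt π` has, on both circles, a leading constant of norm `1` and ORDER `0`.

At a level `i` of the tube of the node `e` (`Xb : BranchData S₀ e L`):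

* `hasLead_toX_levelExpand` : for `y ∉ p2`, `toX (levelExpand y)` has a leading constant of norm `1`
  and order `(S₀.s₁ e).ord (Xb.red₁ i y)`;
* `hasLead_toY_levelExpand` : for `y ∉ p1`, `toY (levelExpand y)` has a leading constant of norm `1`
  and order `(S₀.s₂ e).ord (Xb.red₂ i y)`;

and, for a node input `I` (`FF4/BdryFrac`, `FF4/LeadAt`):

* `ord₁_ℓ₁`, `norm_lead₁_ℓ₁`, `ord₂_ℓ₂`, `norm_lead₂_ℓ₂` : the same for `b1F (ℓ₁ y)`, `b2F (ℓ₂ y)`;
* `ord₁_emb_of_mul_eq`, `ord₂_emb_of_mul_eq` : for a fraction `h * b = a` with `a b ∉ p2` (resp.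
  `p1`), the order of `b1F (emb h)` is `ord (red₁ a) - ord (red₁ b)`.
-/
import Mathlib
import Fermat.Agent.FF4.LeadAt
import Fermat.Agent.FF4.AmiceLead.Perturb

set_option autoImplicit false

noncomputable section

namespace Fermat.Agent.FF4.SlopeCore

open AlgebraicCurve IsLocalRing Fermat.Agent.Red Fermat.Agent.BR.Centre Fermat.Agent.BR.SS
  Fermat.Agent.BR.Refine Fermat.Agent.BR.S0 Fermat.Agent.BR.S0.AnnulusChartOfLevels
  Fermat.Agent.FF3 Fermat.Agent.FF3.Amice Fermat.Agent.FF3.AmiceU Fermat.Agent.FF3.B4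
  Fermat.Agent.FF3.ExpandBR Fermat.Agent.FF3.NodeRing Fermat.Agent.FF4.AmiceLead
  Fermat.Agent.FF4.BdryFrac

attribute [local instance] normedAlgebraSubfield
attribute [local instance] nontrivial_bAmice

/-! ### units of the integral node ring -/

section Units

variable {K₁ : Type*} [NormedField K₁] [IsUltrametricDist K₁] [CompleteSpace K₁] {π : K₁}

theorem norm_toX_of_isUnit_nodeInt {u : NodeInt π} (hu : IsUnit u) :
    ‖toX (u : NodeB π)‖ = 1 := by
  obtain ⟨v, rfl⟩ := hu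
  have hle : ∀ w : NodeInt π, ‖toX (w : NodeB π)‖ ≤ 1 := fun w => (mem_nodeInt_iff.1 w.2).1
  refine le_antisymm (hle _) ?_
  have h1 : toX ((v : NodeInt π) : NodeB π) * toX (((v⁻¹ : (NodeInt π)ˣ) : NodeInt π) : NodeB π)
      = 1 := by
    rw [← map_mul, ← Subring.coe_mul, Units.mul_inv, Subring.coe_one, map_one]
  calc (1 : ℝ) = ‖(1 : BAmice K₁)‖ := norm_one.symm
    _ = ‖toX ((v : NodeInt π) : NodeB π) *
          toX (((v⁻¹ : (NodeInt π)ˣ) : NodeInt π) : NodeB π)‖ := by rw [h1]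
    _ ≤ ‖toX ((v : NodeInt π) : NodeB π)‖ *
          ‖toX (((v⁻¹ : (NodeInt π)ˣ) : NodeInt π) : NodeB π)‖ := norm_mul_le _ _
    _ ≤ ‖toX ((v : NodeInt π) : NodeB π)‖ * 1 :=
        mul_le_mul_of_nonneg_left (hle _) (norm_nonneg _)
    _ = ‖toX ((v : NodeInt π) : NodeB π)‖ := mul_one _

theorem norm_toY_of_isUnit_nodeInt {u : NodeInt π} (hu : IsUnit u) :
    ‖toY (u : NodeB π)‖ = 1 := by
  obtain ⟨v, rfl⟩ := hu
  have hle : ∀ w : NodeInt π, ‖toY (w : NodeB π)‖ ≤ 1 := fun w => (mem_nodeInt_iff.1 w.2).2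
  refine le_antisymm (hle _) ?_
  have h1 : toY ((v : NodeInt π) : NodeB π) * toY (((v⁻¹ : (NodeInt π)ˣ) : NodeInt π) : NodeB π)
      = 1 := by
    rw [← map_mul, ← Subring.coe_mul, Units.mul_inv, Subring.coe_one, map_one]
  calc (1 : ℝ) = ‖(1 : BAmice K₁)‖ := norm_one.symm
    _ = ‖toY ((v : NodeInt π) : NodeB π) *
          toY (((v⁻¹ : (NodeInt π)ˣ) : NodeInt π) : NodeB π)‖ := by rw [h1]
    _ ≤ ‖toY ((v : NodeInt π) : NodeB π)‖ *
          ‖toY (((v⁻¹ : (NodeInt π)ˣ) : NodeInt π) : NodeB π)‖ := norm_mul_le _ _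
    _ ≤ ‖toY ((v : NodeInt π) : NodeB π)‖ * 1 :=
        mul_le_mul_of_nonneg_left (hle _) (norm_nonneg _)
    _ = ‖toY ((v : NodeInt π) : NodeB π)‖ := mul_one _

/-- **a unit of the integral node ring has order `0` on both circles**, with leading constants of
norm `1` -/
theorem hasLead_of_isUnit_nodeInt {ϖ : K₁} (hϖ : IsDiscreteNorm ϖ) (hπ : π ≠ 0) (hπ1 : ‖π‖ < 1)
    {u : NodeInt π} (hu : IsUnit u) :
    ∃ c : K₁, ‖c‖ = 1 ∧ HasLead (toX (u : NodeB π)) c 0 ∧ HasLead (toY (u : NodeB π)) c 0 := by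
  have hX := norm_toX_of_isUnit_nodeInt hu
  have hY := norm_toY_of_isUnit_nodeInt hu
  have hne : toX (u : NodeB π) ≠ 0 := by
    intro h0
    rw [h0, norm_zero] at hX
    exact zero_ne_one hX
  obtain ⟨c, a, hca⟩ := exists_hasLead hϖ hne
  have huB : IsUnit (u : NodeB π) := hu.map (nodeInt π).subtype
  have hY' := hasLead_toY_of_isUnit hϖ hπ hπ1 huB hca
  have hc1 : ‖c‖ = 1 := by rw [← hca.norm_eq, hX]
  have hπa : ‖π‖ ^ a = 1 := by
    have h2 := hY'.norm_eq
    rw [hY, norm_mul, hc1, one_mul, norm_zpow] at h2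
    exact h2.symm
  have ha : a = 0 := by
    have hπpos : 0 < ‖π‖ := norm_pos_iff.2 hπ
    by_contra hne0
    rcases lt_or_gt_of_ne hne0 with hlt | hgt
    · have : 1 < ‖π‖ ^ a := one_lt_zpow_of_neg₀ hπpos hπ1 hlt
      rw [hπa] at this
      exact lt_irrefl _ this
    · have : ‖π‖ ^ a < 1 := zpow_lt_one₀ hπpos hπ1 hgt
      rw [hπa] at this
      exact lt_irrefl _ this
  subst ha
  refine ⟨c, hc1, hca, ?_⟩
  rw [zpow_zero, mul_one, neg_zero] at hY'
  exact hY'

end Units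

/-! ### the functions of the level -/

section Level

universe u w

variable {K : Type} {F : Type u} [Field K] [Field F] [Algebra K F]
  {A : ValuationSubring K} [IsAlgClosed (ResidueField A)]
  {ι₀ : Type} {Ft₀ : ι₀ → Type} [∀ v, Field (Ft₀ v)] [∀ v, Algebra (ResidueField A) (Ft₀ v)]
  {ν₀ : Type} {S₀ : SemistableSetup (F := F) A (residue A) ι₀ Ft₀ ν₀} {e : ν₀} {ι : Type*}
  {L : AnnulusLevels A (tube S₀ e) ι} (Xb : BranchData S₀ e L) (i : ι)
  {Ω : Type w} [NormedField Ω] [IsUltrametricDist Ω] [CompleteSpace Ω]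
  (j : K →+* Ω) (hj : ∀ c : K, ‖j c‖ ≤ 1 ↔ c ∈ A)
  (hfull : LevelFullRes L i) (hcol : DenseNearOne j)

theorem toX_XInt_pow (n : ℕ) :
    toX (((XInt (thickK₁_ne_zero L i j hj) (norm_thickK₁_lt_one L i j hj).le ^ n :
      NodeInt (thickK₁ L i j)) : NodeB (thickK₁ L i j))) =
      ((BAmice.X ^ (n : ℤ) : (BAmice (constK₁ L i j))ˣ) : BAmice (constK₁ L i j)) := by
  rw [SubmonoidClass.coe_pow, coe_XInt, map_pow, toX_X, zpow_natCast, Units.val_pow_eq_pow_val]

theorem toY_YInt_pow (n : ℕ) :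
    toY (((YInt (thickK₁_ne_zero L i j hj) (norm_thickK₁_lt_one L i j hj).le ^ n :
      NodeInt (thickK₁ L i j)) : NodeB (thickK₁ L i j))) =
      ((BAmice.X ^ (n : ℤ) : (BAmice (constK₁ L i j))ˣ) : BAmice (constK₁ L i j)) := by
  rw [SubmonoidClass.coe_pow, coe_YInt, map_pow, toY_Y, zpow_natCast, Units.val_pow_eq_pow_val]

include Xb in
/-- **the order of the `X`-expansion of a function of the level outside `p2` is the order of its
reduction at the branch `s₁ e`**; the leading constant has norm `1`. -/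
theorem hasLead_toX_levelExpand {y : (L.level i).R} (hy : y ∉ (L.level i).p2) :
    ∃ c : constK₁ L i j, ‖c‖ = 1 ∧
      HasLead (toX ((levelExpand L i j hj hfull hcol y : NodeInt (thickK₁ L i j)) :
        NodeB (thickK₁ L i j))) c ((S₀.s₁ e).ord (Xb.red₁ i y)) := by
  obtain ⟨n, s, hs, -, hord, hmem⟩ := levelTaylorX Xb i j hj hfull hcol hy
  have hsu : IsUnit (levelExpand L i j hj hfull hcol s) := hs.map _
  obtain ⟨c, hc1, hcX, -⟩ := hasLead_of_isUnit_nodeInt (isDiscreteNorm_unifK₁ L i j hj)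
    (thickK₁_ne_zero L i j hj) (norm_thickK₁_lt_one L i j hj) hsu
  -- the main term
  have hmain : HasLead (toX (((XInt (thickK₁_ne_zero L i j hj) (norm_thickK₁_lt_one L i j hj).le ^ n *
      levelExpand L i j hj hfull hcol s : NodeInt (thickK₁ L i j)) : NodeB (thickK₁ L i j))))
      c (n : ℤ) := by
    rw [Subring.coe_mul, map_mul, toX_XInt_pow i j hj]
    have := (hasLead_X_zpow (K := constK₁ L i j) (n : ℤ)).mul hcX
    rwa [one_mul, add_zero] at this
  -- the perturbation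
  have hδ : ‖toX (((levelExpand L i j hj hfull hcol y -
      XInt (thickK₁_ne_zero L i j hj) (norm_thickK₁_lt_one L i j hj).le ^ n *
        levelExpand L i j hj hfull hcol s : NodeInt (thickK₁ L i j)) : NodeB (thickK₁ L i j)))‖ <
      ‖toX (((XInt (thickK₁_ne_zero L i j hj) (norm_thickK₁_lt_one L i j hj).le ^ n *
        levelExpand L i j hj hfull hcol s : NodeInt (thickK₁ L i j)) :
          NodeB (thickK₁ L i j)))‖ := by
    rw [hmain.norm_eq, hc1]
    exact mem_idealX.1 hmem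
  obtain ⟨c', hc', hcc'⟩ := hmain.add_of_norm_lt hδ
  refine ⟨c', ?_, ?_⟩
  · have h1 := hc'.norm_eq
    rw [Fermat.Agent.FF4.AmiceLead.norm_add_eq_of_norm_lt hδ, hmain.norm_eq, hc1] at h1
    exact h1.symm
  · rw [hord]
    have e1 : toX (((XInt (thickK₁_ne_zero L i j hj) (norm_thickK₁_lt_one L i j hj).le ^ n *
        levelExpand L i j hj hfull hcol s : NodeInt (thickK₁ L i j)) : NodeB (thickK₁ L i j))) +
        toX (((levelExpand L i j hj hfull hcol y -
          XInt (thickK₁_ne_zero L i j hj) (norm_thickK₁_lt_one L i j hj).le ^ n *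
            levelExpand L i j hj hfull hcol s : NodeInt (thickK₁ L i j)) :
              NodeB (thickK₁ L i j))) =
        toX ((levelExpand L i j hj hfull hcol y : NodeInt (thickK₁ L i j)) :
          NodeB (thickK₁ L i j)) := by
      rw [← map_add, ← Subring.coe_add]
      congr 2
      ring
    rw [← e1]
    exact hc'

include Xb in
/-- **the order of the `Y`-expansion of a function of the level outside `p1` is the order of its
reduction at the branch `s₂ e`**; the leading constant has norm `1`. -/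
theorem hasLead_toY_levelExpand {y : (L.level i).R} (hy : y ∉ (L.level i).p1) :
    ∃ c : constK₁ L i j, ‖c‖ = 1 ∧
      HasLead (toY ((levelExpand L i j hj hfull hcol y : NodeInt (thickK₁ L i j)) :
        NodeB (thickK₁ L i j))) c ((S₀.s₂ e).ord (Xb.red₂ i y)) := by
  obtain ⟨n, s, hs, -, hord, hmem⟩ := levelTaylorY Xb i j hj hfull hcol hy
  have hsu : IsUnit (levelExpand L i j hj hfull hcol s) := hs.map _
  obtain ⟨c, hc1, -, hcY⟩ := hasLead_of_isUnit_nodeInt (isDiscreteNorm_unifK₁ L i j hj)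
    (thickK₁_ne_zero L i j hj) (norm_thickK₁_lt_one L i j hj) hsu
  have hmain : HasLead (toY (((YInt (thickK₁_ne_zero L i j hj) (norm_thickK₁_lt_one L i j hj).le ^ n *
      levelExpand L i j hj hfull hcol s : NodeInt (thickK₁ L i j)) : NodeB (thickK₁ L i j))))
      c (n : ℤ) := by
    rw [Subring.coe_mul, map_mul, toY_YInt_pow i j hj]
    have := (hasLead_X_zpow (K := constK₁ L i j) (n : ℤ)).mul hcY
    rwa [one_mul, add_zero] at this
  have hδ : ‖toY (((levelExpand L i j hj hfull hcol y -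
      YInt (thickK₁_ne_zero L i j hj) (norm_thickK₁_lt_one L i j hj).le ^ n *
        levelExpand L i j hj hfull hcol s : NodeInt (thickK₁ L i j)) : NodeB (thickK₁ L i j)))‖ <
      ‖toY (((YInt (thickK₁_ne_zero L i j hj) (norm_thickK₁_lt_one L i j hj).le ^ n *
        levelExpand L i j hj hfull hcol s : NodeInt (thickK₁ L i j)) :
          NodeB (thickK₁ L i j)))‖ := by
    rw [hmain.norm_eq, hc1]
    exact mem_idealY.1 hmem
  obtain ⟨c', hc', hcc'⟩ := hmain.add_of_norm_lt hδ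
  refine ⟨c', ?_, ?_⟩
  · have h1 := hc'.norm_eq
    rw [Fermat.Agent.FF4.AmiceLead.norm_add_eq_of_norm_lt hδ, hmain.norm_eq, hc1] at h1
    exact h1.symm
  · rw [hord]
    have e1 : toY (((YInt (thickK₁_ne_zero L i j hj) (norm_thickK₁_lt_one L i j hj).le ^ n *
        levelExpand L i j hj hfull hcol s : NodeInt (thickK₁ L i j)) : NodeB (thickK₁ L i j))) +
        toY (((levelExpand L i j hj hfull hcol y -
          YInt (thickK₁_ne_zero L i j hj) (norm_thickK₁_lt_one L i j hj).le ^ n *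
            levelExpand L i j hj hfull hcol s : NodeInt (thickK₁ L i j)) :
              NodeB (thickK₁ L i j))) =
        toY ((levelExpand L i j hj hfull hcol y : NodeInt (thickK₁ L i j)) :
          NodeB (thickK₁ L i j)) := by
      rw [← map_add, ← Subring.coe_add]
      congr 2
      ring
    rw [← e1]
    exact hc'

/-! ### the node input: orders of `b1F`, `b2F` -/

variable {Xb i j hj hfull hcol}
variable {F₀ : Subfield F} {ϖ₀ : F₀} {C : CompPack.{0, u, 0, 0, 0, 0, w} S₀ F₀ ϖ₀}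
  (I : NodeInput Xb i j hj hfull hcol C)

section Src

variable (hdv : IsDV C (S₀.src e))

/-- the order and the norm of the leading constant of the expansion of a function of the level
outside `p2`, on the side of `src e` -/
theorem ord₁_ℓ₁ {y : (L.level i).R} (hy : y ∉ (L.level i).p2) :
    ord₁ I hdv ((I.ℓ₁ y : C.Oh (S₀.src e)) : C.Lh (S₀.src e)) = (S₀.s₁ e).ord (Xb.red₁ i y) ∧
      ‖lead₁ I hdv ((I.ℓ₁ y : C.Oh (S₀.src e)) : C.Lh (S₀.src e))‖ = 1 := by
  obtain ⟨c, hc1, hc⟩ := hasLead_toX_levelExpand Xb i j hj hfull hcol hy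
  have h1 : b1F I hdv ((I.ℓ₁ y : C.Oh (S₀.src e)) : C.Lh (S₀.src e)) =
      toX ((levelExpand L i j hj hfull hcol y : NodeInt (thickK₁ L i j)) :
        NodeB (thickK₁ L i j)) := by
    rw [b1F_coe, I.ℓ₁_apply, I.comm₁]
  rw [← h1] at hc
  obtain ⟨h2, h3⟩ := lead₁_eq_of_hasLead I hdv hc
  exact ⟨h3, by rw [h2, hc1]⟩

/-- **L3 core, side of `src e`**: for a rational function `x` of the level which is a unit on the
component `src e`, the order of the expansion `b1F (emb x)` is the order at the branch `s₁ e` of its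
reduction, and the leading constant has norm `1`. -/
theorem ord₁_emb_of_res_ne_zero {x : F₀} (hx : (x : F) ∈ S₀.O (S₀.src e))
    (hres : S₀.res (S₀.src e) ⟨x, hx⟩ ≠ 0) :
    ord₁ I hdv (C.emb (S₀.src e) x) = (S₀.s₁ e).ord (S₀.res (S₀.src e) ⟨x, hx⟩) ∧
      ‖lead₁ I hdv (C.emb (S₀.src e) x)‖ = 1 := by
  obtain ⟨a, b, hb, hab⟩ := I.frac x
  obtain ⟨a', s, hs, has⟩ := GaussLoc.exists_mul_eq_of_mem_src Xb i hx hb hab
  have hs0 : Xb.red₁ i s ≠ 0 := by
    intro h0
    exact hs (by rw [← ker_red₁ Xb i, RingHom.mem_ker]; exact h0)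
  -- the reductions
  have hred : S₀.res (S₀.src e) ⟨x, hx⟩ * Xb.red₁ i s = Xb.red₁ i a' := by
    rw [Xb.red₁_apply, Xb.red₁_apply, ← map_mul]
    congr 1
    exact Subtype.ext has
  have ha'0 : Xb.red₁ i a' ≠ 0 := by
    rw [← hred]
    exact mul_ne_zero hres hs0
  have ha' : a' ∉ (L.level i).p2 := by
    intro h
    rw [← ker_red₁ Xb i, RingHom.mem_ker] at h
    exact ha'0 h
  obtain ⟨hos, hns⟩ := ord₁_ℓ₁ I hdv hs
  obtain ⟨hoa, hna⟩ := ord₁_ℓ₁ I hdv ha'
  -- the identity in the completed field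
  have hemb : C.emb (S₀.src e) x * ((I.ℓ₁ s : C.Oh (S₀.src e)) : C.Lh (S₀.src e)) =
      ((I.ℓ₁ a' : C.Oh (S₀.src e)) : C.Lh (S₀.src e)) := by
    show C.emb (S₀.src e) x * C.emb (S₀.src e) (I.toF₀ s) = C.emb (S₀.src e) (I.toF₀ a')
    rw [← map_mul]
    congr 1
    exact Subtype.ext has
  have hx0 : C.emb (S₀.src e) x ≠ 0 := by
    intro h0
    rw [h0, zero_mul] at hemb
    have h1 : lead₁ I hdv ((I.ℓ₁ a' : C.Oh (S₀.src e)) : C.Lh (S₀.src e)) = 0 := by
      rw [← hemb, lead₁_zero]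
    rw [h1, norm_zero] at hna
    exact zero_ne_one hna
  have hs0' : ((I.ℓ₁ s : C.Oh (S₀.src e)) : C.Lh (S₀.src e)) ≠ 0 := by
    intro h0
    have h1 : lead₁ I hdv ((I.ℓ₁ s : C.Oh (S₀.src e)) : C.Lh (S₀.src e)) = 0 := by
      rw [h0, lead₁_zero]
    rw [h1, norm_zero] at hns
    exact zero_ne_one hns
  have ho := ord₁_mul I hdv hx0 hs0'
  have hl := lead₁_mul I hdv hx0 hs0'
  rw [hemb] at ho hl
  have hord : (S₀.s₁ e).ord (Xb.red₁ i a') =
      (S₀.s₁ e).ord (S₀.res (S₀.src e) ⟨x, hx⟩) + (S₀.s₁ e).ord (Xb.red₁ i s) := by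
    rw [← hred, Place.ord_mul _ hres hs0]
  refine ⟨?_, ?_⟩
  · rw [hoa, hos, hord] at ho
    linarith
  · have := congrArg norm hl
    rw [norm_mul, hna, hns, mul_one] at this
    exact this.symm

end Src

section Tgt

variable (hdv : IsDV C (S₀.tgt e))

/-- the order and the norm of the leading constant of the expansion of a function of the level
outside `p1`, on the side of `tgt e` -/
theorem ord₂_ℓ₂ {y : (L.level i).R} (hy : y ∉ (L.level i).p1) :
    ord₂ I hdv ((I.ℓ₂ y : C.Oh (S₀.tgt e)) : C.Lh (S₀.tgt e)) = (S₀.s₂ e).ord (Xb.red₂ i y) ∧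
      ‖lead₂ I hdv ((I.ℓ₂ y : C.Oh (S₀.tgt e)) : C.Lh (S₀.tgt e))‖ = 1 := by
  obtain ⟨c, hc1, hc⟩ := hasLead_toY_levelExpand Xb i j hj hfull hcol hy
  have h1 : b2F I hdv ((I.ℓ₂ y : C.Oh (S₀.tgt e)) : C.Lh (S₀.tgt e)) =
      toY ((levelExpand L i j hj hfull hcol y : NodeInt (thickK₁ L i j)) :
        NodeB (thickK₁ L i j)) := by
    rw [b2F_coe, I.ℓ₂_apply, I.comm₂]
  rw [← h1] at hc
  obtain ⟨h2, h3⟩ := lead₂_eq_of_hasLead I hdv hc
  exact ⟨h3, by rw [h2, hc1]⟩

/-- **L3 core, side of `tgt e`**: for a rational function `x` of the level which is a unit on the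
component `tgt e`, the order of the expansion `b2F (emb x)` is the order at the branch `s₂ e` of its
reduction, and the leading constant has norm `1`. -/
theorem ord₂_emb_of_res_ne_zero {x : F₀} (hx : (x : F) ∈ S₀.O (S₀.tgt e))
    (hres : S₀.res (S₀.tgt e) ⟨x, hx⟩ ≠ 0) :
    ord₂ I hdv (C.emb (S₀.tgt e) x) = (S₀.s₂ e).ord (S₀.res (S₀.tgt e) ⟨x, hx⟩) ∧
      ‖lead₂ I hdv (C.emb (S₀.tgt e) x)‖ = 1 := by
  obtain ⟨a, b, hb, hab⟩ := I.frac x
  obtain ⟨a', s, hs, has⟩ := GaussLoc.exists_mul_eq_of_mem_tgt Xb i hx hb hab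
  have hs0 : Xb.red₂ i s ≠ 0 := by
    intro h0
    exact hs (by rw [← ker_red₂ Xb i, RingHom.mem_ker]; exact h0)
  -- the reductions
  have hred : S₀.res (S₀.tgt e) ⟨x, hx⟩ * Xb.red₂ i s = Xb.red₂ i a' := by
    rw [Xb.red₂_apply, Xb.red₂_apply, ← map_mul]
    congr 1
    exact Subtype.ext has
  have ha'0 : Xb.red₂ i a' ≠ 0 := by
    rw [← hred]
    exact mul_ne_zero hres hs0
  have ha' : a' ∉ (L.level i).p1 := by
    intro h
    rw [← ker_red₂ Xb i, RingHom.mem_ker] at h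
    exact ha'0 h
  obtain ⟨hos, hns⟩ := ord₂_ℓ₂ I hdv hs
  obtain ⟨hoa, hna⟩ := ord₂_ℓ₂ I hdv ha'
  -- the identity in the completed field
  have hemb : C.emb (S₀.tgt e) x * ((I.ℓ₂ s : C.Oh (S₀.tgt e)) : C.Lh (S₀.tgt e)) =
      ((I.ℓ₂ a' : C.Oh (S₀.tgt e)) : C.Lh (S₀.tgt e)) := by
    show C.emb (S₀.tgt e) x * C.emb (S₀.tgt e) (I.toF₀ s) = C.emb (S₀.tgt e) (I.toF₀ a')
    rw [← map_mul]
    congr 1
    exact Subtype.ext has
  have hx0 : C.emb (S₀.tgt e) x ≠ 0 := by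
    intro h0
    rw [h0, zero_mul] at hemb
    have h1 : lead₂ I hdv ((I.ℓ₂ a' : C.Oh (S₀.tgt e)) : C.Lh (S₀.tgt e)) = 0 := by
      rw [← hemb, lead₂_zero]
    rw [h1, norm_zero] at hna
    exact zero_ne_one hna
  have hs0' : ((I.ℓ₂ s : C.Oh (S₀.tgt e)) : C.Lh (S₀.tgt e)) ≠ 0 := by
    intro h0
    have h1 : lead₂ I hdv ((I.ℓ₂ s : C.Oh (S₀.tgt e)) : C.Lh (S₀.tgt e)) = 0 := by
      rw [h0, lead₂_zero]
    rw [h1, norm_zero] at hns
    exact zero_ne_one hns
  have ho := ord₂_mul I hdv hx0 hs0'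
  have hl := lead₂_mul I hdv hx0 hs0'
  rw [hemb] at ho hl
  have hord : (S₀.s₂ e).ord (Xb.red₂ i a') =
      (S₀.s₂ e).ord (S₀.res (S₀.tgt e) ⟨x, hx⟩) + (S₀.s₂ e).ord (Xb.red₂ i s) := by
    rw [← hred, Place.ord_mul _ hres hs0]
  refine ⟨?_, ?_⟩
  · rw [hoa, hos, hord] at ho
    linarith
  · have := congrArg norm hl
    rw [norm_mul, hna, hns, mul_one] at this
    exact this.symm

end Tgt

end Level

end Fermat.Agent.FF4.SlopeCore
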