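/-
PROGRAMME II (S44), kernel K1, leaf L3 (SlopeBridge), THE RESIDUE WRAPPER (helper27), on
helper20's `FF4/SlopeCore` (`ord₁_emb_of_res_ne_zero`).

Abstract over a node input `I : ExpandBR.NodeInput Xb i j hj hfull hcol C` (`FF4/BdryFrac`):
for EVERY nonzero rational function `f` of the level,

  `∃ g, Filt.IsResidue S₀ (src e) f g ∧ ord₁ I hdv (emb f) = (S₀.s₁ e).ord g`   (`exists_isResidue_ord₁`)

i.e. THE ORDER `aX` OF THE LEADING TERM OF THE BOUNDARY EXPANSION `b1F (emb f)` AT THE NODE `e` IS THE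
ORDER AT THE BRANCH `s₁ e` OF A RESIDUE OF `f` ON THE SOURCE COMPONENT (= helper24's slope,
`Hecke2.IsSlope`, before reduction modulo `m`).  `exists_isResidue_of_hasLead` is the `HasLead` form
consumed by the assembly.  Proof: `emb f = unif ^ n * w` (`IsDV`), `x := f * ϖ₀ ^ (-n)` is a unit on
the component, `c := ϖ ^ (-n)` is the constant of the residue, and `ord₁ (unif ^ n) = 0`.
-/
import Mathlib
import Fermat.Agent.FF4.SlopeCore
import Fermat.Agent.BR2.Filtration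

set_option autoImplicit false
set_option linter.unusedSectionVars false

noncomputable section

namespace Fermat.Agent.FF4.SlopeBridge

open AlgebraicCurve IsLocalRing Fermat.Agent.Red Fermat.Agent.BR.Centre Fermat.Agent.BR.SS
  Fermat.Agent.BR.Refine Fermat.Agent.BR.S0 Fermat.Agent.BR.S0.AnnulusChartOfLevels
  Fermat.Agent.FF3 Fermat.Agent.FF3.Amice Fermat.Agent.FF3.AmiceU Fermat.Agent.FF3.B4
  Fermat.Agent.FF3.ExpandBR Fermat.Agent.FF3.NodeRing Fermat.Agent.FF4.AmiceLead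
  Fermat.Agent.FF4.BdryFrac Fermat.Agent.FF4.SlopeCore Fermat.Agent.BR2

attribute [local instance] normedAlgebraSubfield
attribute [local instance] nontrivial_bAmice

universe u w

variable {K : Type} {F : Type u} [Field K] [Field F] [Algebra K F]
  {A : ValuationSubring K} [IsAlgClosed (ResidueField A)]
  {ι₀ : Type} {Ft₀ : ι₀ → Type} [∀ v, Field (Ft₀ v)] [∀ v, Algebra (ResidueField A) (Ft₀ v)]
  {ν₀ : Type} {S₀ : SemistableSetup (F := F) A (residue A) ι₀ Ft₀ ν₀} {e : ν₀} {ι : Type*}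
  {L : AnnulusLevels A (tube S₀ e) ι} {Xb : BranchData S₀ e L} {i : ι}
  {Ω : Type w} [NormedField Ω] [IsUltrametricDist Ω] [CompleteSpace Ω]
  {j : K →+* Ω} {hj : ∀ c : K, ‖j c‖ ≤ 1 ↔ c ∈ A}
  {hfull : LevelFullRes L i} {hcol : DenseNearOne j}
  {F₀ : Subfield F} {ϖ₀ : F₀} {C : CompPack.{0, u, 0, 0, 0, 0, w} S₀ F₀ ϖ₀}
  (I : NodeInput Xb i j hj hfull hcol C)

section Src

variable (hdv : IsDV C (S₀.src e))

include I in
theorem unif₀_ne_zero : ϖ₀ ≠ 0 := by
  intro h0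
  have h1 : ((ϖ₀ : F₀) : F) = 0 := by rw [h0]; rfl
  rw [I.unif_eq] at h1
  exact (L.level i).unif_ne ((map_eq_zero _).mp h1)

include I in
theorem unif_src_ne_zero : C.unif (S₀.src e) ≠ 0 := by
  intro h0
  have h1 : C.emb (S₀.src e) ϖ₀ = 0 := congrArg Subtype.val h0
  exact unif₀_ne_zero I ((map_eq_zero _).mp h1)

/-- the order of a power of the uniformiser is `0` -/
theorem ord₁_unif_pow (m : ℕ) :
    ord₁ I hdv (((C.unif (S₀.src e) : C.Oh (S₀.src e)) : C.Lh (S₀.src e)) ^ m) = 0 := by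
  have hne : unifK₁ L i j ≠ 0 := unifK₁_ne_zero' (hj := hj)
  have h1 : HasLead (b1F I hdv ((C.unif (S₀.src e) : C.Oh (S₀.src e)) : C.Lh (S₀.src e)))
      (unifK₁ L i j) 0 := by
    rw [b1F_coe, I.b1_unif]
    exact hasLead_algebraMap hne
  have h2 := h1.pow m
  rw [← map_pow, mul_zero] at h2
  exact (lead₁_eq_of_hasLead I hdv h2).2

/-- **L3, side of `src e`**: every nonzero rational function of the level has a residue on the
component `src e` whose order at the branch `s₁ e` is the order of the leading term of its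
boundary expansion at the node `e`. -/
theorem exists_isResidue_ord₁ {f : F₀} (hf : f ≠ 0) :
    ∃ g : Ft₀ (S₀.src e), Filt.IsResidue S₀ (S₀.src e) (f : F) g ∧
      ord₁ I hdv (C.emb (S₀.src e) f) = (S₀.s₁ e).ord g := by
  have hϖ₀ := unif₀_ne_zero I
  have hu := unif_src_ne_zero I
  have hu' : ((C.unif (S₀.src e) : C.Oh (S₀.src e)) : C.Lh (S₀.src e)) ≠ 0 :=
    fun h0 => hu (Subtype.ext h0)
  have hef : C.emb (S₀.src e) f ≠ 0 := (map_ne_zero _).mpr hf
  obtain ⟨n, w, hw⟩ := hdv.exists_zpow hu (C.emb (S₀.src e) f) hef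
  have hw0 : ((w : C.Oh (S₀.src e)) : C.Lh (S₀.src e)) ≠ 0 := by
    intro h0
    rw [h0, mul_zero] at hw
    exact hef hw
  -- the normalised function
  set x : F₀ := f * ϖ₀ ^ (-n) with hx
  have hembϖ : C.emb (S₀.src e) ϖ₀ = ((C.unif (S₀.src e) : C.Oh (S₀.src e)) : C.Lh (S₀.src e)) :=
    rfl
  have hembx : C.emb (S₀.src e) x = ((w : C.Oh (S₀.src e)) : C.Lh (S₀.src e)) := by
    rw [hx, map_mul, map_zpow₀, hembϖ, hw, zpow_neg]
    field_simp
  have hxO : (x : F) ∈ S₀.O (S₀.src e) := by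
    rw [← C.emb_mem_iff, hembx]
    exact (w : C.Oh (S₀.src e)).2
  have hres : S₀.res (S₀.src e) ⟨x, hxO⟩ ≠ 0 := by
    rw [← C.resh_emb (S₀.src e) x hxO]
    have h1 : (⟨C.emb (S₀.src e) x, (C.emb_mem_iff (S₀.src e) x).2 hxO⟩ : C.Oh (S₀.src e)) =
        (w : C.Oh (S₀.src e)) := Subtype.ext hembx
    rw [h1]
    exact (w.isUnit.map (C.resh (S₀.src e))).ne_zero
  -- the constant
  have hc0 : (L.level i).ϖ ^ (-n) ≠ 0 := zpow_ne_zero _ (L.level i).unif_ne
  have hcf : ((L.level i).ϖ ^ (-n)) • (f : F) = (x : F) := by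
    rw [Algebra.smul_def, map_zpow₀, ← I.unif_eq, hx, mul_comm]
    push_cast
    rfl
  refine ⟨S₀.res (S₀.src e) ⟨x, hxO⟩, ⟨hres, (L.level i).ϖ ^ (-n), hc0, by rw [hcf]; exact hxO, ?_⟩,
    ?_⟩
  · congr 1
    exact Subtype.ext hcf
  · rw [← (ord₁_emb_of_res_ne_zero I hdv hxO hres).1]
    have hx0 : C.emb (S₀.src e) x ≠ 0 := by rw [hembx]; exact hw0
    rcases Int.eq_nat_or_neg n with ⟨m, rfl | rfl⟩
    · have h1 : C.emb (S₀.src e) f = C.emb (S₀.src e) x *
          ((C.unif (S₀.src e) : C.Oh (S₀.src e)) : C.Lh (S₀.src e)) ^ m := by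
        rw [hembx, hw, zpow_natCast, mul_comm]
      rw [h1, ord₁_mul I hdv hx0 (pow_ne_zero m hu'), ord₁_unif_pow, add_zero]
    · have h1 : C.emb (S₀.src e) f *
          ((C.unif (S₀.src e) : C.Oh (S₀.src e)) : C.Lh (S₀.src e)) ^ m = C.emb (S₀.src e) x := by
        rw [hembx, hw, zpow_neg, zpow_natCast]
        field_simp
      rw [← h1, ord₁_mul I hdv hef (pow_ne_zero m hu'), ord₁_unif_pow, add_zero]

/-- **L3 in `HasLead` form** (the shape consumed by the assembly) -/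
theorem exists_isResidue_of_hasLead {f : F₀} {cX : constK₁ L i j} {aX : ℤ}
    (hX : HasLead (b1F I hdv (C.emb (S₀.src e) f)) cX aX) :
    ∃ g : Ft₀ (S₀.src e), Filt.IsResidue S₀ (S₀.src e) (f : F) g ∧ (S₀.s₁ e).ord g = aX := by
  have hf : f ≠ 0 := by
    rintro rfl
    rw [map_zero, map_zero] at hX
    exact hX.ne_zero rfl
  obtain ⟨g, hg, hord⟩ := exists_isResidue_ord₁ I hdv hf
  exact ⟨g, hg, by rw [← hord, (lead₁_eq_of_hasLead I hdv hX).2]⟩

end Src

end Fermat.Agent.FF4.SlopeBridge
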