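/-
PROGRAMME II (S44), kernel K1, leaf L3 (SlopeBridge) AT THE MODULAR TOWER (helper27).

`I_e := BLift.nodeInput_modular B hB hqM hne e j hj S D hO hw` (helper16), `b1F` (helper20), any
component data `(D, hO, hw)` over `FS (M q) q S`.  For `h ∈ F_S` and ANY leading data
`HasLead (b1F I_e (emb₀ h)) cX aX`:

* `exists_isResidue_modular` : `∃ g, Filt.IsResidue (setupFinal) 0 h g ∧ (z₁ e).ord g = aX`;
* `isSlope_modular` : if `(D', h)` represents the `m`-torsion class `x` then
  `Hecke2.IsSlope (SetupOfData.setup Dt) m x e (aX : ZMod m)`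
  (`SetupOfData.setup Dt = Final.setupFinal B hB hqM _` by `rfl`).
-/
import Mathlib
import Fermat.Agent.FF4.SlopeBridge
import Fermat.Agent.FF4.Hecke2.Defs
import Fermat.Agent.FF3.BLift.Modular
import Fermat.Agent.BR2.SetupOfData

set_option autoImplicit false
set_option linter.unusedSectionVars false
set_option synthInstance.maxHeartbeats 400000
set_option maxHeartbeats 4000000

noncomputable section

namespace Fermat.Agent.FF4.SlopeBridge

open AlgebraicCurve ModularCurve IsLocalRing Fermat.Agent.Red Fermat.Agent.X0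
  Fermat.Agent.BR Fermat.Agent.BR.Centre Fermat.Agent.BR.S0 Fermat.Agent.BR.SS
  Fermat.Agent.BR.Refine Fermat.Agent.BR.S0.RedModular
  Fermat.Agent.BR.S0.RedHyp Fermat.Agent.BR.S0.PointDict Fermat.Agent.BR.Inst.AnnulusInstFinal
  Fermat.Agent.BR.Inst.Levels Fermat.Agent.BR.Inst.NodeInst Fermat.Agent.BR.Inst.LocSub
  Fermat.Agent.BR.ValTwo
  Fermat.Agent.FF3 Fermat.Agent.FF3.B4 Fermat.Agent.FF3.DVCompl Fermat.Agent.FF3.ExpandBR
  Fermat.Agent.FF3.BLift
  Fermat.Agent.FF4.AmiceLead Fermat.Agent.FF4.BdryFrac Fermat.Agent.BR2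

attribute [local instance] normedAlgebraSubfield
attribute [local instance] nontrivial_bAmice

local notation "Kb" => AlgebraicClosure ℚ

variable {M q : ℕ} [NeZero M] [hq : Fact q.Prime]
variable (B : ValuationSubring Kb) (hB : B.LiesOverPrime q) (hqM : ¬ q ∣ M)
variable [IsAlgClosed (ResidueField B)]
variable (hne : Nonempty (Crossing (chartDataModular B hB hqM)))
variable (e : Crossing (chartDataModular B hB hqM))
variable {Ω : Type} [NormedField Ω] [IsUltrametricDist Ω] [CompleteSpace Ω]
  (j : Kb →+* Ω) (hj : ∀ c : Kb, ‖j c‖ ≤ 1 ↔ c ∈ B) (S : Finset Kb)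
variable (D : Fin 2 → Datum (FS (M * q) q S))
  (hO : ∀ v (x : FS (M * q) q S),
    x ∈ (D v).O₀ ↔ (x : Fb (M * q)) ∈ (Final.setupFinal B hB hqM hne).O v)
  (hw : ∀ v, (D v).w = unifFS (M := M) B hB S)

/-- **L3 at the modular tower**: the order of the leading term of the boundary expansion at the
crossing `e` of a function of the level is the order at the branch `z₁ e` of a residue of the
function on the component `0`. -/
theorem exists_isResidue_modular {h : FS (M * q) q S}
    {cX : constK₁ (annulusLevels_modular_final B hB hqM hne e) S j} {aX : ℤ}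
    (hX : HasLead (b1F (nodeInput_modular B hB hqM hne e j hj S D hO hw) (isDV_ofDatum D hO hw _)
      ((CompPack.ofDatum (Final.setupFinal B hB hqM hne) D hO hw).emb _ h)) cX aX) :
    ∃ g : modularFunctionFieldFullC (ResidueField B) M,
      Filt.IsResidue (Final.setupFinal B hB hqM hne) 0 (h : Fb (M * q)) g ∧
        (z₁ (chartDataModular B hB hqM) e).ord g = aX :=
  exists_isResidue_of_hasLead (nodeInput_modular B hB hqM hne e j hj S D hO hw)
    (isDV_ofDatum D hO hw _) hX

/-- **L3, slope form**: the order of the leading term of the boundary expansion at the crossing `e`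
of a representative `h` of the `m`-torsion class `x` is the slope of `x` at `e` (helper24's
`Hecke2.IsSlope`), modulo `m`. -/
theorem isSlope_modular (Dt : Final.ModularData M q B hB hqM) {m : ℕ} {x : JZero (M * q)}
    {D' : Divisor.degZero (K := Kb) (F := Fb (M * q))} {h : FS (M * q) q S}
    (hR : Filt.IsRep m x D' (h : Fb (M * q)))
    {cX : constK₁ (annulusLevels_modular_final B hB hqM hne e) S j} {aX : ℤ}
    (hX : HasLead (b1F (nodeInput_modular B hB hqM hne e j hj S D hO hw) (isDV_ofDatum D hO hw _)
      ((CompPack.ofDatum (Final.setupFinal B hB hqM hne) D hO hw).emb _ h)) cX aX) :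
    Hecke2.IsSlope (SetupOfData.setup Dt) m x e ((aX : ℤ) : ZMod m) := by
  obtain ⟨g, hg, hord⟩ := exists_isResidue_modular B hB hqM hne e j hj S D hO hw hX
  exact ⟨D', (h : Fb (M * q)), hR, g, hg, by rw [← hord]; rfl⟩

end Fermat.Agent.FF4.SlopeBridge
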