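import Mathlib

/-!
# PROGRAMME II (S40), block K4: the pure Galois-module end-game

Abstract setting: a group `G` (`= G_ℚ`) acting additively on `A` (`= J₀(M'p)(ℚ̄)`), a subgroup
`I ≤ G` (the inertia group at a place over `p`), an integer valued function `χ : G → ℤ`
(`= Cyclo.cycloLift (p ^ 1)`), and subgroups `U ≤ V ≤ A`, `V` killed by `p`.

* `line_of_not_trivial_of_not_scalar` : if `(s - 1) V ⊆ U` and `s = χ(s)` on `U` for `s ∈ I`, and `I`
  acts on `V` neither trivially nor through the scalars `χ(s)`, then `U ≠ ⊥` and `U ≠ V`;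
* `card_eq_prime_of_line` : then `|U| = p` if `|V| = p ^ 2`;
* `not_trivial_of_det`, `not_scalar_of_det` : the two non-degeneracy hypotheses from a
  two-dimensional linear model `e : V ≃+ W`, `W` a `k`-vector space of dimension `2`, on which `s ∈ I`
  acts with determinant `χ(s)`, and one `s₀ ∈ I` with `χ(s₀) ≠ 0, 1` in `k` (`p` odd: `χ(s₀) = 2`);
* `line_of_det`            : the combination (the line `U` of the det argument);
* `false_of_inertia_scalar` : `I` acts on `V` through the scalars `χ(s)` ⟹ `False`.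
-/

set_option autoImplicit false

namespace Fermat.Agent.FF4.S40Galois

variable {G A : Type*} [Group G] [AddCommGroup A] [DistribMulAction G A]

/-! ### The det-free core -/

/-- **The line `U`, det-free form.** -/
theorem line_of_not_trivial_of_not_scalar (I : Subgroup G) (χ : G → ℤ) (V U : AddSubgroup A)
    (hquot : ∀ s ∈ I, ∀ v ∈ V, s • v - v ∈ U)
    (hU : ∀ s ∈ I, ∀ u ∈ U, s • u = χ s • u)
    (hA : ¬ ∀ s ∈ I, ∀ v ∈ V, s • v = v)
    (hB : ¬ ∀ s ∈ I, ∀ v ∈ V, s • v = χ s • v) :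
    U ≠ ⊥ ∧ U ≠ V := by
  refine ⟨fun h => hA fun s hs v hv => ?_, fun h => hB fun s hs v hv => ?_⟩
  · have h1 := hquot s hs v hv
    rw [h, AddSubgroup.mem_bot, sub_eq_zero] at h1
    exact h1
  · exact hU s hs v (h ▸ hv)

/-- A subgroup `U ≠ ⊥, V` of a group `V` of order `p ^ 2` has order `p`. -/
theorem card_eq_prime_of_line {p : ℕ} (hp : p.Prime) (V U : AddSubgroup A) (hUV : U ≤ V)
    (hV : Nat.card V = p ^ 2) (h0 : U ≠ ⊥) (h1 : U ≠ V) : Nat.card U = p := by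
  have : Finite V := Nat.finite_of_card_ne_zero (by rw [hV]; exact pow_ne_zero _ hp.ne_zero)
  -- `U` as a subgroup of `V`
  let U' : AddSubgroup V := U.addSubgroupOf V
  have hcard : Nat.card U' = Nat.card U :=
    Nat.card_congr (AddSubgroup.addSubgroupOfEquivOfLe hUV).toEquiv
  have hdvd : Nat.card U' ∣ p ^ 2 := hV ▸ AddSubgroup.card_addSubgroup_dvd_card U'
  obtain ⟨i, hi, hiU⟩ := (Nat.dvd_prime_pow hp).mp hdvd
  rw [hcard] at hiU
  have : Finite U := Nat.finite_of_card_ne_zero (by rw [hiU]; exact pow_ne_zero _ hp.ne_zero)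
  interval_cases i
  · exfalso
    apply h0
    rw [pow_zero] at hiU
    rw [AddSubgroup.eq_bot_iff_forall]
    intro x hx
    have hsub : Subsingleton U := (Nat.card_eq_one_iff_unique.mp hiU).1
    have := Subsingleton.elim (⟨x, hx⟩ : U) 0
    exact congrArg Subtype.val this
  · rw [hiU, pow_one]
  · exfalso
    apply h1
    apply le_antisymm hUV
    intro v hv
    -- `U' = ⊤` by cardinality
    have htop : U' = ⊤ := by
      apply AddSubgroup.eq_top_of_card_eq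
      rw [hcard, hiU, hV]
    have : (⟨v, hv⟩ : V) ∈ U' := htop ▸ AddSubgroup.mem_top _
    exact (AddSubgroup.mem_addSubgroupOf).mp this

/-! ### From a two-dimensional linear model with determinant `χ` -/

section Det

variable {k : Type*} [Field k] {W : Type*} [AddCommGroup W] [Module k W]

/-- `I` does not act trivially on `V`. -/
theorem not_trivial_of_det (I : Subgroup G) (χ : G → ℤ) (V : AddSubgroup A)
    (hstab : ∀ (s : G), ∀ v ∈ V, s • v ∈ V)
    (ρ : G → W →ₗ[k] W) (e : V ≃+ W)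
    (he : ∀ (s : G) (v : V), e ⟨s • (v : A), hstab s v v.2⟩ = ρ s (e v))
    (hdet : ∀ s ∈ I, LinearMap.det (ρ s) = (χ s : k))
    (hχ : ∃ s₀ ∈ I, (χ s₀ : k) ≠ 1) :
    ¬ ∀ s ∈ I, ∀ v ∈ V, s • v = v := by
  intro h
  obtain ⟨s₀, hs₀, hne⟩ := hχ
  apply hne
  rw [← hdet s₀ hs₀]
  have : ρ s₀ = LinearMap.id := by
    apply LinearMap.ext
    intro w
    obtain ⟨v, rfl⟩ := e.surjective w
    rw [← he s₀ v, LinearMap.id_apply]
    congr 1
    exact Subtype.ext (h s₀ hs₀ v v.2)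
  rw [this, LinearMap.det_id]

/-- `I` does not act on `V` through the scalars `χ(s)`. -/
theorem not_scalar_of_det (hW : Module.finrank k W = 2) (I : Subgroup G) (χ : G → ℤ)
    (V : AddSubgroup A) (hstab : ∀ (s : G), ∀ v ∈ V, s • v ∈ V)
    (ρ : G → W →ₗ[k] W) (e : V ≃+ W)
    (he : ∀ (s : G) (v : V), e ⟨s • (v : A), hstab s v v.2⟩ = ρ s (e v))
    (hdet : ∀ s ∈ I, LinearMap.det (ρ s) = (χ s : k))
    (hχ : ∃ s₀ ∈ I, (χ s₀ : k) ≠ 1 ∧ (χ s₀ : k) ≠ 0) :
    ¬ ∀ s ∈ I, ∀ v ∈ V, s • v = χ s • v := by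
  intro h
  obtain ⟨s₀, hs₀, hne1, hne0⟩ := hχ
  have hρ : ρ s₀ = (χ s₀ : k) • (LinearMap.id : W →ₗ[k] W) := by
    apply LinearMap.ext
    intro w
    obtain ⟨v, rfl⟩ := e.surjective w
    rw [← he s₀ v, LinearMap.smul_apply, LinearMap.id_apply]
    have h1 : (⟨s₀ • (v : A), hstab s₀ v v.2⟩ : V) = χ s₀ • v :=
      Subtype.ext (by
        show s₀ • (v : A) = ((χ s₀ • v : V) : A)
        rw [AddSubgroup.coe_zsmul]
        exact h s₀ hs₀ v v.2)
    rw [h1, map_zsmul, Int.cast_smul_eq_zsmul]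
  have hd := hdet s₀ hs₀
  rw [hρ, LinearMap.det_smul, hW, LinearMap.det_id, mul_one] at hd
  -- `c ^ 2 = c`, `c ≠ 0`, `c ≠ 1`
  have h2 : (χ s₀ : k) * ((χ s₀ : k) - 1) = 0 := by
    have : (χ s₀ : k) ^ 2 = (χ s₀ : k) := hd
    linear_combination this
  rcases mul_eq_zero.mp h2 with h3 | h3
  · exact hne0 h3
  · exact hne1 (sub_eq_zero.mp h3)

/-- **The line `U` of the det argument.** `V ≃ W` two-dimensional with `det = χ` on `I`,
`(s - 1) V ⊆ U`, `s = χ(s)` on `U` for `s ∈ I`, and `χ(s₀) ≠ 0, 1` for one `s₀ ∈ I`: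
then `U ≠ ⊥` and `U ≠ V`. -/
theorem line_of_det (hW : Module.finrank k W = 2) (I : Subgroup G) (χ : G → ℤ)
    (V U : AddSubgroup A) (hstab : ∀ (s : G), ∀ v ∈ V, s • v ∈ V)
    (ρ : G → W →ₗ[k] W) (e : V ≃+ W)
    (he : ∀ (s : G) (v : V), e ⟨s • (v : A), hstab s v v.2⟩ = ρ s (e v))
    (hdet : ∀ s ∈ I, LinearMap.det (ρ s) = (χ s : k))
    (hχ : ∃ s₀ ∈ I, (χ s₀ : k) ≠ 1 ∧ (χ s₀ : k) ≠ 0)
    (hquot : ∀ s ∈ I, ∀ v ∈ V, s • v - v ∈ U)
    (hU : ∀ s ∈ I, ∀ u ∈ U, s • u = χ s • u) :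
    U ≠ ⊥ ∧ U ≠ V :=
  line_of_not_trivial_of_not_scalar I χ V U hquot hU
    (not_trivial_of_det I χ V hstab ρ e he hdet
      (let ⟨s₀, hs₀, h1, _⟩ := hχ; ⟨s₀, hs₀, h1⟩))
    (not_scalar_of_det hW I χ V hstab ρ e he hdet hχ)

/-- **The final contradiction.** If `I` acts on the two-dimensional `V` (determinant `χ`) through
the scalars `χ(s)` (`V` inside the toric part: TorEps), then `False`. -/
theorem false_of_inertia_scalar (hW : Module.finrank k W = 2) (I : Subgroup G) (χ : G → ℤ)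
    (V : AddSubgroup A) (hstab : ∀ (s : G), ∀ v ∈ V, s • v ∈ V)
    (ρ : G → W →ₗ[k] W) (e : V ≃+ W)
    (he : ∀ (s : G) (v : V), e ⟨s • (v : A), hstab s v v.2⟩ = ρ s (e v))
    (hdet : ∀ s ∈ I, LinearMap.det (ρ s) = (χ s : k))
    (hχ : ∃ s₀ ∈ I, (χ s₀ : k) ≠ 1 ∧ (χ s₀ : k) ≠ 0)
    (hscal : ∀ s ∈ I, ∀ v ∈ V, s • v = χ s • v) : False :=
  not_scalar_of_det hW I χ V hstab ρ e he hdet hχ hscal

end Det

end Fermat.Agent.FF4.S40Galois
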