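/-
PROGRAMME II (row 38, target S44), kernel (K-GAL) (helper1): PROVED.

`kGal W hΔ hp hp2 : KGal W p M'` in the literal of `FF4/S40Skeleton.lean` (helper4, vendored
byte-identically from origin/helper4 95143af6 = 117387e0; it is the `KGal` consumed by
`FF4/S44Skeleton.lean` v3 at `M' := M' * r`): if the inertia group at a place `B ∣ p` acts on a pack
`V ≅ W[p]` through the scalars `χ_p(s)` (mod `p` cyclotomic character), then `False`.
`false_of_inertiaCyclo` is the same for a pack at ANY level `L`.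

Proof: `det ρ̄_{W,p} = χ_p` (`FF4/DetCyclo.det_rhoV_cycloLift`: Cayley–Hamilton for Frobenius +
eigenvalue criterion + Chebotarev), `dim W[p] = 2`, and an element `s₀` of the inertia group with
`χ_p(s₀) = 2` (`BR3/WildCyclo.exists_inertia_apply_eq_pow`, `p` odd): `4 = det = 2` in `𝔽_p`.
(`FF4/S40Galois.false_of_inertia_scalar`.)  Only `W.Δ ≠ 0` and `p` odd are used (irreducibility is
not needed for this kernel).
-/
import Fermat.Agent.FF4.S40Skeleton
import Fermat.Agent.FF4.DetCyclo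
import Fermat.Agent.FF4.S40Galois
import Fermat.Agent.BR3.WildCyclo

set_option autoImplicit false
set_option linter.style.haveILetI false
set_option linter.unusedSectionVars false
set_option linter.unusedVariables false

namespace Fermat.Agent.FF4.KGal

open Fermat.Agent.FF4.S40Skeleton Fermat.Agent.LR.NonEis Fermat.Agent.Pseudo Fermat.Agent.X0

local notation "Qb" => AlgebraicClosure ℚ
local notation "GQ" => (AlgebraicClosure ℚ ≃ₐ[ℚ] AlgebraicClosure ℚ)

/-- An element of the inertia group at `B ∣ p` (`p` odd) whose cyclotomic character modulo `p` is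
`2` (the `p`-version of `FF3/PA/PD.exists_inertia_cycloLift_eq_two`). -/
theorem exists_inertia_cycloLift_eq_two {p : ℕ} [NeZero p] (hp : p.Prime) (hp2 : p ≠ 2)
    (B : ValuationSubring Qb) (hB : B.LiesOverPrime p) :
    ∃ s₀ ∈ B.inertiaSubgroupIn ℚ, Cyclo.cycloLift p s₀ = 2 := by
  obtain ⟨ζ, hζ⟩ := HasEnoughRootsOfUnity.exists_primitiveRoot Qb p
  have h2 : ¬ p ∣ 2 := fun h => hp2 ((Nat.prime_dvd_prime_iff_eq hp Nat.prime_two).mp h)
  obtain ⟨σ, hσ, hσζ, -⟩ := Fermat.Agent.BR3.WildCyclo.exists_inertia_apply_eq_pow hp hζ B hB h2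
  refine ⟨σ, hσ, ?_⟩
  have hspec := Cyclo.cycloN_spec p σ hζ.pow_eq_one
  rw [hσζ] at hspec
  have hlt : ((Cyclo.cycloN p σ : (ZMod p)ˣ) : ZMod p).val < p := ZMod.val_lt _
  have h2p : 2 < p := lt_of_le_of_ne hp.two_le (Ne.symm hp2)
  have := hζ.pow_inj h2p hlt hspec
  unfold Cyclo.cycloLift
  rw [← this]
  rfl

/-- **(K-GAL) at any level `L`.** -/
theorem false_of_inertiaCyclo (W : WeierstrassCurve ℤ) (hΔ : W.Δ ≠ 0) {p L : ℕ} [NeZero L]
    [NeZero p] (hp : p.Prime) (hp2 : p ≠ 2) (P : VPack W p L)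
    (B : ValuationSubring Qb) (hB : B.LiesOverPrime p)
    (hscal : ∀ v ∈ P.V, InertiaCyclo p L B v) : False := by
  haveI hpF : Fact p.Prime := ⟨hp⟩
  have hW : Module.finrank (ZMod p) (Vp W p) = 2 :=
    finrank_Vp_eq_two W (Fermat.Agent.FF4.DetCyclo.card_Vp W hΔ hp)
  obtain ⟨s₀, hs₀, hc⟩ := exists_inertia_cycloLift_eq_two hp hp2 B hB
  have h2p : 2 < p := lt_of_le_of_ne hp.two_le (Ne.symm hp2)
  have hχ : ∃ s₀ ∈ B.inertiaSubgroupIn ℚ,
      ((Cyclo.cycloLift p s₀ : ℤ) : ZMod p) ≠ 1 ∧ ((Cyclo.cycloLift p s₀ : ℤ) : ZMod p) ≠ 0 := by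
    refine ⟨s₀, hs₀, ?_, ?_⟩
    · rw [hc]
      intro h
      have h1 : ((1 : ℤ) : ZMod p) = 0 := by
        have : ((2 : ℤ) : ZMod p) - 1 = 0 := by rw [h]; ring
        push_cast at this ⊢
        linear_combination this
      rw [ZMod.intCast_zmod_eq_zero_iff_dvd] at h1
      have := Int.le_of_dvd one_pos h1
      omega
    · rw [hc]
      intro h
      rw [ZMod.intCast_zmod_eq_zero_iff_dvd] at h
      have := Int.le_of_dvd two_pos h
      omega
  exact Fermat.Agent.FF4.S40Galois.false_of_inertia_scalar (k := ZMod p) (W := Vp W p) hW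
    (B.inertiaSubgroupIn ℚ) (fun s => Cyclo.cycloLift p s) P.V P.stable
    (fun s => rhoV W p s) P.iso
    (fun s v => Subtype.ext (P.iso_equivariant s v (P.stable s v v.2)))
    (fun s _ => Fermat.Agent.FF4.DetCyclo.det_rhoV_cycloLift W hΔ s)
    hχ (fun s hs v hv => hscal v hv s hs)

/-- **(K-GAL)**, proved. -/
theorem kGal (W : WeierstrassCurve ℤ) (hΔ : W.Δ ≠ 0) {p M' : ℕ} [NeZero M'] [NeZero p]
    [NeZero (M' * p)] (hp : p.Prime) (hp2 : p ≠ 2) : KGal W p M' :=
  fun _ P B hB hscal => false_of_inertiaCyclo W hΔ hp hp2 P B hB hscal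

end Fermat.Agent.FF4.KGal
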