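/-
PROGRAMME II (row 38, target S44), kernel (K-NAT) = (S1b) + (S1c) + (S1d) (helper1).

`kNat … : S44Skeleton.KNat Dt W` in the literal of `FF4/S44Skeleton.lean` v3 (helper4, origin/helper4
95143af6, vendored byte-identically): a `p`-new pack `V ≅ W[p]` at the elliptic-free level `M' r`
lies in the finite part `natSub (setup Dt) p`.  Everything is proved for a GENERIC level `M`
(`Dt : ModularData M p B hB hpM`, `le_natSub`), from the following NAMED inputs:

* `hK1  : K1Out Dt`                      (helper27, `FF4/K1Out/Contract.lean`);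
* `hK1N : ∀ x, p • x = 0 → ∀ e a, IsSlope x e a → IsSlope' x e (-a)`   (K1NodeOut, helper16; the
  existential literal `∀ x e, ∃ a, IsSlope x e a ∧ IsSlope' x e (-a)` suffices: `nodeOut_of_exists`);
* `hK3  : K3At W p`                      (= helper21's `K3BetaModelOut` at `(P, W)`, `P.p = p`);
* `hTor`                                 (= `S44Skeleton.KTor Dt`, helper22's `torEpsOne_torsion`);
* `hH   : ∀ ℓ, Good W p (M * p) ℓ → HeckeSlopeOut Dt ℓ p`   (helper24, D-HECKE2);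
* `hNE  : ∃ ℓ, Good W p (M * p) ℓ ∧ (a_ℓ(W) : ZMod p) ≠ ℓ + 1`   (a non-Eisenstein prime);
* helper5's `InertiaTor.inertia_tor` (GREEN, vendored) and `W.Δ ≠ 0`.

Steps.
(S1b) `U := V ⊓ torSub` is a subgroup of `V`, `#V = p²` (`DetCyclo.card_Vp`): either `U = V` (then
  `V ≤ torSub ≤ natSub`: done) or `U = ℤ T` (`T = 0` allowed).  For `x ∈ V`, `t` in the inertia
  group: `t x - x ∈ U` (`inertia_tor` + stability) — this is (S1′) for `P₀ := iso x`, `T₀ := iso T`;
  (S2) `t T₀ = c T₀` when `t ζ = ζ ^ c` from `hTor` (`T ∈ torSub`, `p`-new).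
(S1c) `K1Out` hands over `(a, a', n, β, u)` for two crossings `e, e'`; `K3At` gives `p ∣ n`, i.e.
  `a = a'`: the slope vector of every `x ∈ V` is DIAGONAL.
(S1d) if some `x ∈ V` has a nonzero slope `a`, then `T_ℓ x = a_ℓ x` and `HeckeSlopeOut` give
  `a_ℓ ≡ ℓ + 1 (mod p)` for every good `ℓ` (`Hecke2.heckeOperatorBar_slope_eigen`): absurd (`hNE`).
(entry) all source-side slopes of `x ∈ V` vanish; the target-side slopes vanish by `hK1N`;
  `Hecke2.Generic.slopeOut_setup` (clause 4) gives `x ∈ natSub`.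
-/
import Fermat.Agent.FF4.S44Skeleton
import Fermat.Agent.FF4.DetCyclo
import Fermat.Agent.FF4.S40Galois
import Fermat.Agent.FF4.K1Out.Contract
import Fermat.Agent.FF4.InertiaTor
import Fermat.Agent.FF4.Hecke2.Generic
import Fermat.Agent.FF4.Hecke2.Contract

set_option autoImplicit false
set_option linter.style.haveILetI false
set_option linter.unusedSectionVars false
set_option linter.unusedVariables false

noncomputable section

set_option synthInstance.maxHeartbeats 400000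

namespace Fermat.Agent.FF4.KNat

open AlgebraicCurve ModularCurve WeierstrassCurve IsLocalRing
open Fermat.Agent.X0 Fermat.Agent.BR Fermat.Agent.BR.Final Fermat.Agent.BR2
  Fermat.Agent.BR2.SetupOfData Fermat.Agent.BR.SS Fermat.Agent.BR.S0 Fermat.Agent.BR.S0.RedModular
  Fermat.Agent.BR.S0.PointDict Fermat.Agent.Pseudo Fermat.Agent.FF4.S40Skeleton
  Fermat.Agent.FF4.Hecke2 Fermat.Agent.FF4.K1Out

local notation "Qb" => AlgebraicClosure ℚ
local notation "GQ" => (AlgebraicClosure ℚ ≃ₐ[ℚ] AlgebraicClosure ℚ)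

/-! ## the contract `K3At` -/

/-- **(K3) at `(W, p)`**: the body of helper21's `K3Beta.K3BetaModelOut` after its binders
`P : FreyPackage`, `(P.p : ℤ) ∣ P.a * P.b * P.c`, `W`, `W.IsIntegralModelOf P.freyCurve`, with
`p = P.p`. -/
def K3At (W : WeierstrassCurve ℤ) (p : ℕ) : Prop :=
  ∀ (B : ValuationSubring Qb), B.LiesOverPrime p →
    ∀ (ζ : Qb), IsPrimitiveRoot ζ p →
    ∀ (P₀ T₀ : WPoint W),
      (p : ℤ) • P₀ = 0 → (p : ℤ) • T₀ = 0 →
      (∀ t ∈ B.inertiaSubgroupIn ℚ, ∃ k : ℤ, t • P₀ - P₀ = k • T₀) →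
      (∀ t ∈ B.inertiaSubgroupIn ℚ, ∀ c : ℕ, t ζ = ζ ^ c → t • T₀ = c • T₀) →
    ∀ (β u : Qb) (n : ℤ),
      β ^ p = (p : Qb) ^ n * u →
      B.valuation u = 1 →
      (∀ t ∈ B.inertiaSubgroupIn ℚ, t ζ = ζ → t u = u) →
      (∀ s ∈ B.inertiaSubgroupIn ℚ, s ζ = ζ → s • P₀ = P₀ → s β = β) →
      (p : ℤ) ∣ n

/-! ## small algebra -/

/-- on a point killed by `p`, integer multiples only depend on the residue modulo `p` -/
theorem zsmul_eq_of_cast_eq {A : Type*} [AddCommGroup A] {p : ℕ} {T : A} (hT : p • T = 0)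
    {a b : ℤ} (h : (a : ZMod p) = (b : ZMod p)) : a • T = b • T := by
  obtain ⟨j, hj⟩ := (ZMod.intCast_eq_intCast_iff_dvd_sub a b p).mp h
  have hb : b = a + (p : ℤ) * j := by linarith
  rw [hb, add_zsmul, mul_comm, mul_zsmul, natCast_zsmul, hT, zsmul_zero, add_zero]

/-- **the (S2) bridge**: if `t ζ = ζ ^ c` for a primitive `p`-th root of unity `ζ`, then
`c ≡ cycloLift p t (mod p)`. -/
theorem natCast_eq_cycloLift {p : ℕ} [NeZero p] {ζ : Qb} (hζ : IsPrimitiveRoot ζ p) (t : GQ)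
    (c : ℕ) (h : t ζ = ζ ^ c) : ((c : ℤ) : ZMod p) = ((Cyclo.cycloLift p t : ℤ) : ZMod p) := by
  have hspec := Cyclo.cycloN_spec p t hζ.pow_eq_one
  rw [h] at hspec
  have hp0 : 0 < p := Nat.pos_of_ne_zero (NeZero.ne p)
  have h1 : ζ ^ (c % p) = ζ ^ c := by
    conv_rhs => rw [← Nat.div_add_mod c p, pow_add, pow_mul, hζ.pow_eq_one, one_pow, one_mul]
  have h2 := hζ.pow_inj (Nat.mod_lt _ hp0) (ZMod.val_lt _) (h1.trans hspec)
  unfold Cyclo.cycloLift
  push_cast
  rw [← h2, ZMod.natCast_mod]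

/-- a subgroup `U` of a group `V` of order `p ^ 2`: `U = V` or `U` is cyclic -/
theorem eq_or_cyclic {A : Type*} [AddCommGroup A] {p : ℕ} (hp : p.Prime) (V U : AddSubgroup A)
    (hUV : U ≤ V) (hV : Nat.card V = p ^ 2) :
    U = V ∨ ∃ T ∈ U, ∀ u ∈ U, ∃ k : ℤ, u = k • T := by
  by_cases h1 : U = V
  · exact Or.inl h1
  right
  by_cases h0 : U = ⊥
  · refine ⟨0, U.zero_mem, fun u hu => ⟨0, ?_⟩⟩
    rw [h0, AddSubgroup.mem_bot] at hu
    rw [hu, zsmul_zero]
  have hcard : Nat.card U = p :=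
    Fermat.Agent.FF4.S40Galois.card_eq_prime_of_line hp V U hUV hV h0 h1
  haveI : Fact p.Prime := ⟨hp⟩
  haveI : IsAddCyclic U := isAddCyclic_of_prime_card hcard
  obtain ⟨g, hg⟩ := IsAddCyclic.exists_generator (α := U)
  refine ⟨g.1, g.2, fun u hu => ?_⟩
  obtain ⟨k, hk⟩ := AddSubgroup.mem_zmultiples_iff.mp (hg ⟨u, hu⟩)
  refine ⟨k, ?_⟩
  have := congrArg Subtype.val hk
  simpa using this.symm

/-! ## the generic level -/

section Generic

variable {M p : ℕ} [NeZero M] [hpF : Fact p.Prime] [NeZero p] [NeZero (M * p)]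
variable {B : ValuationSubring Kb} {hB : B.LiesOverPrime p} {hpM : ¬ p ∣ M}
variable [IsAlgClosed (ResidueField B)]
variable (Dt : ModularData M p B hB hpM) {W : WeierstrassCurve ℤ} (P : VPack W p (M * p))

/-- the order of a pack -/
theorem card_V (hΔ : W.Δ ≠ 0) : Nat.card P.V = p ^ 2 := by
  rw [Nat.card_congr P.iso.toEquiv]
  exact Fermat.Agent.FF4.DetCyclo.card_Vp W hΔ hpF.out

/-- **(S1b), on `J₀`**: either `V` lies in the toric part, or `V ∩ torSub = ℤ T` and the inertia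
group moves every `x ∈ V` inside `x + ℤ T`. -/
theorem line_data (hΔ : W.Δ ≠ 0) :
    P.V ≤ Filt.torSub (setup Dt) p ∨
      ∃ T ∈ P.V, T ∈ Filt.torSub (setup Dt) p ∧
        ∀ x ∈ P.V, ∀ t ∈ B.inertiaSubgroupIn ℚ, ∃ k : ℤ, t • x - x = k • T := by
  rcases eq_or_cyclic hpF.out P.V (P.V ⊓ Filt.torSub (setup Dt) p) inf_le_left
    (card_V P hΔ) with h | ⟨T, hT, hgen⟩
  · left
    rw [← h]
    exact inf_le_right
  · right
    refine ⟨T, hT.1, hT.2, fun x hx t ht => ?_⟩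
    refine hgen _ ⟨P.V.sub_mem (P.stable t x hx) hx, ?_⟩
    exact Fermat.Agent.FF4.InertiaTor.inertia_tor Dt ht p x (P.tors x hx)

/-! ### transport to `W[p]` -/

/-- the image in `W[p]` of an element of the pack -/
def pt (x : JZero (M * p)) (hx : x ∈ P.V) : WPoint W := (P.iso ⟨x, hx⟩ : WPoint W)

theorem zsmul_pt (x : JZero (M * p)) (hx : x ∈ P.V) : (p : ℤ) • pt P x hx = 0 := by
  have := (P.iso ⟨x, hx⟩).2
  rwa [Submodule.mem_torsionBy_iff] at this

theorem nsmul_pt (x : JZero (M * p)) (hx : x ∈ P.V) : p • pt P x hx = 0 := by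
  have := zsmul_pt P x hx
  rwa [natCast_zsmul] at this

theorem smul_pt (s : GQ) (x : JZero (M * p)) (hx : x ∈ P.V) :
    s • pt P x hx = pt P (s • x) (P.stable s x hx) :=
  (P.iso_equivariant s ⟨x, hx⟩ (P.stable s x hx)).symm

theorem pt_sub (x y : JZero (M * p)) (hx : x ∈ P.V) (hy : y ∈ P.V) :
    pt P x hx - pt P y hy = pt P (x - y) (P.V.sub_mem hx hy) := by
  unfold pt
  have : (⟨x - y, P.V.sub_mem hx hy⟩ : P.V) = ⟨x, hx⟩ - ⟨y, hy⟩ := rfl
  rw [this, map_sub]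
  rfl

theorem pt_zsmul (k : ℤ) (x : JZero (M * p)) (hx : x ∈ P.V) :
    k • pt P x hx = pt P (k • x) (P.V.zsmul_mem hx k) := by
  unfold pt
  have : (⟨k • x, P.V.zsmul_mem hx k⟩ : P.V) = k • ⟨x, hx⟩ := rfl
  rw [this, map_zsmul]
  rfl

theorem pt_congr {x y : JZero (M * p)} (h : x = y) (hx : x ∈ P.V) :
    pt P x hx = pt P y (h ▸ hx) := by
  subst h; rfl

theorem pt_inj {x y : JZero (M * p)} (hx : x ∈ P.V) (hy : y ∈ P.V)
    (h : pt P x hx = pt P y hy) : x = y := by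
  have h1 : P.iso ⟨x, hx⟩ = P.iso ⟨y, hy⟩ := Subtype.ext h
  exact congrArg Subtype.val (P.iso.injective h1)


set_option maxHeartbeats 4000000 in
/-- **(S1c)**: the slope vector of every element of a `p`-new pack is diagonal. -/
theorem slope_diag (hΔ : W.Δ ≠ 0) (hnew : P.IsNew) (hK1 : K1Out Dt) (hK3 : K3At W p)
    (hTor : ∀ s : GQ, s ∈ B.inertiaSubgroupIn ℚ → ∀ x : JZero (M * p),
      x ∈ Filt.torSub (setup Dt) p → LevelTransfer.alphaDown M p x = 0 →
      LevelMaps.betaDown M p x = 0 → s • x = Cyclo.cycloLift p s • x)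
    (T : JZero (M * p)) (hT : T ∈ P.V) (hTt : T ∈ Filt.torSub (setup Dt) p)
    (hline : ∀ x ∈ P.V, ∀ t ∈ B.inertiaSubgroupIn ℚ, ∃ k : ℤ, t • x - x = k • T)
    {x : JZero (M * p)} (hx : x ∈ P.V)
    {e e' : Crossing (chartDataModular B hB hpM)} {a a' : ZMod p}
    (ha : IsSlope (setup Dt) p x e a) (ha' : IsSlope (setup Dt) p x e' a') : a = a' := by
  have hp : p.Prime := hpF.out
  obtain ⟨huniq, -, -, -⟩ := Fermat.Agent.FF4.Hecke2.Generic.slopeOut_setup Dt hp.ne_zero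
  obtain ⟨b, b', n, β, u, hb, hb', hn, hβ, hu, hfix, hstab⟩ :=
    hK1 x (P.tors x hx) (hnew x hx).1 (hnew x hx).2 e e'
  obtain ⟨ζ, hζ⟩ := HasEnoughRootsOfUnity.exists_primitiveRoot Qb p
  have hdvd : (p : ℤ) ∣ n := by
    refine hK3 B hB ζ hζ (pt P x hx) (pt P T hT) (zsmul_pt P x hx) (zsmul_pt P T hT) ?_ ?_
      β u n hβ hu (fun t ht _ => hfix t ht) ?_
    · -- (S1′)
      intro t ht
      obtain ⟨k, hk⟩ := hline x hx t ht
      refine ⟨k, ?_⟩
      rw [smul_pt, pt_sub, pt_zsmul]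
      exact pt_congr P hk _
    · -- (S2)
      intro t ht c hc
      have h1 : t • T = Cyclo.cycloLift p t • T :=
        hTor t ht T hTt (hnew T hT).1 (hnew T hT).2
      rw [smul_pt, pt_congr P h1, ← pt_zsmul, ← natCast_zsmul]
      exact (zsmul_eq_of_cast_eq (nsmul_pt P T hT) (natCast_eq_cycloLift hζ t c hc)).symm
    · -- (S3′)
      intro s hs _ hsP
      refine hstab s hs ?_
      rw [smul_pt] at hsP
      exact pt_inj P _ _ hsP
  have hbb : b = b' := slope_eq_of_dvd hn hdvd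
  rw [huniq x e a b ha hb, huniq x e' a' b' ha' hb', hbb]


set_option maxHeartbeats 4000000 in
/-- the two literals of (K1NodeOut): the existential one implies the universal one (the slopes
are well defined, `Hecke2.Generic.slopeOut_setup`). -/
theorem nodeOut_of_exists
    (h : ∀ x : JZero (M * p), p • x = 0 → ∀ e : Crossing (chartDataModular B hB hpM),
      ∃ a : ZMod p, IsSlope (setup Dt) p x e a ∧ IsSlope' (setup Dt) p x e (-a)) :
    ∀ x : JZero (M * p), p • x = 0 → ∀ (e : Crossing (chartDataModular B hB hpM))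
      (a : ZMod p), IsSlope (setup Dt) p x e a → IsSlope' (setup Dt) p x e (-a) := by
  intro x hx e a ha
  obtain ⟨b, hb, hb'⟩ := h x hx e
  obtain ⟨huniq, -, -, -⟩ := Fermat.Agent.FF4.Hecke2.Generic.slopeOut_setup Dt hpF.out.ne_zero
  rwa [huniq x e a b ha hb]

set_option maxHeartbeats 4000000 in
/-- **(K-NAT) at a generic level `M`.** -/
theorem le_natSub (hΔ : W.Δ ≠ 0) (hnew : P.IsNew) (hK1 : K1Out Dt)
    (hK1N : ∀ x : JZero (M * p), p • x = 0 → ∀ (e : Crossing (chartDataModular B hB hpM))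
      (a : ZMod p), IsSlope (setup Dt) p x e a → IsSlope' (setup Dt) p x e (-a))
    (hK3 : K3At W p)
    (hTor : ∀ s : GQ, s ∈ B.inertiaSubgroupIn ℚ → ∀ x : JZero (M * p),
      x ∈ Filt.torSub (setup Dt) p → LevelTransfer.alphaDown M p x = 0 →
      LevelMaps.betaDown M p x = 0 → s • x = Cyclo.cycloLift p s • x)
    (hH : ∀ ℓ : Nat.Primes, Good W p (M * p) ℓ → HeckeSlopeOut Dt ℓ p)
    (hNE : ∃ ℓ : Nat.Primes, Good W p (M * p) ℓ ∧
      ((W.apOfModel ℓ : ℤ) : ZMod p) ≠ (((ℓ : ℕ) + 1 : ℕ) : ZMod p)) :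
    P.V ≤ Filt.natSub (setup Dt) p := by
  have hp : p.Prime := hpF.out
  have hS := Fermat.Agent.FF4.Hecke2.Generic.slopeOut_setup Dt hp.ne_zero
  rcases line_data Dt P hΔ with htor | ⟨T, hT, hTt, hline⟩
  · exact htor.trans (Fermat.Agent.BR3.FiltMaps.torSub_le_natSub
      (fun _ => Fermat.Agent.Val.riemannPkg_modL_residueField M hpM B hB) hp.ne_zero)
  intro x hx
  have hpx : p • x = 0 := P.tors x hx
  -- all the slopes of `x` vanish
  have hzero : ∀ (e : Crossing (chartDataModular B hB hpM)) (a : ZMod p),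
      IsSlope (setup Dt) p x e a → a = 0 := by
    intro e a ha
    by_contra ha0
    have hdiag : ∀ e', IsSlope (setup Dt) p x e' a := by
      intro e'
      obtain ⟨a', ha'⟩ := hS.2.1 x hpx e'
      rwa [← slope_diag Dt P hΔ hnew hK1 hK3 hTor T hT hTt hline hx ha ha'] at ha'
    obtain ⟨ℓ, hℓ, hne⟩ := hNE
    exact hne (heckeOperatorBar_slope_eigen Dt ℓ hS (hH ℓ hℓ) hdiag ha0 e (P.eigen ℓ hℓ x hx))
  refine hS.2.2.2 x hpx (fun e => ?_) (fun e => ?_)
  · obtain ⟨a, ha⟩ := hS.2.1 x hpx e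
    rwa [hzero e a ha] at ha
  · obtain ⟨a, ha⟩ := hS.2.1 x hpx e
    have h := hK1N x hpx e a ha
    rwa [hzero e a ha, neg_zero] at h

end Generic

/-! ## the literal of the skeleton -/

section Skeleton

variable {M' r p : ℕ} [NeZero M'] [NeZero r] [NeZero (M' * r)] [hpF : Fact p.Prime] [NeZero p]
  [NeZero (M' * p)] [NeZero (M' * r * p)]
variable {B : ValuationSubring Kb} {hB : B.LiesOverPrime p} {hpN : ¬ p ∣ M' * r}
variable [IsAlgClosed (ResidueField B)]
variable (Dt : ModularData (M' * r) p B hB hpN)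

set_option maxHeartbeats 4000000 in
/-- **(K-NAT)** in the literal of `FF4/S44Skeleton.lean` (v3). -/
theorem kNat (W : WeierstrassCurve ℤ) (hΔ : W.Δ ≠ 0) (hK1 : K1Out Dt)
    (hK1N : ∀ x : JZero (M' * r * p), p • x = 0 →
      ∀ (e : Crossing (chartDataModular B hB hpN)) (a : ZMod p),
        IsSlope (setup Dt) p x e a → IsSlope' (setup Dt) p x e (-a))
    (hK3 : K3At W p) (hTor : Fermat.Agent.FF4.S44Skeleton.KTor Dt)
    (hH : ∀ ℓ : Nat.Primes, Good W p (M' * r * p) ℓ → HeckeSlopeOut Dt ℓ p)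
    (hNE : ∃ ℓ : Nat.Primes, Good W p (M' * r * p) ℓ ∧
      ((W.apOfModel ℓ : ℤ) : ZMod p) ≠ (((ℓ : ℕ) + 1 : ℕ) : ZMod p)) :
    Fermat.Agent.FF4.S44Skeleton.KNat Dt W :=
  fun P hnew => le_natSub Dt P hΔ hnew hK1 hK1N hK3 hTor hH hNE

end Skeleton

end Fermat.Agent.FF4.KNat
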