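/-
PROGRAMME II (row 38, target S44), leaf (L-A) (helper15): non-Eisenstein primes WITHOUT residual
modularity, from `det ρ̄_{W,p} = χ_p`.

`W : WeierstrassCurve ℤ`, `W.Δ ≠ 0`, `p` an odd prime, `W[p]` irreducible.  Then for every finite set
`T` of primes there is a good prime `l ∉ T`, `l ≠ p`, with `a_l(W) ≢ l + 1 mod p`.

This is `LR.NonEis.exists_prime_of_exports` with `N = m = 1`, where the only use of the eigenform
`f`, the maximal ideal `𝔪` and the residual representation `ρ` (complex conjugation has a nonzero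
fixed and a nonzero anti-fixed vector in `W[p]`) is replaced by linear algebra: `ρ̄(c)` is an
involution of determinant `χ_p(c) = -1` (helper1's `FF4/DetCyclo.det_rhoV`) of a plane over `𝔽_p`,
`p` odd, hence has both eigenvalues `1` and `-1`.

* `exists_fixed_antifixed_of_involution` : the linear algebra (any field with `2 ≠ 0`, dimension 2);
* `exists_fixed_antifixed_complexConjugation_of_det` : the same for `ρ̄_{W,p}(c)`;
* **`exists_nonEis`** : the non-Eisenstein prime, in the `ZMod p` dialect;
* `exists_nonEis_dvd` : the same in the divisibility dialect of `LR/NonEisCore`.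
-/
import Fermat.Agent.FF4.DetCyclo
import Fermat.Agent.LR.TwistCountPlug

set_option autoImplicit false
set_option linter.style.haveILetI false
set_option linter.unusedSectionVars false

open WeierstrassCurve WeierstrassCurve.Affine WeierstrassCurve.Affine.Point
open scoped WeierstrassCurve.Affine
open Fermat.Agent.LR.NonEis Fermat.Agent.Pseudo.Cyclo

namespace Fermat.Agent.FF4.NonEisDet

local notation "Qb" => AlgebraicClosure ℚ
local notation "GQ" => (AlgebraicClosure ℚ ≃ₐ[ℚ] AlgebraicClosure ℚ)

/-! ### linear algebra: an involution of determinant `-1` of a plane -/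

/-- An involution `M` of a two-dimensional space over a field with `2 ≠ 0`, of determinant `-1`, has a
nonzero fixed vector and a nonzero anti-fixed vector. -/
theorem exists_fixed_antifixed_of_involution {k V : Type*} [Field k] [AddCommGroup V] [Module k V]
    (hV : Module.finrank k V = 2) (h2 : (2 : k) ≠ 0) (M : Module.End k V) (hM : M * M = 1)
    (hdet : LinearMap.det M = -1) :
    (∃ v : V, v ≠ 0 ∧ M v = v) ∧ ∃ v : V, v ≠ 0 ∧ M v = -v := by
  haveI : Module.Finite k V := Module.finite_of_finrank_pos (by rw [hV]; norm_num)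
  have hMM : ∀ v : V, M (M v) = v := fun v => by
    rw [← Module.End.mul_apply, hM, Module.End.one_apply]
  have h11 : (1 : k) ≠ -1 := by
    intro h
    apply h2
    have : (2 : k) = 1 + 1 := by norm_num
    rw [this]
    nth_rewrite 2 [h]
    exact add_neg_cancel 1
  constructor
  · by_contra hcon
    push Not at hcon
    -- `v + M v` is fixed, hence zero: `M = -1`
    have hneg : ∀ v : V, M v = -v := fun v => by
      have hfix : M (v + M v) = v + M v := by rw [map_add, hMM, add_comm]
      have h0 : v + M v = 0 := by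
        by_contra hne
        exact absurd hfix (hcon (v + M v) hne)
      exact (neg_eq_of_add_eq_zero_right h0).symm
    have hMeq : M = (-1 : k) • (1 : Module.End k V) := by
      ext v
      rw [hneg v, LinearMap.smul_apply, Module.End.one_apply, neg_smul, one_smul]
    have hd : LinearMap.det M = 1 := by
      rw [hMeq, LinearMap.det_smul, hV, map_one]
      norm_num
    rw [hd] at hdet
    exact h11 hdet
  · by_contra hcon
    push Not at hcon
    -- `v - M v` is anti-fixed, hence zero: `M = 1`
    have hone : ∀ v : V, M v = v := fun v => by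
      have hanti : M (v - M v) = -(v - M v) := by rw [map_sub, hMM, neg_sub]
      have h0 : v - M v = 0 := by
        by_contra hne
        exact absurd hanti (hcon (v - M v) hne)
      exact (sub_eq_zero.mp h0).symm
    have hMeq : M = 1 := by
      ext v
      rw [hone v, Module.End.one_apply]
    have hd : LinearMap.det M = 1 := by rw [hMeq, map_one]
    rw [hd] at hdet
    exact h11 hdet

/-! ### complex conjugation on `W[p]` -/

/-- Complex conjugation has a nonzero fixed vector and a nonzero anti-fixed vector in `W[p]`, `p` odd: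
`ρ̄(c)` is an involution of determinant `χ_p(c) = -1`. -/
theorem exists_fixed_antifixed_complexConjugation_of_det (W : WeierstrassCurve ℤ) (hΔ : W.Δ ≠ 0)
    {p : ℕ} (hp : p.Prime) (hp2 : p ≠ 2) :
    (∃ v : Vp W p, v ≠ 0 ∧ rhoV W p complexConjugation v = v) ∧
      ∃ v : Vp W p, v ≠ 0 ∧ rhoV W p complexConjugation v = -v := by
  haveI : Fact p.Prime := ⟨hp⟩
  haveI : NeZero p := ⟨hp.ne_zero⟩
  have hV : Module.finrank (ZMod p) (Vp W p) = 2 :=
    finrank_Vp_eq_two W (Fermat.Agent.FF4.DetCyclo.card_Vp W hΔ hp)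
  have h2 : (2 : ZMod p) ≠ 0 := by
    intro h
    have h2' : ((2 : ℕ) : ZMod p) = 0 := by exact_mod_cast h
    rw [ZMod.natCast_eq_zero_iff] at h2'
    exact hp2 ((Nat.prime_dvd_prime_iff_eq hp Nat.prime_two).mp h2')
  have hM : rhoV W p complexConjugation * rhoV W p complexConjugation = 1 := by
    rw [← map_mul, complexConjugation_mul_self, map_one]
  have hdet : LinearMap.det (rhoV W p complexConjugation) = -1 := by
    rw [Fermat.Agent.FF4.DetCyclo.det_rhoV W hΔ complexConjugation, cycloN_complexConjugation]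
  exact exists_fixed_antifixed_of_involution hV h2 _ hM hdet

/-! ### the non-Eisenstein prime -/

/-- **Non-Eisenstein primes from irreducibility, divisibility dialect.** -/
theorem exists_nonEis_dvd (W : WeierstrassCurve ℤ) (hΔ : W.Δ ≠ 0) {p : ℕ} (hp : p.Prime)
    (hp2 : p ≠ 2) (hirr : W.ModRepIsIrreducible p) (T : Finset ℕ) :
    ∃ l : ℕ, l.Prime ∧ l ∉ T ∧ W.IsGoodPrimeFor l ∧ l ≠ p ∧
      ¬ (p : ℤ) ∣ (l : ℤ) + 1 - W.apOfModel l := by
  have hirr' : GaloisRepIsIrreducible (K := Qb) ℚ (WQ W) p := hirr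
  have hcard : Nat.card (Vp W p) = p ^ 2 := Fermat.Agent.FF4.DetCyclo.card_Vp W hΔ hp
  have hlink : FrobLink W p := Fermat.Agent.LR.TwistPlug.frobLink W hp
  by_contra hcon
  push Not at hcon
  haveI : NeZero (1 : ℕ) := ⟨one_ne_zero⟩
  haveI : Fact p.Prime := ⟨hp⟩
  haveI : Finite (Vp W p) :=
    Nat.finite_of_card_ne_zero (hcard ▸ pow_ne_zero 2 hp.pos.ne')
  have hcon' : ∀ l : ℕ, l.Prime → l ∉ T → l ≡ 1 [MOD 1] → W.IsGoodPrimeFor l → ¬ l ∣ 1 → l ≠ p →
      (p : ℤ) ∣ (l : ℤ) + 1 - W.apOfModel l :=
    fun l hl hlT _ hgood _ hlp => hcon l hl hlT hgood hlp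
  have hcomm := rhoV_commute W hlink hcard hirr' (N := 1) (m := 1) (T := T) Nat.one_pos hp hΔ hcon'
  obtain ⟨⟨v₁, hv₁0, hv₁⟩, ⟨v₂, hv₂0, hv₂⟩⟩ :=
    exists_fixed_antifixed_complexConjugation_of_det W hΔ hp hp2
  -- the `+1`-eigenspace of complex conjugation
  let Lp : Submodule (ZMod p) (Vp W p) := LinearMap.ker (rhoV W p complexConjugation - 1)
  have hmem : ∀ x : Vp W p, x ∈ Lp ↔ rhoV W p complexConjugation x = x := fun x => by
    rw [LinearMap.mem_ker, LinearMap.sub_apply, Module.End.one_apply, sub_eq_zero]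
  have hstab : IsGaloisStable ℚ Lp := by
    intro σ x hx
    rw [hmem] at hx ⊢
    have h1 : rhoV W p complexConjugation (rhoV W p σ x) =
        rhoV W p σ (rhoV W p complexConjugation x) := by
      rw [← Module.End.mul_apply, ← Module.End.mul_apply, hcomm complexConjugation σ]
    change rhoV W p complexConjugation (rhoV W p σ x) = rhoV W p σ x
    rw [h1, hx]
  rcases hirr'.2 Lp hstab with hbot | htop
  · have : v₁ ∈ Lp := (hmem v₁).mpr hv₁
    rw [hbot, Submodule.mem_bot] at this
    exact hv₁0 this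
  · have : v₂ ∈ Lp := by rw [htop]; exact Submodule.mem_top
    rw [hmem, hv₂] at this
    -- `-v₂ = v₂`, so `2 • v₂ = 0`
    have h2 : (2 : ZMod p) • v₂ = 0 := by
      rw [two_smul]
      nth_rewrite 1 [← this]
      exact neg_add_cancel v₂
    rcases smul_eq_zero.mp h2 with h | h
    · have h2' : ((2 : ℕ) : ZMod p) = 0 := by exact_mod_cast h
      rw [ZMod.natCast_eq_zero_iff] at h2'
      exact hp2 ((Nat.prime_dvd_prime_iff_eq hp Nat.prime_two).mp h2')
    · exact hv₂0 h

/-- **Non-Eisenstein primes from irreducibility** (`ZMod p` dialect): for `W` with `W.Δ ≠ 0`, `p` an odd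
prime with `W[p]` irreducible and every finite set `T`, there is a good prime `l ∉ T`, `l ≠ p`, with
`a_l(W) ≠ l + 1` in `𝔽_p`. -/
theorem exists_nonEis (W : WeierstrassCurve ℤ) (hΔ : W.Δ ≠ 0) {p : ℕ} (hp : p.Prime) (hp2 : p ≠ 2)
    (hirr : W.ModRepIsIrreducible p) (T : Finset ℕ) :
    ∃ l : ℕ, l.Prime ∧ l ∉ T ∧ W.IsGoodPrimeFor l ∧ l ≠ p ∧
      ((W.apOfModel l : ℤ) : ZMod p) ≠ ((l + 1 : ℕ) : ZMod p) := by
  obtain ⟨l, hl, hlT, hgood, hlp, hnd⟩ := exists_nonEis_dvd W hΔ hp hp2 hirr T
  refine ⟨l, hl, hlT, hgood, hlp, fun h => hnd ?_⟩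
  rw [← ZMod.intCast_zmod_eq_zero_iff_dvd]
  push_cast
  rw [h]
  push_cast
  ring

end Fermat.Agent.FF4.NonEisDet
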