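/-
PROGRAMME II (row 38, target S44), kernel (K-NAT), THE PLUGS (helper1).

`FF4/KNat.kNat` consumes seven named inputs; five of them are GREEN theorems of other blocks and are
discharged here, so that `KNat Dt W` (literal of `FF4/S44Skeleton.lean` v3) follows from the two
outputs of the block K1 alone:

* `kTor Dt h2 h3 : S44Skeleton.KTor Dt`  — helper22's `K7.torEpsOne_torsion` (also the `KTor`
  component of `GeoKernels.geo`);
* `hH`  — helper24's `Hecke2.HeckeSlope.heckeSlopeOut` (`p` prime to `12` since `5 ≤ p`);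
* `hNE` — helper15's `NonEisDet.exists_nonEis` (no residual modularity needed), exceptional set
  `(M' r p).primeFactors`;
* `hK3` — helper21's `K4.K3Plug.K3At W p` (`k3At_of_frey` in the context of S44), literally the
  `KNat.K3At W p` of `FF4/KNat.lean`;
* `inertia_tor` (helper5) is already inside `KNat.lean`.

**`kNat_of_k1`** : `K1Out Dt` (helper27) + `K1NodeOut Dt` (helper16's theorem `k1NodeOut Dt`, literal
unfolded) ⊢ `KNat Dt W`.
-/
import Fermat.Agent.FF4.KNat
import Fermat.Agent.FF4.K4.K3Plug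
import Fermat.Agent.FF4.NonEisDet
import Fermat.Agent.FF4.K7.TorEpsOne
import Fermat.Agent.FF4.Hecke2.HeckeSlope

set_option autoImplicit false
set_option linter.style.haveILetI false
set_option linter.unusedSectionVars false
set_option linter.unusedVariables false

noncomputable section

set_option synthInstance.maxHeartbeats 400000

namespace Fermat.Agent.FF4.KNatPlug

open AlgebraicCurve ModularCurve WeierstrassCurve IsLocalRing
open Fermat.Agent.X0 Fermat.Agent.BR Fermat.Agent.BR.Final Fermat.Agent.BR2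
  Fermat.Agent.BR2.SetupOfData Fermat.Agent.BR.SS Fermat.Agent.BR.S0 Fermat.Agent.BR.S0.RedModular
  Fermat.Agent.BR.S0.PointDict Fermat.Agent.Pseudo Fermat.Agent.FF4.S40Skeleton
  Fermat.Agent.FF4.Hecke2 Fermat.Agent.FF4.K1Out

local notation "GQ" => (AlgebraicClosure ℚ ≃ₐ[ℚ] AlgebraicClosure ℚ)

/-- a prime `p ≥ 5` is prime to `12` -/
theorem coprime_twelve {p : ℕ} (hp : p.Prime) (hp5 : 5 ≤ p) : Nat.Coprime p 12 := by
  rw [Nat.Prime.coprime_iff_not_dvd hp]
  intro h
  have h1 : p ∣ 2 * (2 * 3) := h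
  rcases (Nat.Prime.dvd_mul hp).mp h1 with h2 | h2
  · have := Nat.le_of_dvd (by norm_num) h2; omega
  · rcases (Nat.Prime.dvd_mul hp).mp h2 with h3 | h3
    · have := Nat.le_of_dvd (by norm_num) h3; omega
    · have := Nat.le_of_dvd (by norm_num) h3; omega

/-- the two literals of `K3At` agree -/
theorem k3At_of_plug {W : WeierstrassCurve ℤ} {p : ℕ}
    (h : Fermat.Agent.FF4.K4.K3Plug.K3At W p) : Fermat.Agent.FF4.KNat.K3At W p := h

section Skeleton

variable {M' r p : ℕ} [NeZero M'] [NeZero r] [NeZero (M' * r)] [hpF : Fact p.Prime] [NeZero p]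
  [NeZero (M' * p)] [NeZero (M' * r * p)]
variable {B : ValuationSubring Kb} {hB : B.LiesOverPrime p} {hpN : ¬ p ∣ M' * r}
variable [IsAlgClosed (ResidueField B)]
variable (Dt : ModularData (M' * r) p B hB hpN)

/-- **(K-TOR)** in the literal of the skeleton (helper22's `torEpsOne_torsion`). -/
theorem kTor (h2 : nuTwo (M' * r) = 0) (h3 : nuThree (M' * r) = 0) :
    Fermat.Agent.FF4.S44Skeleton.KTor Dt :=
  fun s hs x hx hα hβ => Fermat.Agent.FF4.K7.torEpsOne_torsion Dt h2 h3 hs hx hα hβ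

/-- a non-Eisenstein prime in the literal of `KNat.kNat` -/
theorem exists_good_nonEis (W : WeierstrassCurve ℤ) (hΔ : W.Δ ≠ 0) (hp2 : p ≠ 2)
    (hirr : W.ModRepIsIrreducible p) {L : ℕ} (hL : L ≠ 0) :
    ∃ ℓ : Nat.Primes, Good W p L ℓ ∧
      ((W.apOfModel ℓ : ℤ) : ZMod p) ≠ (((ℓ : ℕ) + 1 : ℕ) : ZMod p) := by
  obtain ⟨l, hl, hlT, hgood, hlp, hne⟩ :=
    Fermat.Agent.FF4.NonEisDet.exists_nonEis W hΔ hpF.out hp2 hirr L.primeFactors
  exact ⟨⟨l, hl⟩, ⟨hgood, fun hd => hlT (Nat.mem_primeFactors.mpr ⟨hl, hd, hL⟩), hlp⟩, hne⟩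

set_option maxHeartbeats 4000000 in
/-- **(K-NAT) from the two outputs of the block K1** (everything else discharged). -/
theorem kNat_of_k1 (W : WeierstrassCurve ℤ) (hΔ : W.Δ ≠ 0) (hp5 : 5 ≤ p)
    (hirr : W.ModRepIsIrreducible p) (h2 : nuTwo (M' * r) = 0) (h3 : nuThree (M' * r) = 0)
    (hK3 : Fermat.Agent.FF4.K4.K3Plug.K3At W p) (hK1 : K1Out Dt)
    (hK1N : ∀ x : JZero (M' * r * p), p • x = 0 →
      ∀ (e : Crossing (chartDataModular B hB hpN)) (a : ZMod p),
        IsSlope (setup Dt) p x e a → IsSlope' (setup Dt) p x e (-a)) :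
    Fermat.Agent.FF4.S44Skeleton.KNat Dt W := by
  have hp : p.Prime := hpF.out
  have hp2 : p ≠ 2 := by omega
  refine Fermat.Agent.FF4.KNat.kNat Dt W hΔ hK1
    hK1N (k3At_of_plug hK3) (kTor Dt h2 h3)
    (fun ℓ hℓ => Fermat.Agent.FF4.Hecke2.HeckeSlope.heckeSlopeOut Dt h2 h3 ℓ hℓ.2.1 hp.ne_zero
      (coprime_twelve hp hp5))
    (exists_good_nonEis W hΔ hp2 hirr (NeZero.ne (M' * r * p)))

end Skeleton

end Fermat.Agent.FF4.KNatPlug
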