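/-
PROGRAMME II (S40), kernel K1, node T5 ("`(D, f)` chosen rational over the fixed field") (helper5).

ABSTRACT: `F/K` a function field with `RiemannPkg K F`, `P₀` a place of degree one, `H` a set of
semilinear automorphisms of `F/K` fixing `P₀`.

* `exists_fixed_divisor` : a class `x ∈ Pic⁰(F)` fixed by all `g ∈ H` contains a divisor `D` fixed
  by all `g ∈ H`.  (No cohomology: for the least `n` with `L(D₀ + n P₀) ≠ 0` the effective divisor
  of the class `x + n [P₀]` is UNIQUE (leading coefficient at `P₀`), hence `H`-stable.)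
* `exists_fixed_function` : if moreover `t` is an `H`-fixed uniformiser at `P₀`, a function `f` with
  `H`-fixed divisor has an `H`-fixed constant multiple (normalise the leading coefficient of `f` at
  `P₀` with respect to `t` to `1`; point law).
* `exists_fixed_isRep` : hence an `m`-torsion class fixed by `H` has a representative
  `(D, f)`, `m D = div f` (`Filt.IsRep`), with `g • D = D` and `g • f = f` for all `g ∈ H`.
-/
import Mathlib
import Fermat.Agent.BR2.Filtration
import Fermat.Agent.BR.AnnulusRed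
import Fermat.Agent.Red.Setup
import Fermat.Agent.X0.Alg.OrdDxLocal
import Fermat.Agent.X0.Alg.PlaceBasic

set_option autoImplicit false

noncomputable section

namespace Fermat.Agent.FF4.RatRep

open AlgebraicCurve Fermat.Agent.Red Fermat.Agent.BR2 Fermat.Agent.BR.AnnulusRed

variable {K F : Type*} [Field K] [Field F] [Algebra K F]

/-- membership in `L(D)` for a nonzero function -/
theorem mem_rr_iff_of_ne {D : Divisor K F} {f : F} (hf : f ≠ 0) :
    f ∈ riemannRochSpace D ↔ ∀ v : Place K F, -D v ≤ v.ord f := by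
  rw [mem_riemannRochSpace_iff]
  exact forall_congr' fun v => or_iff_right hf

/-- **Leading coefficient at `P₀`**: if `L(D - P₀) = 0` then `L(D)` is at most a line. -/
theorem eq_smul_of_mem_of_bot (P₀ : Place K F) (hdeg : P₀.deg = 1) (D : Divisor K F)
    {a b : F} (ha : a ∈ riemannRochSpace D) (hb : b ∈ riemannRochSpace D) (hb0 : b ≠ 0)
    (hbot : riemannRochSpace (D - Finsupp.single P₀ 1) = ⊥) :
    ∃ c : K, a = c • b := by
  classical
  have hb' := (mem_rr_iff_of_ne hb0).mp hb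
  -- a nonzero element of `L(D)` whose order at `P₀` is bigger than `-D P₀` lies in `L(D - P₀)`
  have key : ∀ y : F, y ≠ 0 → y ∈ riemannRochSpace D → -D P₀ < P₀.ord y → False := by
    intro y hy0 hy hlt
    have hy' := (mem_rr_iff_of_ne hy0).mp hy
    have hmem : y ∈ riemannRochSpace (D - Finsupp.single P₀ 1) := by
      rw [mem_rr_iff_of_ne hy0]
      intro v
      by_cases hv : v = P₀
      · rw [hv, Finsupp.sub_apply, Finsupp.single_eq_same]
        omega
      · rw [Finsupp.sub_apply, Finsupp.single_eq_of_ne hv, sub_zero]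
        exact hy' v
    rw [hbot, Submodule.mem_bot] at hmem
    exact hy0 hmem
  have hbP : P₀.ord b = -D P₀ := by
    by_contra hne
    exact key b hb0 hb (lt_of_le_of_ne (hb' P₀) (Ne.symm hne))
  rcases eq_or_ne a 0 with rfl | ha0
  · exact ⟨0, by rw [zero_smul]⟩
  have ha' := (mem_rr_iff_of_ne ha0).mp ha
  have hab0 : a / b ≠ 0 := div_ne_zero ha0 hb0
  have hab : a / b ∈ P₀.toValuationSubring := by
    rw [Fermat.Agent.X0.OrdDx.mem_iff_ord_nonneg P₀ hab0, div_eq_mul_inv,
      P₀.ord_mul ha0 (inv_ne_zero hb0), P₀.ord_inv, hbP]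
    have := ha' P₀
    omega
  obtain ⟨c, hc⟩ := exists_isValueAt P₀ hdeg hab
  refine ⟨c, ?_⟩
  by_contra hne
  have hy0 : a - c • b ≠ 0 := sub_ne_zero.mpr hne
  have hfac : a - c • b = b * (a / b - algebraMap K F c) := by
    rw [Algebra.smul_def]
    field_simp
  have hq0 : a / b - algebraMap K F c ≠ 0 := by
    intro h0
    rw [h0, mul_zero] at hfac
    exact hy0 hfac
  have hpos : 0 < P₀.ord (a / b - algebraMap K F c) := by
    rcases isValueAt_iff.mp hc with h | h
    · exact absurd (sub_eq_zero.mpr h) hq0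
    · exact h
  refine key (a - c • b) hy0 (sub_mem ha (Submodule.smul_mem _ c hb)) ?_
  rw [hfac, P₀.ord_mul hb0 hq0, hbP]
  omega

/-- equality of classes -/
theorem mk_eq_mk_iff (D D' : Divisor.degZero (K := K) (F := F)) :
    Pic0.mk D = Pic0.mk D' ↔
      ∃ f : F, f ≠ 0 ∧ ∀ v : Place K F, ((D' : Divisor K F) - D) v = v.ord f := by
  unfold Pic0.mk
  rw [QuotientAddGroup.eq, AddSubgroup.mem_addSubgroupOf]
  have e : ((-D + D' : Divisor.degZero (K := K) (F := F)) : Divisor K F) =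
      (D' : Divisor K F) - D := by
    rw [AddSubgroup.coe_add, AddSubgroup.coe_neg]
    abel
  rw [e]
  exact Iff.rfl

variable (hF : RiemannPkg K F) (P₀ : Place K F) (H : Set (SemilinearAut K F))

include hF in
/-- **An `H`-fixed class contains an `H`-fixed divisor** (`P₀` an `H`-fixed place). -/
theorem exists_fixed_divisor (hP : ∀ g ∈ H, g • P₀ = P₀)
    (x : Pic0 K F) (hx : ∀ g ∈ H, g • x = x) :
    ∃ D : Divisor.degZero (K := K) (F := F),
      Pic0.mk D = x ∧ ∀ g ∈ H, g • (D : Divisor K F) = D := by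
  classical
  have hdeg : P₀.deg = 1 := hF.deg_one P₀
  obtain ⟨D₀, rfl⟩ := Pic0.mk_surjective x
  have hD₀ : Divisor.degree (D₀ : Divisor K F) = 0 := D₀.2
  set Dn : ℕ → Divisor K F := fun n => (D₀ : Divisor K F) + Finsupp.single P₀ (n : ℤ) with hDn
  have hdegDn : ∀ n, Divisor.degree (Dn n) = n := by
    intro n
    rw [hDn]
    simp only [map_add, Divisor.degree_single, hD₀, hdeg, zero_add, Nat.cast_one, mul_one]
  -- some `L(Dn n)` is nonzero
  have hex : ∃ n, riemannRochSpace (Dn n) ≠ ⊥ := by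
    refine ⟨genusFF K F, fun hbot => ?_⟩
    have h := hF.riemann_le (Dn (genusFF K F))
    rw [hdegDn, hbot, finrank_bot] at h
    simp at h
  set n := Nat.find hex with hn
  have hne : riemannRochSpace (Dn n) ≠ ⊥ := Nat.find_spec hex
  have hbot : riemannRochSpace (Dn n - Finsupp.single P₀ 1) = ⊥ := by
    rcases Nat.eq_zero_or_pos n with h0 | hpos
    · apply hF.L_eq_bot_of_neg
      rw [map_sub, hdegDn, h0, Divisor.degree_single, hdeg]
      norm_num
    · have hmin := Nat.find_min hex (m := n - 1) (by omega)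
      rw [not_not] at hmin
      have e : Dn n - Finsupp.single P₀ 1 = Dn (n - 1) := by
        rw [hDn]
        simp only
        rw [add_sub_assoc, ← Finsupp.single_sub]
        congr 2
        rw [Nat.cast_sub hpos, Nat.cast_one]
      rw [e]
      exact hmin
  obtain ⟨φ, hφ, hφ0⟩ := (Submodule.ne_bot_iff _).mp hne
  obtain ⟨Dφ, hDφ, hDφdeg⟩ := hF.principal.exists_divisor φ hφ0
  have hφ' := (mem_rr_iff_of_ne hφ0).mp hφ
  -- the representative
  let D : Divisor.degZero (K := K) (F := F) :=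
    ⟨(D₀ : Divisor K F) + Dφ, by
      rw [Divisor.mem_degZero, map_add, hD₀, hDφdeg, add_zero]⟩
  have hDcoe : (D : Divisor K F) = (D₀ : Divisor K F) + Dφ := rfl
  have hmk : Pic0.mk D = Pic0.mk D₀ := by
    rw [eq_comm, mk_eq_mk_iff]
    refine ⟨φ, hφ0, fun v => ?_⟩
    rw [hDcoe, add_sub_cancel_left, hDφ v]
  -- `E = D + n P₀` is effective
  have hE : ∀ v : Place K F, 0 ≤ ((D : Divisor K F) + Finsupp.single P₀ (n : ℤ)) v := by
    intro v
    have h1 := hφ' v
    have h2 : ((D : Divisor K F) + Finsupp.single P₀ (n : ℤ)) v = Dn n v + v.ord φ := by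
      rw [hDcoe, hDn]
      simp only [Finsupp.add_apply, hDφ v]
      ring
    rw [h2]
    omega
  refine ⟨D, hmk, fun g hg => ?_⟩
  -- `g • D - D` is principal
  have hgx : Pic0.mk D = Pic0.mk (SemilinearAut.degZeroSMulHom g D) := by
    rw [← SemilinearAut.pic0_smul_mk, hmk, hx g hg]
  obtain ⟨ψ, hψ0, hψ⟩ := (mk_eq_mk_iff _ _).mp hgx
  rw [SemilinearAut.coe_degZeroSMulHom] at hψ
  -- `ψ φ ∈ L(Dn n)`
  have hψφ : ψ * φ ∈ riemannRochSpace (Dn n) := by
    rw [mem_rr_iff_of_ne (mul_ne_zero hψ0 hφ0)]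
    intro v
    rw [v.ord_mul hψ0 hφ0, ← hψ v]
    -- `(g • D) v + n [v = P₀] ≥ 0`
    have h1 : 0 ≤ (g • ((D : Divisor K F) + Finsupp.single P₀ (n : ℤ))) v := by
      rw [SemilinearAut.divisor_smul_apply]
      exact hE _
    rw [smul_add, SemilinearAut.smul_single, hP g hg] at h1
    have h2 : Dn n v = (D : Divisor K F) v - v.ord φ + (Finsupp.single P₀ (n : ℤ) : Divisor K F) v := by
      rw [hDcoe, hDn]
      simp only [Finsupp.add_apply, hDφ v]
      ring
    rw [Finsupp.add_apply] at h1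
    rw [h2, Finsupp.sub_apply]
    omega
  obtain ⟨c, hc⟩ := eq_smul_of_mem_of_bot P₀ hdeg (Dn n) hψφ hφ hφ0 hbot
  have hψc : ψ = algebraMap K F c := by
    rw [Algebra.smul_def] at hc
    exact mul_right_cancel₀ hφ0 hc
  have hc0 : c ≠ 0 := by
    rintro rfl
    rw [map_zero] at hψc
    exact hψ0 hψc
  ext v
  have h := hψ v
  rw [hψc, Fermat.Agent.X0.Place.ord_algebraMap v c, Finsupp.sub_apply] at h
  omega

/-- **A function with `H`-fixed divisor has an `H`-fixed constant multiple** (`t` an `H`-fixed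
uniformiser at the `H`-fixed place `P₀`). -/
theorem exists_fixed_function (hdeg : P₀.deg = 1) (hP : ∀ g ∈ H, g • P₀ = P₀) {t : F}
    (ht : P₀.ord t = 1) (htH : ∀ g ∈ H, g • t = t)
    (hL0 : ∀ f : F, f ∈ riemannRochSpace (0 : Divisor K F) → ∃ a : K, f = algebraMap K F a)
    {f : F} (hf : f ≠ 0) (hdiv : ∀ g ∈ H, ∀ v : Place K F, v.ord (g • f) = v.ord f) :
    ∃ c : K, c ≠ 0 ∧ ∀ g ∈ H, g • (c • f) = c • f := by
  have ht0 : t ≠ 0 := by
    rintro rfl
    rw [Place.ord_zero] at ht
    exact zero_ne_one ht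
  -- `f₁ = f t^{-m}` is a unit at `P₀`
  set m : ℤ := P₀.ord f with hm
  set f₁ : F := f * t ^ (-m) with hf₁
  have hf₁0 : f₁ ≠ 0 := mul_ne_zero hf (zpow_ne_zero _ ht0)
  have hord₁ : P₀.ord f₁ = 0 := by
    rw [hf₁, P₀.ord_mul hf (zpow_ne_zero _ ht0), P₀.ord_zpow, ht]
    ring
  have hmem₁ : f₁ ∈ P₀.toValuationSubring :=
    (Fermat.Agent.X0.OrdDx.mem_iff_ord_nonneg P₀ hf₁0).mpr hord₁.ge
  obtain ⟨a, ha⟩ := exists_isValueAt P₀ hdeg hmem₁
  have ha0 : a ≠ 0 := by
    rintro rfl
    rcases isValueAt_iff.mp ha with h | h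
    · rw [map_zero] at h
      exact hf₁0 h
    · rw [map_zero, sub_zero, hord₁] at h
      exact lt_irrefl _ h
  refine ⟨a⁻¹, inv_ne_zero ha0, fun g hg => ?_⟩
  -- `g • f = κ f`
  have hgf0 : g • f ≠ 0 := by
    intro h
    apply hf
    have := congrArg (fun y => g⁻¹ • y) h
    simpa using this
  have hκ : ∃ κ : K, g • f = algebraMap K F κ * f := by
    have hmemL : g • f / f ∈ riemannRochSpace (0 : Divisor K F) := by
      rw [mem_rr_iff_of_ne (div_ne_zero hgf0 hf)]
      intro v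
      rw [div_eq_mul_inv, v.ord_mul hgf0 (inv_ne_zero hf), v.ord_inv, hdiv g hg v]
      simp
    obtain ⟨κ, hκ⟩ := hL0 _ hmemL
    exact ⟨κ, by rw [← hκ]; field_simp⟩
  obtain ⟨κ, hκ⟩ := hκ
  -- value of `g • f₁ = κ f₁` at `g • P₀ = P₀`
  have h1 : IsValueAt P₀ (g • f₁) (SemilinearAut.baseAut g a) := by
    have := isValueAt_smul g ha
    rwa [hP g hg] at this
  have hgf₁ : g • f₁ = algebraMap K F κ * f₁ := by
    have hz : g • (t ^ (-m)) = (g • t) ^ (-m) := map_zpow₀ (SemilinearAut.toRingAut g) t (-m)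
    rw [hf₁, smul_mul', hz, htH g hg, hκ, mul_assoc]
  have h2 : IsValueAt P₀ (g • f₁) (κ * a) := by
    rw [hgf₁]
    exact (isValueAt_algebraMap P₀ κ).mul ha
  have h3 : SemilinearAut.baseAut g a = κ * a := h1.unique h2
  -- conclusion
  have hκ0 : κ ≠ 0 := by
    rintro rfl
    rw [map_zero, zero_mul] at hκ
    exact hgf0 hκ
  rw [Algebra.smul_def, smul_mul', SemilinearAut.smul_algebraMap, hκ, map_inv₀, h3, ← mul_assoc,
    ← map_mul]
  congr 2
  field_simp

include hF in
/-- **An `m`-torsion class fixed by `H` has an `H`-fixed representative `(D, f)`.** -/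
theorem exists_fixed_isRep (hP : ∀ g ∈ H, g • P₀ = P₀) {t : F}
    (ht : P₀.ord t = 1) (htH : ∀ g ∈ H, g • t = t)
    {m : ℕ} {x : Pic0 K F} (hmx : m • x = 0) (hx : ∀ g ∈ H, g • x = x) :
    ∃ (D : Divisor.degZero (K := K) (F := F)) (f : F),
      Filt.IsRep m x D f ∧ (∀ g ∈ H, g • (D : Divisor K F) = D) ∧ ∀ g ∈ H, g • f = f := by
  obtain ⟨D, hDx, hDH⟩ := exists_fixed_divisor hF P₀ H hP x hx
  -- a function for `m D`
  have h1 : Pic0.mk (m • D) = 0 := by
    have : Pic0.mk (m • D) = m • Pic0.mk D := rfl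
    rw [this, hDx, hmx]
  have h2 := (QuotientAddGroup.eq_zero_iff _).mp h1
  rw [AddSubgroup.mem_addSubgroupOf] at h2
  obtain ⟨f, hf, hD⟩ := h2
  have hD' : ∀ P : Place K F, (m • (D : Divisor K F)) P = P.ord f := fun P => hD P
  have hdiv : ∀ g ∈ H, ∀ v : Place K F, v.ord (g • f) = v.ord f := by
    intro g hg v
    have e1 : v.ord (g • f) = (g⁻¹ • v).ord f := by
      have h := SemilinearAut.ord_smul g (g⁻¹ • v) f
      rwa [smul_inv_smul] at h
    rw [e1, ← hD' (g⁻¹ • v), ← SemilinearAut.divisor_smul_apply, smul_comm, hDH g hg, hD' v]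
  obtain ⟨c, hc0, hc⟩ := exists_fixed_function P₀ H (hF.deg_one P₀) hP ht htH hF.L_zero hf hdiv
  have hcf0 : c • f ≠ 0 := by
    rw [Algebra.smul_def]
    exact mul_ne_zero (by rwa [ne_eq, map_eq_zero_iff _ (algebraMap K F).injective]) hf
  refine ⟨D, c • f, ⟨hDx, hcf0, fun P => ?_⟩, hDH, hc⟩
  rw [hD' P, Algebra.smul_def, P.ord_mul
    (by rwa [ne_eq, map_eq_zero_iff _ (algebraMap K F).injective]) hf,
    Fermat.Agent.X0.Place.ord_algebraMap P c, zero_add]

end Fermat.Agent.FF4.RatRep
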